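import Mathlib

/-!
# Characteristic polynomial of an element of a free algebra over a local ring
-/

set_option autoImplicit false

namespace Fermat.Agent.WP

open Polynomial IsLocalRing

section

variable {R S : Type*} [CommRing R] [Nontrivial R] [CommRing S] [Algebra R S]
  [Module.Free R S] [Module.Finite R S]

/-- There is a monic polynomial over `R` killing `x`, whose evaluations are the norms of `c - x`. -/
theorem exists_charpoly (x : S) :
    ∃ P : R[X], P.natDegree = Module.finrank R S ∧ P.Monic ∧ aeval x P = 0 ∧
      (∀ c : R, P.eval c = Algebra.norm R (algebraMap R S c - x)) := by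
  classical
  let b := Module.Free.chooseBasis R S
  refine ⟨(Algebra.leftMulMatrix b x).charpoly, ?_, Matrix.charpoly_monic _, ?_, ?_⟩
  · rw [Matrix.charpoly_natDegree_eq_dim, Module.finrank_eq_card_chooseBasisIndex]
  · apply Algebra.leftMulMatrix_injective b
    rw [map_zero, ← Polynomial.aeval_algHom_apply, Matrix.aeval_self_charpoly]
  · intro c
    rw [Algebra.norm_eq_matrix_det b, map_sub, AlgHom.commutes, Matrix.eval_charpoly]
    rfl

end

section

variable {R K : Type*} [CommRing R] [Field K] [Algebra K R] [Infinite K]

/-- Polynomials over a field agreeing everywhere -/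
theorem map_eq_prod_of_eval {ι : Type*} [Fintype ι] (ρ : R →ₐ[K] K) (P : R[X])
    (t : ι → K) (e : ι → ℕ) (h : ∀ c : K, ρ (P.eval (algebraMap K R c)) = ∏ i, (c - t i) ^ e i) :
    P.map (ρ : R →+* K) = ∏ i, (X - C (t i)) ^ e i := by
  apply Polynomial.funext
  intro c
  have h1 : (P.map (ρ : R →+* K)).eval c = ρ (P.eval (algebraMap K R c)) := by
    have h2 : c = (ρ : R →+* K) (algebraMap K R c) := by simp
    conv_lhs => rw [h2]
    rw [Polynomial.eval_map_apply]
    rfl
  rw [h1, h, Polynomial.eval_prod]
  refine Finset.prod_congr rfl fun i _ => ?_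
  simp

end

end Fermat.Agent.WP
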