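import Fermat.Agent.WP.Tame
import Fermat.Agent.WP.CharPoly
import Fermat.Agent.FF.C1

/-!
# The projection formula for the tame symbol
-/

set_option autoImplicit false
set_option linter.unusedSectionVars false

noncomputable section

open AlgebraicCurve IsDedekindDomain WithZero IsLocalRing

namespace Fermat.Agent.WP

open Fermat.Agent.H05 Fermat.Agent.FF

section

variable {K F F' : Type*} [Field K] [Field F] [Field F'] [Algebra K F] [Algebra K F']
  [Algebra F F'] [IsScalarTower K F F'] [FiniteDimensional F F'] [IsAlgClosed K]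
  [CharZero K] [FunField K F] [FunField K F']

theorem val_lt_one_iff {v : Place K F} {f : F} :
    v.adicValuation f < 1 ↔ f = 0 ∨ 0 < v.ord f := by
  rw [show (1 : ℤᵐ⁰) = exp 0 from rfl, val_lt_exp_iff, neg_zero]

theorem adicValuation_algebraMap_lt_one_iff (w : Place K F') (f : F) :
    w.adicValuation (algebraMap F F' f) < 1 ↔ (w.restrict F).adicValuation f < 1 := by
  rw [val_lt_one_iff, val_lt_one_iff, Place.ord_restrict]
  have he : 0 < w.ramificationIndex F := Place.ramificationIndex_pos w
  have he' : (0 : ℤ) < w.ramificationIndex F := by exact_mod_cast he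
  rw [map_eq_zero, mul_pos_iff_of_pos_left he']

theorem adicValuation_algebraMap_eq_one_iff (w : Place K F') (f : F) :
    w.adicValuation (algebraMap F F' f) = 1 ↔ (w.restrict F).adicValuation f = 1 := by
  rw [val_one_iff, val_one_iff, Place.ord_restrict]
  have he : 0 < w.ramificationIndex F := Place.ramificationIndex_pos w
  have he' : (w.ramificationIndex F : ℤ) ≠ 0 := by exact_mod_cast he.ne'
  rw [ne_eq, map_eq_zero, mul_eq_zero]
  constructor
  · rintro ⟨h1, h2⟩
    exact ⟨h1, h2.resolve_left he'⟩
  · rintro ⟨h1, h2⟩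
    exact ⟨h1, Or.inr h2⟩

theorem uval_restrict (w : Place K F') (f : F) :
    uval w (algebraMap F F' f) = uval (w.restrict F) f := by
  by_cases h : (w.restrict F).adicValuation f = 1
  · apply uval_eq_of_lt
    have h1 := val_spec h.le
    rw [← uval_coe h] at h1
    rw [IsScalarTower.algebraMap_apply K F F', ← map_sub, adicValuation_algebraMap_lt_one_iff]
    exact h1
  · rw [uval_of_ne h, uval_of_ne (fun h' => h ((adicValuation_algebraMap_eq_one_iff w f).mp h'))]

theorem inertiaDeg_eq_one (w : Place K F') : w.inertiaDeg F = 1 := by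
  have := w.deg_restrict_mul_inertiaDeg (F := F)
  rwa [deg_eq_one, deg_eq_one, one_mul] at this

theorem sum_ord_eq (v : Place K F) (f : F') (hf : f ≠ 0) :
    ∑ w ∈ v.fiber F', w.ord f = v.ord (Algebra.norm F f) := by
  have : CharZero F := charZero_of_injective_algebraMap (algebraMap K F).injective
  obtain ⟨S, hS, hsum⟩ := localNormFormula_of_charZero K F F' v
  have hSf : S = v.fiber F' := by
    ext w
    rw [hS, Place.mem_fiber]
  rw [← hsum f hf, hSf]
  refine Finset.sum_congr rfl fun w _ => ?_
  rw [inertiaDeg_eq_one]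
  simp

theorem norm_unit_and_uval (v : Place K F) (f : F')
    (hf : ∀ w : Place K F', w.restrict F = v → w.adicValuation f = 1) :
    v.adicValuation (Algebra.norm F f) = 1 ∧
      uval v (Algebra.norm F f) = ∏ w ∈ v.fiber F', uval w f ^ w.ramificationIndex F := by
  obtain ⟨h1, h2⟩ := norm_regular_and_val v f (fun w hw => (hf w hw).le)
  have h3 : val v (Algebra.norm F f) ≠ 0 := by
    rw [h2, Finset.prod_ne_zero_iff]
    intro w hw
    exact pow_ne_zero _ ((val_ne_zero_iff (hf w (Place.mem_fiber.mp hw)).le).mpr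
      (hf w (Place.mem_fiber.mp hw)))
  have h4 : v.adicValuation (Algebra.norm F f) = 1 := (val_ne_zero_iff h1).mp h3
  refine ⟨h4, ?_⟩
  apply Units.ext
  rw [uval_coe h4, h2, Units.coe_prod]
  refine Finset.prod_congr rfl fun w hw => ?_
  rw [Units.val_pow_eq_pow_val, uval_coe (hf w (Place.mem_fiber.mp hw))]

open Polynomial in
theorem exists_poly (v : Place K F) (θ : F')
    (hθ : ∀ w : Place K F', w.restrict F = v → w.adicValuation θ ≤ 1) :
    ∃ P : (v.toValuationSubring)[X], P.natDegree = Module.finrank F F' ∧ P.Monic ∧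
      ∑ i ∈ Finset.range (P.natDegree + 1), algebraMap F F' ((P.coeff i : v.toValuationSubring) : F)
        * θ ^ i = 0 ∧
      ((P.coeff 0 : v.toValuationSubring) : F) = Algebra.norm F (-θ) ∧
      P.map ((valHom v : v.toValuationSubring →ₐ[K] K) : v.toValuationSubring →+* K) =
        ∏ w ∈ v.fiber F', (X - C (val w θ)) ^ w.ramificationIndex F := by
  classical
  have : CharZero F := charZero_of_injective_algebraMap (algebraMap K F).injective
  have h1 := isDedekindDomain_IC (F' := F') v
  have h2 := finite_IC (F' := F') v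
  obtain ⟨b, rfl⟩ := exists_IC_eq v θ hθ
  obtain ⟨P, hP1, hP2, hP3, hP4⟩ := exists_charpoly (R := v.toValuationSubring) (S := IC F' v) b
  have hnorm : ∀ y : IC F' v, ((Algebra.norm v.toValuationSubring y : v.toValuationSubring) : F) =
      Algebra.norm F (algebraMap (IC F' v) F' y) := by
    intro y
    have h3 : ((Algebra.intNorm v.toValuationSubring (IC F' v) y : v.toValuationSubring) : F) =
        Algebra.norm F (algebraMap (IC F' v) F' y) :=
      Algebra.algebraMap_intNorm (A := v.toValuationSubring) (K := F) (L := F') (B := IC F' v) y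
    rw [← h3, Algebra.intNorm_eq_norm]
  refine ⟨P, ?_, hP2, ?_, ?_, ?_⟩
  · rw [hP1]
    exact (IsFractionRing.finrank_eq v.toValuationSubring F (IC F' v) F').symm
  · have h3 := congrArg (algebraMap (IC F' v) F') hP3
    rw [map_zero, aeval_eq_sum_range, map_sum] at h3
    rw [← h3]
    refine Finset.sum_congr rfl fun i _ => ?_
    rw [Algebra.smul_def, map_mul, map_pow]
    rfl
  · have h3 := hP4 0
    rw [map_zero, zero_sub, ← Polynomial.coeff_zero_eq_eval_zero] at h3
    rw [h3, hnorm, map_neg]
  · rw [← Finset.prod_coe_sort (v.fiber F')]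
    refine map_eq_prod_of_eval (valHom v) P (fun w : v.fiber F' => val w.1 (algebraMap _ _ b))
      (fun w => w.1.ramificationIndex F) ?_
    intro c
    rw [hP4]
    change val v (((Algebra.norm v.toValuationSubring _ : v.toValuationSubring)) : F) = _
    rw [hnorm]
    have h5 : algebraMap (IC F' v) F' (algebraMap v.toValuationSubring (IC F' v)
        (algebraMap K v.toValuationSubring c) - b) =
        algebraMap K F' c - algebraMap (IC F' v) F' b := by
      rw [map_sub, IsScalarTower.algebraMap_apply K F F']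
      rfl
    rw [h5]
    have h6 : ∀ w : Place K F', w.restrict F = v →
        w.adicValuation (algebraMap K F' c - algebraMap (IC F' v) F' b) ≤ 1 := fun w hw =>
      (Valuation.map_sub _ _ _).trans (max_le (w.adicValuation_algebraMap_le_one c) (hθ w hw))
    rw [(norm_regular_and_val v _ h6).2, ← Finset.prod_coe_sort (v.fiber F')]
    refine Finset.prod_congr rfl fun w _ => ?_
    rw [val_sub (w.1.adicValuation_algebraMap_le_one c) (hθ w.1 (Place.mem_fiber.mp w.2)),
      val_algebraMap]

theorem sum_ramificationIndex (v : Place K F) :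
    ∑ w ∈ v.fiber F', w.ramificationIndex F = Module.finrank F F' := by
  obtain ⟨P, hP1, hP2, -, -, hP5⟩ := exists_poly (F' := F') v 0 (fun w _ => by simp)
  have h1 := congrArg Polynomial.natDegree hP5
  rw [hP2.natDegree_map, hP1, Polynomial.natDegree_prod_of_monic _ _
    (fun w _ => (Polynomial.monic_X_sub_C _).pow _)] at h1
  rw [h1]
  refine Finset.sum_congr rfl fun w _ => ?_
  rw [Polynomial.natDegree_pow, Polynomial.natDegree_X_sub_C, mul_one]

theorem val_restrict (w : Place K F') {f : F} (hf : (w.restrict F).adicValuation f ≤ 1) :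
    val w (algebraMap F F' f) = val (w.restrict F) f := by
  apply val_eq_of_lt
  rw [IsScalarTower.algebraMap_apply K F F', ← map_sub, adicValuation_algebraMap_lt_one_iff]
  exact val_spec hf

open Polynomial in
open scoped Classical in
theorem key_identity (v : Place K F) (w0 : Place K F') (hw0 : w0.restrict F = v) (θ : F')
    (hθ0 : θ ≠ 0) (hθ1 : w0.ord θ = 1)
    (hθ : ∀ w : Place K F', w.restrict F = v → w ≠ w0 → w.adicValuation θ = 1)
    (π : F) (hπ0 : π ≠ 0) (hπ : v.ord π = 1) :
    v.ord (Algebra.norm F θ) = 1 ∧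
    val v (Algebra.norm F (-θ) / π) =
      - ((∏ w ∈ (v.fiber F').erase w0, (- val w θ) ^ w.ramificationIndex F) *
        val w0 (θ ^ (w0.ramificationIndex F) / algebraMap F F' π)) := by
  set e := w0.ramificationIndex F with he
  have he0 : 0 < e := Place.ramificationIndex_pos w0
  have hw0f : w0 ∈ v.fiber F' := Place.mem_fiber.mpr hw0
  have hθw0 : w0.adicValuation θ < 1 := val_lt_one_iff.mpr (Or.inr (by omega))
  have hreg : ∀ w : Place K F', w.restrict F = v → w.adicValuation θ ≤ 1 := by
    intro w hw
    by_cases h : w = w0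
    · rw [h]; exact hθw0.le
    · exact (hθ w hw h).le
  obtain ⟨P, hP1, hP2, hP3, hP4, hP5⟩ := exists_poly v θ hreg
  have hvalθ : val w0 θ = 0 := (val_eq_zero_iff hθw0.le).mpr hθw0
  set Q : K[X] := ∏ w ∈ (v.fiber F').erase w0, (X - C (val w θ)) ^ w.ramificationIndex F with hQ
  have hPQ : P.map ((valHom v : v.toValuationSubring →ₐ[K] K) : v.toValuationSubring →+* K) =
      X ^ e * Q := by
    rw [hP5, ← Finset.mul_prod_erase _ _ hw0f, hvalθ, map_zero, sub_zero]
  have hcoeff : ∀ i, val v ((P.coeff i : v.toValuationSubring) : F) =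
      if e ≤ i then Q.coeff (i - e) else 0 := by
    intro i
    rw [← Polynomial.coeff_X_pow_mul', ← hPQ, Polynomial.coeff_map]
    rfl
  have hQ0 : Q.coeff 0 = ∏ w ∈ (v.fiber F').erase w0, (- val w θ) ^ w.ramificationIndex F := by
    rw [Polynomial.coeff_zero_eq_eval_zero, hQ, Polynomial.eval_prod]
    refine Finset.prod_congr rfl fun w _ => ?_
    simp
  have hQ0' : Q.coeff 0 ≠ 0 := by
    rw [hQ0, Finset.prod_ne_zero_iff]
    intro w hw
    obtain ⟨hw1, hw2⟩ := Finset.mem_erase.mp hw
    apply pow_ne_zero
    rw [neg_ne_zero]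
    exact (val_ne_zero_iff (hreg w (Place.mem_fiber.mp hw2))).mpr
      (hθ w (Place.mem_fiber.mp hw2) hw1)
  have hen : e ≤ P.natDegree := by
    by_contra hcon
    push Not at hcon
    have h1 := hcoeff e
    rw [Polynomial.coeff_eq_zero_of_natDegree_lt hcon, if_pos le_rfl, Nat.sub_self] at h1
    apply hQ0'
    rw [← h1]
    simp
  have hordN : v.ord (Algebra.norm F θ) = 1 := by
    rw [← sum_ord_eq v θ hθ0, ← Finset.add_sum_erase _ _ hw0f, hθ1, Finset.sum_eq_zero, add_zero]
    intro w hw
    obtain ⟨hw1, hw2⟩ := Finset.mem_erase.mp hw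
    exact (val_one_iff.mp (hθ w (Place.mem_fiber.mp hw2) hw1)).2
  refine ⟨hordN, ?_⟩
  have hordN' : v.ord (Algebra.norm F (-θ)) = 1 := by
    rw [← sum_ord_eq v (-θ) (neg_ne_zero.mpr hθ0), ← hordN, ← sum_ord_eq v θ hθ0]
    exact Finset.sum_congr rfl fun w _ => H18.ord_neg _ _
  have hN0 : Algebra.norm F (-θ) ≠ 0 := Algebra.norm_ne_zero_iff.mpr (neg_ne_zero.mpr hθ0)
  have hπ' : algebraMap F F' π ≠ 0 := by simpa using hπ0
  have hordπ : w0.ord (algebraMap F F' π) = e := by
    rw [Place.ord_restrict, hw0, hπ, mul_one]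
  -- the terms
  let t : ℕ → F' := fun i =>
    algebraMap F F' ((P.coeff i : v.toValuationSubring) : F) * θ ^ i / algebraMap F F' π
  have hsum : ∑ i ∈ Finset.range (P.natDegree + 1), t i = 0 := by
    rw [← Finset.sum_div, hP3, zero_div]
  have hu : w0.adicValuation (θ ^ e / algebraMap F F' π) = 1 := by
    rw [val_one_iff]
    refine ⟨div_ne_zero (pow_ne_zero _ hθ0) hπ', ?_⟩
    rw [div_eq_mul_inv, w0.ord_mul (pow_ne_zero _ hθ0) (inv_ne_zero hπ'), H18.ord_pow,
      w0.ord_inv, hθ1, hordπ]
    ring
  have hcle : ∀ i, w0.adicValuation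
      (algebraMap F F' ((P.coeff i : v.toValuationSubring) : F)) ≤ 1 := by
    intro i
    rw [← mem_iff_val_le_one]
    have := (Place.mem_restrict_iff (F := F) w0 (f := ((P.coeff i : v.toValuationSubring) : F))).mp
      (by rw [hw0]; exact (P.coeff i).2)
    exact this
  have hlt : ∀ i, i ≠ 0 → i ≠ e → w0.adicValuation (t i) < 1 := by
    intro i hi0 hie
    rcases lt_or_gt_of_ne hie with h | h
    · -- i < e
      have h1 : v.adicValuation ((P.coeff i : v.toValuationSubring) : F) < 1 := by
        rw [← val_eq_zero_iff ((mem_iff_val_le_one v _).mp (P.coeff i).2), hcoeff, if_neg (by omega)]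
      rw [val_lt_one_iff] at h1 ⊢
      rcases h1 with h1 | h1
      · left
        simp only [t, h1, map_zero, zero_mul, zero_div]
      · by_cases h0 : ((P.coeff i : v.toValuationSubring) : F) = 0
        · left
          simp only [t, h0, map_zero, zero_mul, zero_div]
        · right
          have h0' : algebraMap F F' ((P.coeff i : v.toValuationSubring) : F) ≠ 0 := by
            simpa using h0
          simp only [t]
          rw [div_eq_mul_inv, w0.ord_mul (mul_ne_zero h0' (pow_ne_zero _ hθ0)) (inv_ne_zero hπ'),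
            w0.ord_mul h0' (pow_ne_zero _ hθ0), H18.ord_pow, w0.ord_inv, hθ1, hordπ,
            Place.ord_restrict, hw0, ← he]
          have h3 : (e : ℤ) * 1 ≤ (e : ℤ) * v.ord ((P.coeff i : v.toValuationSubring) : F) :=
            mul_le_mul_of_nonneg_left (by omega) (by positivity)
          have h4 : (0 : ℤ) < i := by exact_mod_cast Nat.pos_of_ne_zero hi0
          linarith
    · -- e < i
      have h1 : t i = algebraMap F F' ((P.coeff i : v.toValuationSubring) : F) *
          ((θ ^ e / algebraMap F F' π) * θ ^ (i - e)) := by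
        simp only [t]
        have h2 : θ ^ i = θ ^ e * θ ^ (i - e) := by
          rw [← pow_add]
          congr 1
          omega
        rw [h2]
        ring
      rw [h1, map_mul, map_mul, hu, one_mul, map_pow]
      refine lt_of_le_of_lt (mul_le_of_le_one_left' (hcle i)) ?_
      exact pow_lt_one₀ zero_le hθw0 (by omega)
  have ht0 : t 0 = algebraMap F F' (Algebra.norm F (-θ) / π) := by
    simp only [t]
    rw [pow_zero, mul_one, hP4, map_div₀]
  have hte : t e = algebraMap F F' ((P.coeff e : v.toValuationSubring) : F) *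
      (θ ^ e / algebraMap F F' π) := by
    simp only [t]
    ring
  have hv0 : v.adicValuation (Algebra.norm F (-θ) / π) = 1 := by
    rw [val_one_iff]
    refine ⟨div_ne_zero hN0 hπ0, ?_⟩
    rw [div_eq_mul_inv, v.ord_mul hN0 (inv_ne_zero hπ0), v.ord_inv, hordN', hπ]
    ring
  have ht0r : w0.adicValuation (t 0) ≤ 1 := by
    rw [ht0, (adicValuation_algebraMap_eq_one_iff w0 _).mpr (by rw [hw0]; exact hv0)]
  have hter : w0.adicValuation (t e) ≤ 1 := by
    rw [hte, map_mul, hu, mul_one]
    exact hcle e
  have hlt2 : w0.adicValuation (t 0 + t e) < 1 := by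
    have h1 : t 0 + t e = - ∑ i ∈ ((Finset.range (P.natDegree + 1)).erase 0).erase e, t i := by
      rw [eq_neg_iff_add_eq_zero, add_assoc, Finset.add_sum_erase, Finset.add_sum_erase, hsum]
      · exact Finset.mem_range.mpr (by omega)
      · rw [Finset.mem_erase]
        exact ⟨by omega, Finset.mem_range.mpr (by omega)⟩
    rw [h1, Valuation.map_neg]
    apply Valuation.map_sum_lt _ one_ne_zero
    intro i hi
    obtain ⟨h2, h3⟩ := Finset.mem_erase.mp hi
    obtain ⟨h4, -⟩ := Finset.mem_erase.mp h3
    exact hlt i h4 h2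
  have h5 := (val_eq_zero_iff hlt2.le).mpr hlt2
  rw [val_add ht0r hter, ht0, hte, val_mul (hcle e) hu.le] at h5
  rw [val_restrict w0 (by rw [hw0]; exact hv0.le), hw0,
    val_restrict w0 (by rw [hw0]; exact (mem_iff_val_le_one v _).mp (P.coeff e).2), hw0,
    hcoeff e, if_pos le_rfl, Nat.sub_self, hQ0] at h5
  exact eq_neg_of_add_eq_zero_left h5

end

end Fermat.Agent.WP
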