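import Fermat.Agent.WP.Recip

/-!
# Weil reciprocity, general case
-/

set_option autoImplicit false
set_option linter.unusedSectionVars false

noncomputable section

open AlgebraicCurve IsDedekindDomain WithZero IsLocalRing

namespace Fermat.Agent.WP

open Fermat.Agent.H05 Fermat.Agent.FF
open scoped IntermediateField

section

variable {K F F' : Type*} [Field K] [Field F] [Field F'] [Algebra K F] [Algebra K F']
  [Algebra F F'] [IsScalarTower K F F'] [FiniteDimensional F F'] [IsAlgClosed K]
  [CharZero K] [FunField K F] [FunField K F']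

/-- Regrouping a product over places. -/
theorem finprod_fiber {M : Type*} [CommMonoid M] (a : Place K F' → M) (b : Place K F → M)
    (ha : (Function.mulSupport a).Finite) (hb : (Function.mulSupport b).Finite)
    (h : ∀ v : Place K F, b v = ∏ w ∈ v.fiber F', a w) :
    ∏ᶠ w, a w = ∏ᶠ v, b v := by
  classical
  let S : Finset (Place K F) := hb.toFinset ∪ ha.toFinset.image (fun w => w.restrict F)
  have hSb : Function.mulSupport b ⊆ ↑S := by
    intro v hv
    exact Finset.mem_coe.mpr (Finset.mem_union_left _ (hb.mem_toFinset.mpr hv))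
  let T : Finset (Place K F') := S.biUnion (fun v => v.fiber F')
  have hTa : Function.mulSupport a ⊆ ↑T := by
    intro w hw
    rw [Finset.mem_coe, Finset.mem_biUnion]
    exact ⟨w.restrict F, Finset.mem_union_right _
      (Finset.mem_image.mpr ⟨w, ha.mem_toFinset.mpr hw, rfl⟩), Place.mem_fiber.mpr rfl⟩
  rw [finprod_eq_prod_of_mulSupport_subset _ hSb, finprod_eq_prod_of_mulSupport_subset _ hTa,
    Finset.prod_biUnion]
  · exact Finset.prod_congr rfl fun v _ => (h v).symm
  · intro u _ v _ huv
    change Disjoint (u.fiber F') (v.fiber F')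
    rw [Finset.disjoint_left]
    intro w hwu hwv
    exact huv ((Place.mem_fiber.mp hwu).symm.trans (Place.mem_fiber.mp hwv))

theorem RL_norm (f : F') (hf : f ≠ 0) (g : F) (hg : g ≠ 0) :
    RL K f (algebraMap F F' g) = RL K (Algebra.norm F f) g := by
  have hg' : algebraMap F F' g ≠ 0 := by simpa using hg
  exact finprod_fiber _ _ (mulSupport_tame f _ hf hg')
    (mulSupport_tame (Algebra.norm F f) g (Algebra.norm_ne_zero_iff.mpr hf) hg)
    (fun v => tame_norm v f hf g hg)

end

section

variable {K F : Type*} [Field K] [Field F] [Algebra K F] [IsAlgClosed K] [CharZero K]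
  [FunField K F]

theorem adjoin_gen_eq_top (x : F) :
    K⟮IntermediateField.AdjoinSimple.gen K x⟯ = (⊤ : IntermediateField K K⟮x⟯) := by
  rw [eq_top_iff]
  rintro ⟨y, hy⟩ -
  rw [IntermediateField.mem_adjoin_simple_iff] at hy
  obtain ⟨r, s, rfl⟩ := hy
  rw [IntermediateField.mem_adjoin_simple_iff]
  refine ⟨r, s, Subtype.ext ?_⟩
  have h : ∀ p : Polynomial K,
      ((Polynomial.aeval (IntermediateField.AdjoinSimple.gen K x) p : K⟮x⟯) : F) =
        Polynomial.aeval x p := by
    intro p
    change algebraMap K⟮x⟯ F _ = _
    rw [← Polynomial.aeval_algebraMap_apply]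
    rfl
  change _ = ((Polynomial.aeval (IntermediateField.AdjoinSimple.gen K x) r /
    Polynomial.aeval (IntermediateField.AdjoinSimple.gen K x) s : K⟮x⟯) : F)
  rw [IntermediateField.coe_div, h, h]

theorem transcendental_gen {x : F} (hx : Transcendental K x) :
    Transcendental K (IntermediateField.AdjoinSimple.gen K x) := by
  intro h
  apply hx
  have := h.algebraMap (A := F)
  exact this

theorem finite_over_top (K E : Type*) [Field K] [Field E] [Algebra K E] :
    FiniteDimensional (⊤ : IntermediateField K E) E :=
  Module.finite_of_finrank_pos (by rw [IntermediateField.finrank_top]; exact one_pos)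

theorem funField_adjoin {x : F} (hx : Transcendental K x) : FunField K K⟮x⟯ := by
  refine ⟨IntermediateField.AdjoinSimple.gen K x, transcendental_gen hx, ?_⟩
  rw [adjoin_gen_eq_top x]
  exact finite_over_top K K⟮x⟯

/-- **Weil reciprocity**. -/
theorem weil_reciprocity (f g : F) (hf : f ≠ 0) (hg : g ≠ 0) : RL K f g = 1 := by
  by_cases hgr : g ∈ Set.range (algebraMap K F)
  · obtain ⟨c, rfl⟩ := hgr
    have hc : c ≠ 0 := by
      rintro rfl
      exact hg (map_zero _)
    rw [RL_symm (algebraMap K F c) f, RL_const_left hc, inv_one]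
  · have htr := transcendental_of_not_mem_range hgr
    have hfin : FiniteDimensional K⟮g⟯ F := (isParam_of_transcendental htr).fin
    have hff : FunField K K⟮g⟯ := funField_adjoin htr
    have hgen0 : IntermediateField.AdjoinSimple.gen K g ≠ 0 := trans_ne_zero (transcendental_gen htr)
    have h1 := RL_norm (K := K) (F := K⟮g⟯) (F' := F) f hf
      (IntermediateField.AdjoinSimple.gen K g) hgen0
    rw [IntermediateField.AdjoinSimple.algebraMap_gen] at h1
    rw [h1]
    exact RL_rational (transcendental_gen htr) (adjoin_gen_eq_top g) _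
      (Algebra.norm_ne_zero_iff.mpr hf)

end

end Fermat.Agent.WP
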