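import Fermat.Agent.WP.JZero
import Fermat.Agent.FF.Div

/-!
# Divisibility of `J_0(N)` over `ℚ̄`
-/

set_option autoImplicit false

noncomputable section

open AlgebraicCurve ModularCurve

namespace Fermat.Agent.WP

open Fermat.Agent.H05 Fermat.Agent.FF

/-- `J_0(N)(ℚ̄)` is divisible. -/
theorem divisible_JZero {N : ℕ} [NeZero N] {n : ℕ} (hn : 0 < n) (x : JZero N) :
    ∃ y : JZero N, n • y = x :=
  pic0_divisible n hn x

end Fermat.Agent.WP
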