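import Fermat.Agent.WP.Pairing

/-!
# Galois equivariance of the Weil pairing
-/

set_option autoImplicit false
set_option linter.unusedSectionVars false

noncomputable section

open AlgebraicCurve IsDedekindDomain WithZero IsLocalRing

namespace Fermat.Agent.WP

open Fermat.Agent.H05 Fermat.Agent.FF
open scoped IntermediateField

section

variable {K F : Type*} [Field K] [Field F] [Algebra K F] [IsAlgClosed K] [CharZero K]
  [FunField K F]

variable (σ : SemilinearAut K F)

/-- The action of a semilinear automorphism on the units of the constants. -/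
def baseU : Kˣ →* Kˣ := Units.map (SemilinearAut.baseAut σ : K →+* K)

@[simp] theorem baseU_coe (c : Kˣ) : ((baseU σ c : Kˣ) : K) = SemilinearAut.baseAut σ (c : K) := rfl

theorem smul_ne_zero' {f : F} (hf : f ≠ 0) : σ • f ≠ 0 := by
  rw [SemilinearAut.smul_def]
  exact (map_ne_zero_iff _ (SemilinearAut.toRingAut σ).injective).mpr hf

theorem adicValuation_smul (v : Place K F) (f : F) :
    (σ • v).adicValuation (σ • f) = v.adicValuation f := by
  rcases eq_or_ne f 0 with rfl | hf
  · rw [smul_zero, map_zero, map_zero]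
  · rw [(σ • v).adicValuation_eq_exp_neg_ord (smul_ne_zero' σ hf),
      v.adicValuation_eq_exp_neg_ord hf, SemilinearAut.ord_smul]

theorem uval_smul (v : Place K F) (f : F) : uval (σ • v) (σ • f) = baseU σ (uval v f) := by
  by_cases h : v.adicValuation f = 1
  · apply uval_eq_of_lt
    have h1 := val_spec h.le
    rw [← uval_coe h] at h1
    have h2 : σ • f - algebraMap K F ((baseU σ (uval v f) : Kˣ) : K) =
        σ • (f - algebraMap K F (uval v f)) := by
      rw [smul_sub, SemilinearAut.smul_algebraMap, baseU_coe]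
    rw [h2, adicValuation_smul]
    exact h1
  · rw [uval_of_ne h, uval_of_ne (by rwa [adicValuation_smul]), map_one]

theorem smul_zpow' (f : F) (n : ℤ) : σ • (f ^ n) = (σ • f) ^ n := by
  rw [SemilinearAut.smul_def, SemilinearAut.smul_def, map_zpow₀]

theorem smul_div' (f g : F) : σ • (f / g) = (σ • f) / (σ • g) := by
  rw [SemilinearAut.smul_def, SemilinearAut.smul_def, SemilinearAut.smul_def, map_div₀]

theorem lsym_smul (m : ℤ) (v : Place K F) (a : ℤ) (f : F) (b : ℤ) (g : F) :
    lsym m (σ • v) a (σ • f) b (σ • g) = baseU σ (lsym m v a f b g) := by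
  unfold lsym
  rw [← uval_smul, smul_div', smul_mul', smul_zpow', smul_zpow', smul_zpow']
  have h1 : σ • (-1 : F) = -1 := by rw [smul_neg, smul_one]
  rw [h1]

theorem pair_smul (m : ℤ) (D E : Divisor K F) (h k : F) :
    pair m (σ • D) (σ • h) (σ • E) (σ • k) = baseU σ (pair m D h E k) := by
  unfold pair
  rw [MonoidHom.map_finprod _ (mulSupport_lsym m D E h k)]
  rw [← finprod_comp_equiv (MulAction.toPerm σ : Equiv.Perm (Place K F))]
  refine finprod_congr fun v => ?_
  rw [MulAction.toPerm_apply, SemilinearAut.divisor_smul_apply_smul,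
    SemilinearAut.divisor_smul_apply_smul, lsym_smul]

theorem IsRep.smul {m : ℕ} {x : Pic0 K F} {D : Divisor K F} {h : F} (hx : IsRep m x D h) :
    IsRep m (σ • x) (σ • D) (σ • h) := by
  obtain ⟨h1, hD, rfl⟩ := hx
  refine ⟨⟨smul_ne_zero' σ h1.1, fun v => ?_⟩, SemilinearAut.smul_mem_degZero σ hD, rfl⟩
  rw [SemilinearAut.divisor_smul_apply, ← h1.2]
  have h := SemilinearAut.ord_smul σ (σ⁻¹ • v) h
  rwa [smul_inv_smul] at h

/-- Galois equivariance of the Weil pairing. -/
theorem weilPairing_smul {m : ℕ} {x y : Pic0 K F} (hx : m • x = 0) (hy : m • y = 0) :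
    weilPairing m (σ • x) (σ • y) = baseU σ (weilPairing m x y) := by
  obtain ⟨D, h, hD⟩ := exists_isRep hx
  obtain ⟨E, k, hE⟩ := exists_isRep hy
  rw [weilPairing_eq (hD.smul σ) (hE.smul σ), weilPairing_eq hD hE, pair_smul]

end

end Fermat.Agent.WP
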