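import Fermat.Agent.WP.JZero
import Fermat.Agent.Q.AtkinLehner
import Fermat.Agent.Q.Galois
import Fermat.Prelude.Def_ModularCurve_HeckeModule

/-!
# The Hecke operators are self-adjoint for the Weil pairing
-/

set_option autoImplicit false
set_option linter.unusedSectionVars false
set_option linter.style.haveILetI false

noncomputable section

open AlgebraicCurve IsDedekindDomain WithZero IsLocalRing ModularCurve

namespace Fermat.Agent.WP

open Fermat.Agent.H05 Fermat.Agent.FF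
open scoped IntermediateField

section

variable {K F F' : Type*} [Field K] [Field F] [Field F'] [Algebra K F] [Algebra K F']

/-- norms along two embeddings which differ by an automorphism -/
theorem normAlong_swap (φ ψ : F →ₐ[K] F') (w : F' ≃ₐ[K] F') (h : ∀ x, w (φ x) = ψ x) (z : F') :
    normAlong ψ (w z) = normAlong φ z := by
  have h1 := @Algebra.norm_eq_of_equiv_equiv F F' F F' _ _ _ _ (algebraAlong φ) (algebraAlong ψ)
    (RingEquiv.refl F) (w : F' ≃+* F') (by
      ext x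
      change ψ x = w (φ x)
      rw [h]) z
  exact h1.symm

theorem IsRep.kum {m : ℕ} {x : Pic0 K F} {D : Divisor K F} {h : F} (hx : IsRep m x D h) :
    Kum m x h := by
  obtain ⟨h1, h2, rfl⟩ := hx
  exact ⟨h1.1, ⟨D, h2⟩, rfl, fun v => (h1.2 v).symm⟩

end

section

variable (K : Type*) [Field K] [Algebra ℚ K] [Algebra.IsAlgebraic ℚ K]
  (N ℓ : ℕ) [NeZero N] [NeZero ℓ]

theorem mem_fullC {M : ℕ} [NeZero M] {x : LaurentSeries K}
    (hx : x ∈ laurentBaseChange K (modularFunctionFieldFull M)) :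
    x ∈ modularFunctionFieldFullC K M := by
  rw [← laurentBaseChange_full]; exact hx

/-- The Atkin-Lehner involution on the function field of `X_0(N ℓ)`. -/
def wB (hℓ : Nat.Coprime ℓ N) :
    laurentBaseChange K (modularFunctionFieldFull (N * ℓ)) ≃ₐ[K]
      laurentBaseChange K (modularFunctionFieldFull (N * ℓ)) :=
  Q.transport (laurentBaseChange_full K (N * ℓ)) (Q.wQ K hℓ)

theorem coe_wB (hℓ : Nat.Coprime ℓ N)
    (x : laurentBaseChange K (modularFunctionFieldFull (N * ℓ))) :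
    (wB K N ℓ hℓ x : LaurentSeries K) =
      (Q.wQ K hℓ ⟨x, mem_fullC K x.2⟩ : LaurentSeries K) :=
  Q.coe_transport _ _ _ _

theorem wB_wB (hℓ : Nat.Coprime ℓ N)
    (x : laurentBaseChange K (modularFunctionFieldFull (N * ℓ))) :
    wB K N ℓ hℓ (wB K N ℓ hℓ x) = x :=
  Q.transport_transport _ _ (Q.wQ_wQ K hℓ) x

theorem wB_alpha (hℓ : Nat.Coprime ℓ N)
    (x : laurentBaseChange K (modularFunctionFieldFull N)) :
    wB K N ℓ hℓ (heckeAlphaBar K N ℓ x) = heckeBetaBar K N ℓ x := by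
  apply Subtype.ext
  rw [coe_wB, coe_heckeBetaBar, ← Q.coe_wQ_of_mem K hℓ x (mem_fullC K x.2)]
  exact congrArg (fun z => (Q.wQ K hℓ z : LaurentSeries K))
    (Subtype.ext (coe_heckeAlphaBar (L := K) N ℓ x))

theorem wB_beta (hℓ : Nat.Coprime ℓ N)
    (x : laurentBaseChange K (modularFunctionFieldFull N)) :
    wB K N ℓ hℓ (heckeBetaBar K N ℓ x) = heckeAlphaBar K N ℓ x := by
  rw [← wB_alpha K N ℓ hℓ, wB_wB]

theorem normAlong_beta_alpha (hℓ : Nat.Coprime ℓ N)
    (x : laurentBaseChange K (modularFunctionFieldFull N)) :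
    normAlong (heckeBetaBar K N ℓ) (heckeAlphaBar K N ℓ x) =
      normAlong (heckeAlphaBar K N ℓ) (heckeBetaBar K N ℓ x) := by
  rw [← wB_beta K N ℓ hℓ x]
  exact normAlong_swap _ _ (wB K N ℓ hℓ) (wB_alpha K N ℓ hℓ) _

end

section

variable {L : Type*} [Field L] [IsAlgClosed L] [CharZero L] [Algebra ℚ L]
  [Algebra.IsAlgebraic ℚ L] {N ℓ : ℕ} [NeZero N] [NeZero ℓ]

/-- The Hecke operators are self-adjoint. -/
theorem weilPairing_heckeOperatorAlong (hℓ : Nat.Coprime ℓ N) {m : ℕ} (hm : m ≠ 0)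
    {x y : Pic0 L (laurentBaseChange L (modularFunctionFieldFull N))} (hx : m • x = 0)
    (hy : m • y = 0) :
    weilPairing m (heckeOperatorAlong L N ℓ x) y = weilPairing m x (heckeOperatorAlong L N ℓ y) := by
  obtain ⟨D, h, hD⟩ := exists_isRep hx
  obtain ⟨E, k, hE⟩ := exists_isRep hy
  have hTy := (hE.kum.heckeOperatorAlong (ℓ := ℓ))
  have hTx : IsRep m (heckeOperatorAlong L N ℓ x)
      (Divisor.correspondence (heckeBetaBar L N ℓ) (heckeAlphaBar L N ℓ)
        (heckeBetaBarIntegral L N ℓ) (heckeAlphaBarIntegral L N ℓ) D)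
      (normAlong (heckeAlphaBar L N ℓ) (heckeBetaBar L N ℓ h)) := by
    rw [heckeOperatorAlong_eq (heckeAlphaBarIntegral L N ℓ) (heckeBetaBarIntegral L N ℓ)
      (fundamentalIdentityAlong_of _ _ (finiteAlong_beta L N ℓ)) (finiteAlong_alpha L N ℓ)
      (normFormulaAlong_of _ _)]
    exact hD.correspondence _ _ _ _ (finiteAlong_beta L N ℓ) _ _ _
  have hE' : IsRep m (Pic0.correspondence (heckeAlphaBar L N ℓ) (heckeBetaBar L N ℓ)
      (heckeAlphaBarIntegral L N ℓ) (heckeBetaBarIntegral L N ℓ)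
      (fundamentalIdentityAlong_of _ _ (finiteAlong_alpha L N ℓ)) (finiteAlong_beta L N ℓ)
      (normFormulaAlong_of _ _) y)
      (Divisor.correspondence (heckeAlphaBar L N ℓ) (heckeBetaBar L N ℓ)
        (heckeAlphaBarIntegral L N ℓ) (heckeBetaBarIntegral L N ℓ) E)
      (normAlong (heckeBetaBar L N ℓ) (heckeAlphaBar L N ℓ k)) :=
    hE.correspondence _ _ _ _ (finiteAlong_alpha L N ℓ) _ _ _
  have heq : Pic0.correspondence (heckeAlphaBar L N ℓ) (heckeBetaBar L N ℓ)
      (heckeAlphaBarIntegral L N ℓ) (heckeBetaBarIntegral L N ℓ)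
      (fundamentalIdentityAlong_of _ _ (finiteAlong_alpha L N ℓ)) (finiteAlong_beta L N ℓ)
      (normFormulaAlong_of _ _) y = heckeOperatorAlong L N ℓ y := by
    refine Kum.unique_left hm hE'.kum ?_
    rw [normAlong_beta_alpha L N ℓ hℓ]
    exact hTy
  rw [heq] at hE'
  rw [weilPairing_eq hTx hE, weilPairing_eq hD hE']
  exact pair_correspondence _ _ _ _ (finiteAlong_beta L N ℓ) (finiteAlong_alpha L N ℓ) hD.1 hE.1

end

section

variable {N : ℕ} [NeZero N]

/-- **(W3)** The Hecke operator `T_ℓ`, `ℓ ∤ N`, is self-adjoint for the Weil pairing on `J_0(N)`. -/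
theorem weilPairing_hecke (ℓ : Nat.Primes) (hℓ : ¬ (ℓ : ℕ) ∣ N) {m : ℕ} (hm : m ≠ 0)
    {x y : JZero N} (hx : m • x = 0) (hy : m • y = 0) :
    weilPairing m (heckeOperatorBar N ℓ x) y = weilPairing m x (heckeOperatorBar N ℓ y) := by
  haveI : NeZero (ℓ : ℕ) := ⟨ℓ.2.ne_zero⟩
  exact weilPairing_heckeOperatorAlong ((Nat.Prime.coprime_iff_not_dvd ℓ.2).mpr hℓ) hm hx hy

/-- **(W2)** Galois equivariance. -/
theorem weilPairing_galois (σ : AlgebraicClosure ℚ ≃ₐ[ℚ] AlgebraicClosure ℚ) {m : ℕ}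
    {x y : JZero N} (hx : m • x = 0) (hy : m • y = 0) :
    ((weilPairing m (σ • x) (σ • y) : (AlgebraicClosure ℚ)ˣ) : AlgebraicClosure ℚ) =
      σ (weilPairing m x y : AlgebraicClosure ℚ) := by
  have h := weilPairing_smul (arithmeticGalois (modularFunctionFieldFull N) σ) hx hy
  exact congrArg Units.val h

end

end Fermat.Agent.WP
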