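import Fermat.Agent.WP.NondegPair
import Fermat.Agent.H05.HeckeInputs
import Fermat.Agent.Descent.PlaceLift
import Fermat.Agent.H05_Frob

/-!
# Nondegeneracy of the Weil pairing on `J_0(N)`
-/

set_option autoImplicit false
set_option linter.unusedSectionVars false
set_option linter.style.haveILetI false

noncomputable section

open AlgebraicCurve IsDedekindDomain WithZero IsLocalRing ModularCurve

namespace Fermat.Agent.WP

open Fermat.Agent.H05 Fermat.Agent.FF
open scoped IntermediateField

section

variable (K L : Type*) [Field K] [Field L] [Algebra K L] [Algebra ℚ K] [Algebra ℚ L] (N : ℕ)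
  [NeZero N]

/-- the embedding of function fields as an algebra -/
abbrev bcAlgebra : Algebra (laurentBaseChange K (modularFunctionFieldFull N))
    (laurentBaseChange L (modularFunctionFieldFull N)) :=
  (H26.embBC L (modularFunctionFieldFull N)).toAlgebra

/-- the constants -/
abbrev bcAlgebra' : Algebra K (laurentBaseChange L (modularFunctionFieldFull N)) :=
  ((algebraMap L (laurentBaseChange L (modularFunctionFieldFull N))).comp
    (algebraMap K L)).toAlgebra

theorem bc_tower1 : letI := bcAlgebra K L N; letI := bcAlgebra' K L N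
    IsScalarTower K (laurentBaseChange K (modularFunctionFieldFull N))
      (laurentBaseChange L (modularFunctionFieldFull N)) := by
  letI := bcAlgebra K L N
  letI := bcAlgebra' K L N
  exact IsScalarTower.of_algebraMap_eq fun c =>
    (H26.embBC_algebraMap L (modularFunctionFieldFull N) c).symm

theorem bc_tower2 : letI := bcAlgebra' K L N
    IsScalarTower K L (laurentBaseChange L (modularFunctionFieldFull N)) := by
  letI := bcAlgebra' K L N
  exact IsScalarTower.of_algebraMap_eq fun c => rfl

theorem bpair_bc [CharZero L] : letI := bcAlgebra K L N; letI := bcAlgebra' K L N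
    haveI := bc_tower1 K L N; haveI := bc_tower2 K L N
    BPair K (laurentBaseChange K (modularFunctionFieldFull N)) L
      (laurentBaseChange L (modularFunctionFieldFull N)) := by
  letI := bcAlgebra K L N
  letI := bcAlgebra' K L N
  haveI := bc_tower1 K L N
  haveI := bc_tower2 K L N
  refine ⟨⟨jB K N, ?_⟩, ?_⟩
  · intro h
    have h2 : algebraMap (laurentBaseChange K (modularFunctionFieldFull N))
        (laurentBaseChange L (modularFunctionFieldFull N)) (jB K N) = jB L N := by
      apply Subtype.ext
      change H26.cEmb K L (jqModC K) = jqModC L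
      exact coeffMap_jqModC (algebraMap K L)
    rw [h2] at h
    apply transcendental_j L
    exact (isAlgebraic_algHom_iff (laurentBaseChange L (modularFunctionFieldFull N)).val
      (laurentBaseChange L (modularFunctionFieldFull N)).val.injective).mpr h
  · rw [eq_top_iff]
    rintro ⟨z, hz⟩ -
    let E := laurentBaseChange L (modularFunctionFieldFull N)
    let T : IntermediateField L E := IntermediateField.adjoin L
      (Set.range (algebraMap (laurentBaseChange K (modularFunctionFieldFull N)) E))
    have hle : E ≤ T.map E.val := by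
      change laurentBaseChange L (modularFunctionFieldFull N) ≤ _
      rw [laurentBaseChange, IntermediateField.adjoin_le_iff]
      rintro _ ⟨x, hx, rfl⟩
      rw [SetLike.mem_coe, IntermediateField.mem_map]
      refine ⟨algebraMap (laurentBaseChange K (modularFunctionFieldFull N)) E
        ⟨coeffEmb K x, coeffEmb_mem_laurentBaseChange K hx⟩,
        IntermediateField.subset_adjoin L _ ⟨_, rfl⟩, ?_⟩
      change H26.cEmb K L (coeffEmb K x) = coeffEmb L x
      exact H26.cEmb_coeffEmb x
    have hz' := hle hz
    rw [IntermediateField.mem_map] at hz'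
    obtain ⟨t, ht, htz⟩ := hz'
    have : t = ⟨z, hz⟩ := Subtype.ext htz
    rw [← this]
    exact ht

end

section

instance isAlgebraic_qb : Algebra.IsAlgebraic ℚ (AlgebraicClosure ℚ) :=
  IsAlgClosure.isAlgebraic

/-- an embedding of `ℚ̄` in `ℂ` -/
abbrev qbC : Algebra (AlgebraicClosure ℚ) ℂ :=
  (IsAlgClosed.lift (R := ℚ) (S := AlgebraicClosure ℚ) (M := ℂ)).toRingHom.toAlgebra

variable (N : ℕ) [NeZero N]

/-- **Nondegeneracy of the Weil pairing on `J_0(N)`.** -/
theorem weilPairing_nondeg_JZero {m : ℕ} (hm : 0 < m) {x : JZero N} (hx : m • x = 0)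
    (h : ∀ y : JZero N, m • y = 0 → weilPairing m x y = 1) : x = 0 := by
  letI := qbC
  letI := bcAlgebra (AlgebraicClosure ℚ) ℂ N
  letI := bcAlgebra' (AlgebraicClosure ℚ) ℂ N
  haveI := bc_tower1 (AlgebraicClosure ℚ) ℂ N
  haveI := bc_tower2 (AlgebraicClosure ℚ) ℂ N
  haveI := bpair_bc (AlgebraicClosure ℚ) ℂ N
  exact weilPairing_nondeg_of_pair (laurentBaseChange ℂ (modularFunctionFieldFull N)) hm hx h

theorem torsion_divisible_JZero {m n : ℕ} (hm : 0 < m) (hn : 0 < n) {x : JZero N}
    (hx : m • x = 0) : ∃ y : JZero N, n • y = x ∧ (m * n) • y = 0 := by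
  letI := qbC
  letI := bcAlgebra (AlgebraicClosure ℚ) ℂ N
  letI := bcAlgebra' (AlgebraicClosure ℚ) ℂ N
  haveI := bc_tower1 (AlgebraicClosure ℚ) ℂ N
  haveI := bc_tower2 (AlgebraicClosure ℚ) ℂ N
  haveI := bpair_bc (AlgebraicClosure ℚ) ℂ N
  exact torsion_divisible_of_pair (laurentBaseChange ℂ (modularFunctionFieldFull N)) hm hn hx

end

end Fermat.Agent.WP
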