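import Fermat.Agent.WP.Galois

/-!
# Adjunction for the Weil pairing
-/

set_option autoImplicit false
set_option linter.unusedSectionVars false
set_option linter.style.haveILetI false

noncomputable section

open AlgebraicCurve IsDedekindDomain WithZero IsLocalRing

namespace Fermat.Agent.WP

open Fermat.Agent.H05 Fermat.Agent.FF
open scoped IntermediateField

section

variable {K F : Type*} [Field K] [Field F] [Algebra K F] [IsAlgClosed K]
  [FunField K F]

theorem lsym_zero_left {m : ℤ} {v : Place K F} {f : F} (hf : v.adicValuation f = 1) (b : ℤ)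
    (g : F) : lsym m v 0 f b g = uval v f ^ b := by
  unfold lsym
  rw [mul_zero, zero_mul, zpow_zero, one_mul, zpow_zero, div_one, uval_zpow v f hf]

end

section

variable {K F F' : Type*} [Field K] [Field F] [Field F'] [Algebra K F] [Algebra K F']
  [Algebra F F'] [IsScalarTower K F F'] [FiniteDimensional F F'] [IsAlgClosed K]
  [CharZero K] [FunField K F] [FunField K F']

theorem ord_algebraMap_fiber {v : Place K F} {w : Place K F'} (hw : w.restrict F = v) (f : F) :
    w.ord (algebraMap F F' f) = w.ramificationIndex F * v.ord f := by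
  rw [Place.ord_restrict, hw]

/-- The projection formula for the local symbols. -/
theorem lsym_norm (m : ℤ) (v : Place K F) (a : ℤ) (h : F) (hh : h ≠ 0) (ha : v.ord h = m * a)
    (b : Place K F' → ℤ) (k : F') (hk : k ≠ 0)
    (hb : ∀ w ∈ v.fiber F', w.ord k = m * b w) :
    lsym m v a h (∑ w ∈ v.fiber F', b w) (Algebra.norm F k) =
      ∏ w ∈ v.fiber F', lsym m w (w.ramificationIndex F * a) (algebraMap F F' h) (b w) k := by
  classical
  obtain ⟨π, hπ⟩ := IsDiscreteValuationRing.exists_irreducible v.toValuationSubring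
  have hπ1 : v.ord (π : F) = 1 := v.ord_coe_irreducible hπ
  have hπ0 : (π : F) ≠ 0 := by simpa [ne_eq, ZeroMemClass.coe_eq_zero] using hπ.ne_zero
  have hNk : Algebra.norm F k ≠ 0 := Algebra.norm_ne_zero_iff.mpr hk
  have hNord : v.ord (Algebra.norm F k) = m * ∑ w ∈ v.fiber F', b w := by
    rw [← sum_ord_eq v k hk, Finset.mul_sum]
    exact Finset.sum_congr rfl hb
  set p : F := (π : F) ^ a with hp
  have hp0 : p ≠ 0 := zpow_ne_zero _ hπ0
  have hpord : v.ord p = a := by rw [hp, v.ord_zpow, hπ1, mul_one]
  set u : F := h / p ^ m with hu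
  have hpm : p ^ m ≠ 0 := zpow_ne_zero _ hp0
  have hpmord : v.ord (p ^ m) = m * a := by rw [v.ord_zpow, hpord]
  have hu0 : u ≠ 0 := div_ne_zero hh hpm
  have huord : v.ord u = 0 := by
    rw [hu, div_eq_mul_inv, v.ord_mul hh (inv_ne_zero hpm), v.ord_inv, hpmord, ha]
    ring
  have huval : v.adicValuation u = 1 := val_one_iff.mpr ⟨hu0, huord⟩
  have hdec : h = p ^ m * u := by rw [hu]; field_simp
  have hL : lsym m v a h (∑ w ∈ v.fiber F', b w) (Algebra.norm F k) =
      tame v p (Algebra.norm F k) * uval v u ^ (∑ w ∈ v.fiber F', b w) := by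
    have h1 := lsym_mul_left (m := m) (v := v) (a := a) (a' := 0)
      (b := ∑ w ∈ v.fiber F', b w) hpm hu0 hNk hpmord (by rw [huord, mul_zero]) hNord
    rw [← hdec, add_zero] at h1
    rw [h1, lsym_zero_left huval]
    congr 1
    have h2 := lsym_principal (m := m) (v := v) (f := p) hNord
    rwa [hpord] at h2
  have hR : ∀ w ∈ v.fiber F', lsym m w (w.ramificationIndex F * a) (algebraMap F F' h) (b w) k =
      tame w (algebraMap F F' p) k * uval v u ^ b w := by
    intro w hw
    have hw' := Place.mem_fiber.mp hw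
    have hpm' : algebraMap F F' p ^ m ≠ 0 := zpow_ne_zero _ (by simpa using hp0)
    have hu' : algebraMap F F' u ≠ 0 := by simpa using hu0
    have hpord' : w.ord (algebraMap F F' p) = w.ramificationIndex F * a := by
      rw [ord_algebraMap_fiber hw', hpord]
    have hpmord' : w.ord (algebraMap F F' p ^ m) = m * (w.ramificationIndex F * a) := by
      rw [w.ord_zpow, hpord']
    have huord' : w.ord (algebraMap F F' u) = m * 0 := by
      rw [ord_algebraMap_fiber hw', huord, mul_zero, mul_zero]
    have h1 := lsym_mul_left (m := m) (v := w) (a := w.ramificationIndex F * a) (a' := 0)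
      (b := b w) hpm' hu' hk hpmord' huord' (hb w hw)
    rw [← map_zpow₀, ← map_mul, ← hdec, add_zero] at h1
    rw [h1, lsym_zero_left ((adicValuation_algebraMap_eq_one_iff w u).mpr (by rw [hw']; exact huval)),
      uval_restrict, hw']
    congr 1
    have h2 := lsym_principal (m := m) (v := w) (f := algebraMap F F' p) (hb w hw)
    rw [hpord', ← map_zpow₀] at h2
    exact h2
  rw [hL, Finset.prod_congr rfl hR, Finset.prod_mul_distrib]
  congr 1
  · rw [tame_symm v (Algebra.norm F k) p, tame_norm v k hk p hp0, ← Finset.prod_inv_distrib]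
    exact Finset.prod_congr rfl fun w _ => (tame_symm w _ _).symm
  · induction v.fiber F' using Finset.cons_induction with
    | empty => simp
    | cons a s ha ih => rw [Finset.prod_cons, Finset.sum_cons, zpow_add, ih]

theorem pushforward_apply_fiber (E : Divisor K F') (v : Place K F) :
    Divisor.pushforward F E v = ∑ w ∈ v.fiber F', E w := by
  classical
  rw [Divisor.pushforward_apply, ← Finset.sum_filter]
  have h1 : ∀ w ∈ E.support.filter (fun w => w.restrict F = v), E w * (w.inertiaDeg F : ℤ) = E w := by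
    intro w _
    rw [inertiaDeg_eq_one]
    simp
  rw [Finset.sum_congr rfl h1]
  apply Finset.sum_subset
  · intro w hw
    exact Place.mem_fiber.mpr (Finset.mem_filter.mp hw).2
  · intro w hw hw'
    by_contra hne
    exact hw' (Finset.mem_filter.mpr ⟨Finsupp.mem_support_iff.mpr hne, Place.mem_fiber.mp hw⟩)

theorem HasDiv.pullback {m : ℤ} {D : Divisor K F} {h : F} (hD : HasDiv m D h) :
    HasDiv m (Divisor.pullback F' D) (algebraMap F F' h) :=
  ⟨by simpa using hD.1, fun w => by
    rw [Divisor.pullback_apply, Place.ord_restrict, hD.2]; ring⟩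

theorem HasDiv.pushforward {m : ℤ} {E : Divisor K F'} {k : F'} (hE : HasDiv m E k) :
    HasDiv m (Divisor.pushforward F E) (Algebra.norm F k) :=
  ⟨Algebra.norm_ne_zero_iff.mpr hE.1, fun v => by
    rw [pushforward_apply_fiber, ← sum_ord_eq v k hE.1, Finset.mul_sum]
    exact Finset.sum_congr rfl fun w _ => hE.2 w⟩

/-- Adjunction for the pairing of divisors. -/
theorem pair_adj {m : ℤ} {D : Divisor K F} {h : F} {E : Divisor K F'} {k : F'}
    (hD : HasDiv m D h) (hE : HasDiv m E k) :
    pair m (Divisor.pullback F' D) (algebraMap F F' h) E k =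
      pair m D h (Divisor.pushforward F E) (Algebra.norm F k) := by
  unfold pair
  refine finprod_fiber _ _ (mulSupport_lsym m (Divisor.pullback F' D) E (algebraMap F F' h) k)
    (mulSupport_lsym m D (Divisor.pushforward F E) h (Algebra.norm F k)) ?_
  intro v
  rw [pushforward_apply_fiber, lsym_norm m v (D v) h hD.1 (hD.2 v) (fun w => E w) k hE.1
    (fun w _ => hE.2 w)]
  refine Finset.prod_congr rfl fun w hw => ?_
  rw [Divisor.pullback_apply, Place.mem_fiber.mp hw]

end

section Along

variable {K F F' : Type*} [Field K] [Field F] [Field F'] [Algebra K F] [Algebra K F']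
  [IsAlgClosed K] [CharZero K] [FunField K F] [FunField K F']

theorem HasDiv.pullbackAlong (φ : F →ₐ[K] F') (hφ : φ.toRingHom.IsIntegral)
    (hfin : FiniteAlong K φ) {m : ℤ} {D : Divisor K F} {h : F} (hD : HasDiv m D h) :
    HasDiv m (Divisor.pullbackAlong φ hφ D) (φ h) := by
  letI := algebraAlong φ
  haveI := isScalarTower_along φ
  haveI := isIntegral_along φ hφ
  haveI : Module.Finite F F' := hfin
  exact hD.pullback (F' := F')

theorem HasDiv.pushforwardAlong (φ : F →ₐ[K] F') (hφ : φ.toRingHom.IsIntegral)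
    (hfin : FiniteAlong K φ) {m : ℤ} {E : Divisor K F'} {k : F'} (hE : HasDiv m E k) :
    HasDiv m (Divisor.pushforwardAlong φ hφ E) (normAlong φ k) := by
  letI := algebraAlong φ
  haveI := isScalarTower_along φ
  haveI := isIntegral_along φ hφ
  haveI : Module.Finite F F' := hfin
  exact hE.pushforward (F := F)

theorem pair_adj_along (φ : F →ₐ[K] F') (hφ : φ.toRingHom.IsIntegral)
    (hfin : FiniteAlong K φ) {m : ℤ} {D : Divisor K F} {h : F} {E : Divisor K F'} {k : F'}
    (hD : HasDiv m D h) (hE : HasDiv m E k) :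
    pair m (Divisor.pullbackAlong φ hφ D) (φ h) E k =
      pair m D h (Divisor.pushforwardAlong φ hφ E) (normAlong φ k) := by
  letI := algebraAlong φ
  haveI := isScalarTower_along φ
  haveI := isIntegral_along φ hφ
  haveI : Module.Finite F F' := hfin
  exact pair_adj hD hE

variable (φ ψ : F →ₐ[K] F') (hφ : φ.toRingHom.IsIntegral) (hψ : ψ.toRingHom.IsIntegral)

/-- Adjunction for correspondences, on divisors. -/
theorem pair_correspondence (hφf : FiniteAlong K φ) (hψf : FiniteAlong K ψ) {m : ℤ}
    {D E : Divisor K F} {h k : F} (hD : HasDiv m D h) (hE : HasDiv m E k) :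
    pair m (Divisor.correspondence φ ψ hφ hψ D) (normAlong ψ (φ h)) E k =
      pair m D h (Divisor.correspondence ψ φ hψ hφ E) (normAlong φ (ψ k)) := by
  rw [Divisor.correspondence_apply, Divisor.correspondence_apply,
    pair_symm m E (Divisor.pushforwardAlong ψ hψ (Divisor.pullbackAlong φ hφ D)) k,
    ← pair_adj_along ψ hψ hψf hE (hD.pullbackAlong φ hφ hφf), ← pair_symm,
    pair_adj_along φ hφ hφf hD (hE.pullbackAlong ψ hψ hψf)]

theorem IsRep.correspondence (hφf : FiniteAlong K φ) (hFI : FundamentalIdentityAlong K φ hφ)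
    (hfin : FiniteAlong K ψ) (hN : NormFormulaAlong K ψ hfin) {m : ℕ} {x : Pic0 K F}
    {D : Divisor K F} {h : F} (hD : IsRep m x D h) :
    IsRep m (Pic0.correspondence φ ψ hφ hψ hFI hfin hN x) (Divisor.correspondence φ ψ hφ hψ D)
      (normAlong ψ (φ h)) := by
  obtain ⟨h1, h2, rfl⟩ := hD
  refine ⟨(h1.pullbackAlong φ hφ hφf).pushforwardAlong ψ hψ hfin,
    Divisor.correspondence_mem_degZero φ ψ hφ hψ hFI h2, rfl⟩

/-- Adjunction for correspondences. -/
theorem weilPairing_correspondence (hφf : FiniteAlong K φ) (hψf : FiniteAlong K ψ)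
    (hFI : FundamentalIdentityAlong K φ hφ) (hFI' : FundamentalIdentityAlong K ψ hψ)
    (hN : NormFormulaAlong K ψ hψf) (hN' : NormFormulaAlong K φ hφf)
    {m : ℕ} {x y : Pic0 K F} (hx : m • x = 0) (hy : m • y = 0) :
    weilPairing m (Pic0.correspondence φ ψ hφ hψ hFI hψf hN x) y =
      weilPairing m x (Pic0.correspondence ψ φ hψ hφ hFI' hφf hN' y) := by
  obtain ⟨D, h, hD⟩ := exists_isRep hx
  obtain ⟨E, k, hE⟩ := exists_isRep hy
  rw [weilPairing_eq (hD.correspondence φ ψ hφ hψ hφf hFI hψf hN) hE,
    weilPairing_eq hD (hE.correspondence ψ φ hψ hφ hψf hFI' hφf hN'),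
    pair_correspondence φ ψ hφ hψ hφf hψf hD.1 hE.1]

end Along

end Fermat.Agent.WP
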