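import Fermat.Agent.WP.Recip2
import Fermat.Agent.H05.Kum

/-!
# The Weil pairing
-/

set_option autoImplicit false
set_option linter.unusedSectionVars false

noncomputable section

open AlgebraicCurve IsDedekindDomain WithZero IsLocalRing

namespace Fermat.Agent.WP

open Fermat.Agent.H05 Fermat.Agent.FF
open scoped IntermediateField

section

variable {K F : Type*} [Field K] [Field F] [Algebra K F] [IsAlgClosed K] [CharZero K]
  [FunField K F]

/-- `m D = div h`. -/
def HasDiv (m : ℤ) (D : Divisor K F) (h : F) : Prop :=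
  h ≠ 0 ∧ ∀ v : Place K F, v.ord h = m * D v

theorem HasDiv.mul {m : ℤ} {D E : Divisor K F} {h k : F} (h1 : HasDiv m D h)
    (h2 : HasDiv m E k) : HasDiv m (D + E) (h * k) :=
  ⟨mul_ne_zero h1.1 h2.1, fun v => by
    rw [v.ord_mul h1.1 h2.1, h1.2, h2.2, Finsupp.add_apply]; ring⟩

theorem HasDiv.inv {m : ℤ} {D : Divisor K F} {h : F} (h1 : HasDiv m D h) :
    HasDiv m (-D) h⁻¹ :=
  ⟨inv_ne_zero h1.1, fun v => by
    rw [v.ord_inv, h1.2, Finsupp.neg_apply]; ring⟩

theorem hasDiv_const (m : ℤ) {c : K} (hc : c ≠ 0) : HasDiv m (0 : Divisor K F) (algebraMap K F c) :=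
  ⟨by simpa using hc, fun v => by rw [H18.ord_algebraMap]; simp⟩

theorem hasDiv_one (m : ℤ) : HasDiv m (0 : Divisor K F) (1 : F) :=
  ⟨one_ne_zero, fun v => by simp⟩

theorem HasDiv.nsmul {m : ℤ} {D : Divisor K F} {h : F} (h1 : HasDiv m D h) (n : ℕ) :
    HasDiv m (n • D) (h ^ n) := by
  induction n with
  | zero => simpa using hasDiv_one m
  | succ n ih => rw [succ_nsmul, pow_succ]; exact ih.mul h1

theorem lsym_zero_zero (m : ℤ) (v : Place K F) (f g : F) : lsym m v 0 f 0 g = 1 := by
  unfold lsym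
  simp

theorem mulSupport_lsym (m : ℤ) (D E : Divisor K F) (h k : F) :
    Function.HasFiniteMulSupport fun v : Place K F => lsym m v (D v) h (E v) k := by
  classical
  change (Function.mulSupport fun v : Place K F => lsym m v (D v) h (E v) k).Finite
  refine (D.support ∪ E.support).finite_toSet.subset ?_
  intro v hv
  by_contra hcon
  rw [Finset.mem_coe, Finset.mem_union, not_or, Finsupp.notMem_support_iff,
    Finsupp.notMem_support_iff] at hcon
  apply hv
  change lsym m v (D v) h (E v) k = 1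
  rw [hcon.1, hcon.2, lsym_zero_zero]

/-- The product of all local symbols. -/
def pair (m : ℤ) (D : Divisor K F) (h : F) (E : Divisor K F) (k : F) : Kˣ :=
  ∏ᶠ v : Place K F, lsym m v (D v) h (E v) k

theorem pair_mul_left {m : ℤ} {D D' E : Divisor K F} {h h' k : F} (h1 : HasDiv m D h)
    (h2 : HasDiv m D' h') (h3 : HasDiv m E k) :
    pair m (D + D') (h * h') E k = pair m D h E k * pair m D' h' E k := by
  unfold pair
  rw [← finprod_mul_distrib (mulSupport_lsym m D E h k) (mulSupport_lsym m D' E h' k)]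
  exact finprod_congr fun v => by
    rw [Finsupp.add_apply]
    exact lsym_mul_left h1.1 h2.1 h3.1 (h1.2 v) (h2.2 v) (h3.2 v)

theorem pair_symm (m : ℤ) (D E : Divisor K F) (h k : F) :
    pair m E k D h = (pair m D h E k)⁻¹ := by
  unfold pair
  rw [← finprod_inv_distrib]
  exact finprod_congr fun v => lsym_symm m v (D v) h (E v) k

theorem pair_mul_right {m : ℤ} {D E E' : Divisor K F} {h k k' : F} (h1 : HasDiv m D h)
    (h2 : HasDiv m E k) (h3 : HasDiv m E' k') :
    pair m D h (E + E') (k * k') = pair m D h E k * pair m D h E' k' := by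
  rw [pair_symm m (E + E') D (k * k') h, pair_mul_left h2 h3 h1, mul_inv, ← pair_symm, ← pair_symm]

theorem pair_one_left (m : ℤ) {E : Divisor K F} {k : F} (h3 : HasDiv m E k) :
    pair m 0 (1 : F) E k = 1 := by
  have h := pair_mul_left (hasDiv_one m) (hasDiv_one m) h3
  rw [add_zero, mul_one] at h
  exact left_eq_mul.mp h

theorem pair_inv_left {m : ℤ} {D E : Divisor K F} {h k : F} (h1 : HasDiv m D h)
    (h3 : HasDiv m E k) : pair m (-D) h⁻¹ E k = (pair m D h E k)⁻¹ := by
  have h2 := pair_mul_left h1 h1.inv h3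
  rw [add_neg_cancel, mul_inv_cancel₀ h1.1, pair_one_left m h3] at h2
  exact (inv_eq_of_mul_eq_one_right h2.symm).symm

theorem pair_pow_left {m : ℤ} {D E : Divisor K F} {h k : F} (h1 : HasDiv m D h)
    (h3 : HasDiv m E k) (n : ℕ) : pair m (n • D) (h ^ n) E k = pair m D h E k ^ n := by
  induction n with
  | zero => rw [zero_nsmul, pow_zero, pow_zero, pair_one_left m h3]
  | succ n ih => rw [succ_nsmul, pow_succ, pow_succ, pair_mul_left (h1.nsmul n) h1 h3, ih]

/-- pairing with a constant -/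
theorem pair_const_left {m : ℤ} {E : Divisor K F} {k : F} (hE : Divisor.degree E = 0) {c : K}
    (hc : c ≠ 0) : pair m 0 (algebraMap K F c) E k = 1 := by
  classical
  unfold pair
  have h1 : ∀ v : Place K F, lsym m v ((0 : Divisor K F) v) (algebraMap K F c) (E v) k =
      (Units.mk0 c hc) ^ E v := by
    intro v
    unfold lsym
    rw [Finsupp.zero_apply, mul_zero, zero_mul, zpow_zero, one_mul, zpow_zero, div_one,
      uval_zpow v _ (val_const v hc)]
    congr 1
    exact uval_algebraMap v (Units.mk0 c hc)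
  rw [finprod_congr h1]
  have h2 : (Function.mulSupport fun v : Place K F => (Units.mk0 c hc) ^ E v) ⊆ ↑E.support := by
    intro v hv
    rw [Finset.mem_coe, Finsupp.mem_support_iff]
    intro h
    exact hv (by
      change (Units.mk0 c hc) ^ E v = 1
      rw [h, zpow_zero])
  rw [finprod_eq_prod_of_mulSupport_subset _ h2]
  have h3 := ev_algebraMap (F := F) (Units.mk0 c hc) E
  unfold ev at h3
  simp only [uval_algebraMap] at h3
  rw [Finsupp.prod] at h3
  rw [h3, hE, zpow_zero]

/-- Pairing with a principal pair. -/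
theorem pair_principal_left {m : ℤ} {D E : Divisor K F} {f k : F} (hf : f ≠ 0)
    (hD : ∀ v, D v = v.ord f) (h3 : HasDiv m E k) : pair m D (f ^ m) E k = 1 := by
  rw [← weil_reciprocity (K := K) f k hf h3.1]
  unfold pair RL
  refine finprod_congr fun v => ?_
  rw [hD v, lsym_principal (h3.2 v)]

theorem exists_const_of_ord_eq_zero {f : F} (hf : f ≠ 0) (h : ∀ v : Place K F, v.ord f = 0) :
    ∃ c : K, c ≠ 0 ∧ f = algebraMap K F c := by
  obtain ⟨c, hc⟩ := mem_range_of_forall_le (fun v => (val_one_iff.mpr ⟨hf, h v⟩).le)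
  refine ⟨c, ?_, hc.symm⟩
  rintro rfl
  exact hf (by rw [← hc, map_zero])

/-- The pairing only depends on the class of the left argument. -/
theorem pair_eq_left {m : ℤ} {D D' E : Divisor K F} {h h' k : F}
    (h1 : HasDiv m D h) (h2 : HasDiv m D' h') (h3 : HasDiv m E k)
    (hE : Divisor.degree E = 0) (hDD : (D - D').IsPrincipal) :
    pair m D h E k = pair m D' h' E k := by
  obtain ⟨f, hf, hDf⟩ := hDD
  -- `h / h' = c f^m`
  have h4 : HasDiv m (D - D') (h * h'⁻¹) := by
    rw [sub_eq_add_neg]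
    exact h1.mul h2.inv
  have h5 : HasDiv m (D - D') (f ^ m) := ⟨zpow_ne_zero _ hf, fun v => by
    rw [v.ord_zpow, hDf]⟩
  have h6 := h4.mul h5.inv
  obtain ⟨c, hc, hcf⟩ := exists_const_of_ord_eq_zero (K := K) h6.1 (fun v => by
    rw [h6.2, Finsupp.add_apply, Finsupp.neg_apply]; ring)
  have h7 : h = h' * (f ^ m * algebraMap K F c) := by
    rw [← hcf]
    have := h2.1
    have := h5.1
    field_simp
  have h8 : D = D' + ((D - D') + 0) := by abel
  calc pair m D h E k = pair m (D' + ((D - D') + 0)) (h' * (f ^ m * algebraMap K F c)) E k := by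
        rw [← h8, ← h7]
    _ = pair m D' h' E k := by
        rw [pair_mul_left h2 (h5.mul (hasDiv_const m hc)) h3,
          pair_mul_left h5 (hasDiv_const m hc) h3, pair_const_left hE hc,
          pair_principal_left hf hDf h3, one_mul, mul_one]

/-- `(D, h)` represents the class `x` with `m x = 0`. -/
def IsRep (m : ℕ) (x : Pic0 K F) (D : Divisor K F) (h : F) : Prop :=
  HasDiv (m : ℤ) D h ∧ ∃ hD : D ∈ Divisor.degZero (K := K) (F := F), Pic0.mk ⟨D, hD⟩ = x

theorem IsRep.degree {m : ℕ} {x : Pic0 K F} {D : Divisor K F} {h : F} (hx : IsRep m x D h) :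
    Divisor.degree D = 0 := by
  obtain ⟨_, hD, _⟩ := hx
  exact Divisor.mem_degZero.mp hD

theorem exists_isRep {m : ℕ} {x : Pic0 K F} (hx : m • x = 0) : ∃ D h, IsRep m x D h := by
  obtain ⟨f, hf, D, hD, hDf⟩ := exists_kum hx
  exact ⟨D, f, ⟨hf, fun v => (hDf v).symm⟩, D.2, hD⟩

theorem IsRep.sub_isPrincipal {m : ℕ} {x : Pic0 K F} {D D' : Divisor K F} {h h' : F}
    (h1 : IsRep m x D h) (h2 : IsRep m x D' h') : (D - D').IsPrincipal := by
  obtain ⟨_, hD, hDx⟩ := h1
  obtain ⟨_, hD', hDx'⟩ := h2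
  have h3 : Pic0.mk (⟨D, hD⟩ - ⟨D', hD'⟩ : Divisor.degZero (K := K) (F := F)) = 0 := by
    have : Pic0.mk (⟨D, hD⟩ - ⟨D', hD'⟩ : Divisor.degZero (K := K) (F := F)) =
      Pic0.mk ⟨D, hD⟩ - Pic0.mk ⟨D', hD'⟩ := rfl
    rw [this, hDx, hDx', sub_self]
  rw [pic0_mk_eq_zero_iff] at h3
  exact h3

theorem IsRep.add {m : ℕ} {x y : Pic0 K F} {D E : Divisor K F} {h k : F}
    (h1 : IsRep m x D h) (h2 : IsRep m y E k) : IsRep m (x + y) (D + E) (h * k) := by
  obtain ⟨h1, hD, rfl⟩ := h1
  obtain ⟨h2, hE, rfl⟩ := h2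
  exact ⟨h1.mul h2, add_mem hD hE, rfl⟩

theorem IsRep.nsmul_eq_zero {m : ℕ} {x : Pic0 K F} {D : Divisor K F} {h : F}
    (h1 : IsRep m x D h) : m • x = 0 := by
  obtain ⟨h1, hD, rfl⟩ := h1
  refine Kum.nsmul_eq_zero (f := h) ⟨h1.1, ⟨D, hD⟩, rfl, fun v => (h1.2 v).symm⟩

open scoped Classical in
/-- **The Weil pairing** on `Pic0[m]`, junk value `1` outside `Pic0[m]`. -/
def weilPairing (m : ℕ) (x y : Pic0 K F) : Kˣ :=
  if h : m • x = 0 ∧ m • y = 0 then
    pair (m : ℤ) (exists_isRep h.1).choose (exists_isRep h.1).choose_spec.choose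
      (exists_isRep h.2).choose (exists_isRep h.2).choose_spec.choose
  else 1

theorem weilPairing_eq {m : ℕ} {x y : Pic0 K F} {D E : Divisor K F} {h k : F}
    (hx : IsRep m x D h) (hy : IsRep m y E k) :
    weilPairing m x y = pair (m : ℤ) D h E k := by
  have h1 : m • x = 0 ∧ m • y = 0 := ⟨hx.nsmul_eq_zero, hy.nsmul_eq_zero⟩
  rw [weilPairing, dif_pos h1]
  have hx' := (exists_isRep h1.1).choose_spec.choose_spec
  have hy' := (exists_isRep h1.2).choose_spec.choose_spec
  rw [pair_eq_left hx'.1 hx.1 hy'.1 hy'.degree (hx'.sub_isPrincipal hx),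
    pair_symm _ (exists_isRep h1.2).choose D (exists_isRep h1.2).choose_spec.choose h,
    pair_eq_left hy'.1 hy.1 hx.1 hx.degree (hy'.sub_isPrincipal hy), ← pair_symm]

theorem weilPairing_add_left {m : ℕ} {x x' y : Pic0 K F} (hx : m • x = 0) (hx' : m • x' = 0)
    (hy : m • y = 0) : weilPairing m (x + x') y = weilPairing m x y * weilPairing m x' y := by
  obtain ⟨D, h, hD⟩ := exists_isRep hx
  obtain ⟨D', h', hD'⟩ := exists_isRep hx'
  obtain ⟨E, k, hE⟩ := exists_isRep hy
  rw [weilPairing_eq (hD.add hD') hE, weilPairing_eq hD hE, weilPairing_eq hD' hE,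
    pair_mul_left hD.1 hD'.1 hE.1]

theorem weilPairing_symm (m : ℕ) (x y : Pic0 K F) :
    weilPairing m y x = (weilPairing m x y)⁻¹ := by
  by_cases hxy : m • x = 0 ∧ m • y = 0
  · obtain ⟨D, h, hD⟩ := exists_isRep hxy.1
    obtain ⟨E, k, hE⟩ := exists_isRep hxy.2
    rw [weilPairing_eq hD hE, weilPairing_eq hE hD, pair_symm]
  · rw [weilPairing, weilPairing, dif_neg hxy, dif_neg (fun h' => hxy ⟨h'.2, h'.1⟩), inv_one]

theorem weilPairing_mul_symm (m : ℕ) (x y : Pic0 K F) :
    weilPairing m x y * weilPairing m y x = 1 := by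
  rw [weilPairing_symm m x y, mul_inv_cancel]

theorem weilPairing_add_right {m : ℕ} {x y y' : Pic0 K F} (hx : m • x = 0) (hy : m • y = 0)
    (hy' : m • y' = 0) : weilPairing m x (y + y') = weilPairing m x y * weilPairing m x y' := by
  rw [weilPairing_symm m (y + y') x, weilPairing_add_left hy hy' hx, mul_inv, ← weilPairing_symm,
    ← weilPairing_symm]

theorem weilPairing_pow (m : ℕ) (x y : Pic0 K F) : weilPairing m x y ^ m = 1 := by
  by_cases hxy : m • x = 0 ∧ m • y = 0
  · obtain ⟨D, h, hD⟩ := exists_isRep hxy.1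
    obtain ⟨E, k, hE⟩ := exists_isRep hxy.2
    rw [weilPairing_eq hD hE, ← pair_pow_left hD.1 hE.1, ← zpow_natCast]
    refine pair_principal_left hD.1.1 (fun v => ?_) hE.1
    rw [hD.1.2 v, Finsupp.smul_apply, nsmul_eq_mul]
  · rw [weilPairing, dif_neg hxy, one_pow]

theorem weilPairing_zero_left (m : ℕ) (y : Pic0 K F) : weilPairing m 0 y = 1 := by
  by_cases hy : m • y = 0
  · have h0 : m • (0 : Pic0 K F) = 0 := nsmul_zero m
    have h := weilPairing_add_left h0 h0 hy
    rw [add_zero] at h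
    exact left_eq_mul.mp h
  · rw [weilPairing, dif_neg (fun h' => hy h'.2)]

theorem weilPairing_self (m : ℕ) (x : Pic0 K F) : weilPairing m x x = 1 := by
  by_cases hx : m • x = 0
  · obtain ⟨D, h, hD⟩ := exists_isRep hx
    rw [weilPairing_eq hD hD]
    unfold pair
    have h1 : ∀ v : Place K F, lsym (m : ℤ) v (D v) h (D v) h =
        ((-1 : Kˣ) ^ m) ^ D v := by
      intro v
      unfold lsym
      rw [mul_div_assoc, div_self (zpow_ne_zero _ hD.1.1), mul_one]
      apply uval_eq_of_lt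
      have h2 : (-1 : F) ^ ((m : ℤ) * D v * D v) = algebraMap K F
          ((((-1 : Kˣ) ^ m) ^ D v : Kˣ) : K) := by
        have h3 : Even ((m : ℤ) * D v * D v - (m : ℤ) * D v) := by
          have h4 : (m : ℤ) * D v * D v - (m : ℤ) * D v = (m : ℤ) * (D v * (D v - 1)) := by ring
          rw [h4]
          exact (Int.even_mul_pred_self (D v)).mul_left _
        have h5 : (m : ℤ) * D v * D v = ((m : ℤ) * D v * D v - (m : ℤ) * D v) + m * D v := by ring
        rw [h5, zpow_add₀ (neg_ne_zero.mpr one_ne_zero), h3.neg_one_zpow, one_mul, zpow_mul,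
          zpow_natCast, Units.val_zpow_eq_zpow_val, map_zpow₀, Units.val_pow_eq_pow_val, map_pow,
          Units.val_neg, Units.val_one, map_neg, map_one]
      rw [h2, sub_self, map_zero]
      exact zero_lt_one
    rw [finprod_congr h1]
    classical
    have h2 : (Function.mulSupport fun v : Place K F => ((-1 : Kˣ) ^ m) ^ D v) ⊆
        ↑D.support := by
      intro v hv
      rw [Finset.mem_coe, Finsupp.mem_support_iff]
      intro h
      exact hv (by
        change ((-1 : Kˣ) ^ m) ^ D v = 1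
        rw [h, zpow_zero])
    rw [finprod_eq_prod_of_mulSupport_subset _ h2]
    have h3 := ev_algebraMap (F := F) ((-1 : Kˣ) ^ m) D
    unfold ev at h3
    simp only [uval_algebraMap] at h3
    rw [Finsupp.prod] at h3
    rw [h3, hD.degree, zpow_zero]
  · rw [weilPairing, dif_neg (fun h' => hx h'.1)]

end

end Fermat.Agent.WP
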