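import Fermat.Agent.WP.Nondeg2
import Fermat.Agent.FF.L5
import Fermat.Agent.FF.C15

/-!
# Weil pairing: divisibility over `ℂ`, base change of constants, nondegeneracy
-/

set_option autoImplicit false
set_option linter.unusedSectionVars false
set_option linter.style.haveILetI false

noncomputable section

open AlgebraicCurve IsDedekindDomain WithZero IsLocalRing

namespace Fermat.Agent.WP

open Fermat.Agent.H05 Fermat.Agent.FF
open scoped IntermediateField

section

/-- Over `ℂ`, `Pic0` is divisible. -/
theorem pic0_divisible_complex {F : Type*} [Field F] [Algebra ℂ F] [FunField ℂ F] {n : ℕ}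
    (hn : n ≠ 0) (x : Pic0 ℂ F) : ∃ y : Pic0 ℂ F, n • y = x := by
  obtain ⟨Φ, -, M, hM⟩ := exists_uniformization (F := F)
  obtain ⟨h, -, rfl⟩ := hM x
  refine ⟨Φ ((n : ℂ)⁻¹ • h), ?_⟩
  rw [← map_nsmul]
  congr 1
  rw [← Nat.cast_smul_eq_nsmul ℂ, smul_smul, mul_inv_cancel₀ (by exact_mod_cast hn), one_smul]

end

section

variable {k F₀ K F : Type*} [Field k] [Field F₀] [Field K] [Field F] [Algebra k F₀]
    [Algebra K F] [Algebra k K] [Algebra F₀ F] [Algebra k F] [IsScalarTower k F₀ F]
    [IsScalarTower k K F] [IsAlgClosed k] [IsAlgClosed K] [FunField k F₀] [FunField K F]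
    [CharZero k] [CharZero K] [hB : BPair k F₀ K F]

variable (k K) in
/-- base change on units of constants -/
def bcU : kˣ →* Kˣ := Units.map (algebraMap k K : k →* K)

omit [IsAlgClosed k] [IsAlgClosed K] [CharZero k] [CharZero K] in
theorem bcU_injective : Function.Injective (bcU k K) :=
  Units.map_injective (algebraMap k K).injective

theorem con_adic_eq_one (v : Place k F₀) (f : F₀) :
    (con K F v).adicValuation (algebraMap F₀ F f) = 1 ↔ v.adicValuation f = 1 := by
  rw [val_one_iff, val_one_iff, con_ord, ne_eq, ne_eq, map_eq_zero]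

theorem con_adic_lt_one (v : Place k F₀) (f : F₀) :
    (con K F v).adicValuation (algebraMap F₀ F f) < 1 ↔ v.adicValuation f < 1 := by
  rw [val_lt_one_iff, val_lt_one_iff, con_ord, map_eq_zero]

theorem uval_con (v : Place k F₀) (f : F₀) :
    uval (con K F v) (algebraMap F₀ F f) = bcU k K (uval v f) := by
  by_cases h : v.adicValuation f = 1
  · apply uval_eq_of_lt
    have h1 := val_spec h.le
    rw [← uval_coe h] at h1
    have h2 : algebraMap K F ((bcU k K (uval v f) : Kˣ) : K) =
        algebraMap F₀ F (algebraMap k F₀ (uval v f)) := by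
      rw [algebraMap_comm (K := K)]
      rfl
    rw [h2, ← map_sub, con_adic_lt_one]
    exact h1
  · rw [uval_of_ne h, uval_of_ne (fun h' => h ((con_adic_eq_one v f).mp h')), map_one]

theorem lsym_con (m : ℤ) (v : Place k F₀) (a : ℤ) (f : F₀) (b : ℤ) (g : F₀) :
    lsym m (con K F v) a (algebraMap F₀ F f) b (algebraMap F₀ F g) = bcU k K (lsym m v a f b g) := by
  unfold lsym
  rw [← uval_con (F := F)]
  congr 1
  rw [map_div₀, map_mul, map_zpow₀, map_zpow₀, map_zpow₀, map_neg, map_one]

theorem pair_con (m : ℤ) (D E : Divisor k F₀) (h g : F₀) :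
    pair m (conD D : Divisor K F) (algebraMap F₀ F h) (conD E) (algebraMap F₀ F g) =
      bcU k K (pair m D h E g) := by
  classical
  unfold pair
  rw [MonoidHom.map_finprod _ (mulSupport_lsym m D E h g)]
  have h1 : (Function.mulSupport fun w : Place K F =>
      lsym m w ((conD D : Divisor K F) w) (algebraMap F₀ F h) ((conD E : Divisor K F) w)
        (algebraMap F₀ F g)) ⊆ Set.range (con K F : Place k F₀ → Place K F) := by
    intro w hw
    by_contra hcon
    apply hw
    have hcon' : ∀ v : Place k F₀, con K F v ≠ w := fun v hv => hcon ⟨v, hv⟩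
    change lsym m w _ _ _ _ = 1
    rw [conD_apply_of_ne D hcon', conD_apply_of_ne E hcon', lsym_zero_zero]
  rw [← finprod_mem_univ (fun w : Place K F => lsym m w ((conD D : Divisor K F) w)
      (algebraMap F₀ F h) ((conD E : Divisor K F) w) (algebraMap F₀ F g))]
  rw [← finprod_mem_inter_mulSupport, Set.univ_inter,
    ← Set.inter_eq_right.mpr h1, finprod_mem_inter_mulSupport,
    finprod_mem_range con_injective]
  refine finprod_congr fun v => ?_
  rw [conD_apply_con, conD_apply_con, lsym_con]

theorem isRep_con {m : ℕ} {x : Pic0 k F₀} {D : Divisor k F₀} {h : F₀} (hx : IsRep m x D h) :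
    IsRep m (conP x : Pic0 K F) (conD D) (algebraMap F₀ F h) := by
  obtain ⟨h1, h2, rfl⟩ := hx
  have hD : (conD D : Divisor K F) ∈ Divisor.degZero (K := K) (F := F) := by
    rw [Divisor.mem_degZero, degree_conD]
    exact Divisor.mem_degZero.mp h2
  refine ⟨⟨by simpa using h1.1, fun w => ?_⟩, hD, ?_⟩
  · by_cases hw : ∃ v : Place k F₀, con K F v = w
    · obtain ⟨v, rfl⟩ := hw
      rw [conD_apply_con, con_ord, h1.2]
    · push Not at hw
      rw [conD_apply_of_ne _ hw, nonconst_ord hw, mul_zero]
  · rw [conP_mk]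
    rfl

/-- The Weil pairing commutes with base change of the constants. -/
theorem weilPairing_conP {m : ℕ} {x y : Pic0 k F₀} (hx : m • x = 0) (hy : m • y = 0) :
    weilPairing m (conP x : Pic0 K F) (conP y) = bcU k K (weilPairing m x y) := by
  obtain ⟨D, h, hD⟩ := exists_isRep hx
  obtain ⟨E, g, hE⟩ := exists_isRep hy
  rw [weilPairing_eq (isRep_con hD) (isRep_con hE), weilPairing_eq hD hE, pair_con]

end

end Fermat.Agent.WP
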