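import Mathlib

/-!
# Determinants in short exact sequences
-/

set_option autoImplicit false

namespace Fermat.Agent.WP

section

variable {K V W U : Type*} [Field K] [AddCommGroup V] [Module K V] [AddCommGroup W] [Module K W]
  [AddCommGroup U] [Module K U]

/-- multiplicativity of the determinant in short exact sequences -/
theorem det_of_exact [FiniteDimensional K V] (i : W →ₗ[K] V) (q : V →ₗ[K] U)
    (hi : Function.Injective i)
    (hq : Function.Surjective q) (hiq : LinearMap.range i = LinearMap.ker q)
    (f : W →ₗ[K] W) (e : V →ₗ[K] V) (g : U →ₗ[K] U)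
    (h1 : i ∘ₗ f = e ∘ₗ i) (h2 : q ∘ₗ e = g ∘ₗ q) :
    LinearMap.det e = LinearMap.det f * LinearMap.det g := by
  have he : LinearMap.ker q ≤ (LinearMap.ker q).comap e := by
    intro x hx
    rw [Submodule.mem_comap, LinearMap.mem_ker]
    have := LinearMap.congr_fun h2 x
    rw [LinearMap.comp_apply, LinearMap.comp_apply, LinearMap.mem_ker.mp hx, map_zero] at this
    exact this
  rw [LinearMap.det_eq_det_mul_det (LinearMap.ker q) e he]
  congr 1
  · let φ : W ≃ₗ[K] LinearMap.ker q :=
      (LinearEquiv.ofInjective i hi).trans (LinearEquiv.ofEq _ _ hiq)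
    rw [← LinearMap.det_conj f φ]
    congr 1
    apply LinearMap.ext
    intro y
    obtain ⟨x, rfl⟩ := φ.surjective y
    apply Subtype.ext
    simp only [LinearMap.comp_apply, LinearEquiv.coe_coe, LinearEquiv.symm_apply_apply]
    have := LinearMap.congr_fun h1 x
    simp only [LinearMap.comp_apply] at this
    change e (i x) = i (f x)
    exact this.symm
  · let ψ : (V ⧸ LinearMap.ker q) ≃ₗ[K] U := q.quotKerEquivOfSurjective hq
    rw [← LinearMap.det_conj _ ψ]
    congr 1
    apply LinearMap.ext
    intro y
    obtain ⟨x, rfl⟩ := hq y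
    have hψ : ψ.symm (q x) = (LinearMap.ker q).mkQ x := by
      rw [LinearEquiv.symm_apply_eq]
      rfl
    simp only [LinearMap.comp_apply, LinearEquiv.coe_coe, hψ]
    have := LinearMap.congr_fun h2 x
    simp only [LinearMap.comp_apply] at this
    rw [← this]
    rfl

end

section

variable {R S : Type*} [CommRing R] [CommRing S] [Algebra R S]

open IsLocalRing Module

attribute [local instance] Ideal.Quotient.field

theorem norm_quotient_mk [IsLocalRing R] [Module.Free R S] [Module.Finite R S] (x : S) :
    Algebra.norm (R ⧸ maximalIdeal R)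
      (Ideal.Quotient.mk (Ideal.map (algebraMap R S) (maximalIdeal R)) x) =
      Ideal.Quotient.mk (maximalIdeal R) (Algebra.norm R x) := by
  let ι := Module.Free.ChooseBasisIndex R S
  let b : Module.Basis ι R S := Module.Free.chooseBasis R S
  classical
  rw [Algebra.norm_eq_matrix_det b, Algebra.norm_eq_matrix_det
    (IsLocalRing.basisQuotient b), RingHom.map_det]
  congr 1
  ext i j
  simp only [Algebra.leftMulMatrix_apply, Algebra.coe_lmul_eq_mul, LinearMap.toMatrix_apply,
    IsLocalRing.basisQuotient_apply, LinearMap.mul_apply', Matrix.map_apply, ← map_mul,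
    IsLocalRing.basisQuotient_repr, RingHom.mapMatrix_apply]

theorem norm_quotient_field [IsLocalRing R] [Module.Free R S] [Module.Finite R S]
    {K : Type*} [Field K] [Algebra K R] [Algebra K S] [IsScalarTower K R S]
    (h : Function.Bijective (algebraMap K (R ⧸ maximalIdeal R)))
    (I : Ideal S) (hI : Ideal.map (algebraMap R S) (maximalIdeal R) = I) (x : S) :
    algebraMap K (R ⧸ maximalIdeal R) (Algebra.norm K (Ideal.Quotient.mk I x)) =
      Ideal.Quotient.mk (maximalIdeal R) (Algebra.norm R x) := by
  subst hI
  rw [← norm_quotient_mk]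
  exact Algebra.norm_eq_of_ringEquiv (RingEquiv.ofBijective _ h) (by
    ext c
    change algebraMap (R ⧸ maximalIdeal R) _ (algebraMap K (R ⧸ maximalIdeal R) c) = _
    change Ideal.Quotient.mk _ (algebraMap R S (algebraMap K R c)) =
      Ideal.Quotient.mk _ (algebraMap K S c)
    rw [← IsScalarTower.algebraMap_apply]) _

end

end Fermat.Agent.WP
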