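import Fermat.Agent.WP.NormVal

/-!
# Evaluating functions on divisors
-/

set_option autoImplicit false
set_option linter.unusedSectionVars false

noncomputable section

open AlgebraicCurve IsDedekindDomain WithZero IsLocalRing

namespace Fermat.Agent.WP

open Fermat.Agent.H05 Fermat.Agent.FF

section

variable {K F : Type*} [Field K] [Field F] [Algebra K F] [IsAlgClosed K] [FunField K F]

open scoped Classical in
/-- the value of a unit `f` at `v`, junk value `1` otherwise. -/
def uval (v : Place K F) (f : F) : Kˣ :=
  if h : v.adicValuation f = 1 then Units.mk0 (val v f) ((val_ne_zero_iff h.le).mpr h) else 1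

theorem uval_coe {v : Place K F} {f : F} (h : v.adicValuation f = 1) :
    (uval v f : K) = val v f := by
  rw [uval, dif_pos h, Units.val_mk0]

theorem uval_of_ne {v : Place K F} {f : F} (h : v.adicValuation f ≠ 1) : uval v f = 1 := by
  rw [uval, dif_neg h]

theorem uval_eq_of_lt {v : Place K F} {f : F} {c : Kˣ}
    (h : v.adicValuation (f - algebraMap K F c) < 1) : uval v f = c := by
  have h1 : v.adicValuation f ≤ 1 := by
    have : f = (f - algebraMap K F c) + algebraMap K F c := by ring
    rw [this]
    exact (Valuation.map_add _ _ _).trans (max_le h.le (v.adicValuation_algebraMap_le_one _))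
  have h2 := val_eq_of_lt h
  have h3 : v.adicValuation f = 1 := by
    rw [← val_ne_zero_iff h1, h2]
    exact c.ne_zero
  apply Units.ext
  rw [uval_coe h3, h2]

@[simp] theorem uval_one (v : Place K F) : uval v (1 : F) = 1 := by
  apply uval_eq_of_lt
  simp

theorem uval_algebraMap (v : Place K F) (c : Kˣ) : uval v (algebraMap K F c) = c := by
  apply uval_eq_of_lt
  simp

theorem uval_mul {v : Place K F} {f g : F} (hf : v.adicValuation f = 1)
    (hg : v.adicValuation g = 1) : uval v (f * g) = uval v f * uval v g := by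
  apply Units.ext
  rw [uval_coe (by rw [map_mul, hf, hg, one_mul]), Units.val_mul, uval_coe hf, uval_coe hg,
    val_mul hf.le hg.le]

theorem uval_inv (v : Place K F) (f : F) : uval v f⁻¹ = (uval v f)⁻¹ := by
  by_cases h : v.adicValuation f = 1
  · apply Units.ext
    rw [uval_coe (by rw [map_inv₀, h, inv_one]), Units.val_inv_eq_inv_val, uval_coe h, val_inv h]
  · rw [uval_of_ne h, uval_of_ne (fun h' => h (by
      rw [map_inv₀] at h'
      rw [← inv_inv (v.adicValuation f), h', inv_one])), inv_one]

theorem uval_pow (v : Place K F) (f : F) (hf : v.adicValuation f = 1) (n : ℕ) :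
    uval v (f ^ n) = uval v f ^ n := by
  induction n with
  | zero => simp
  | succ n ih => rw [pow_succ, pow_succ, uval_mul (by rw [map_pow, hf, one_pow]) hf, ih]

theorem uval_zpow (v : Place K F) (f : F) (hf : v.adicValuation f = 1) (n : ℤ) :
    uval v (f ^ n) = uval v f ^ n := by
  cases n with
  | ofNat n => rw [Int.ofNat_eq_natCast, zpow_natCast, zpow_natCast, uval_pow v f hf]
  | negSucc n => rw [zpow_negSucc, zpow_negSucc, uval_inv, uval_pow v f hf]

/-- Evaluation on divisors -/
def ev (f : F) (D : Divisor K F) : Kˣ := D.prod fun v n => uval v f ^ n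

theorem ev_zero (f : F) : ev f (0 : Divisor K F) = 1 := by simp [ev]

theorem ev_add (f : F) (D E : Divisor K F) : ev f (D + E) = ev f D * ev f E := by
  classical
  unfold ev
  exact Finsupp.prod_add_index (fun v _ => zpow_zero _) (fun v _ a b => zpow_add _ a b)

theorem ev_single (f : F) (v : Place K F) (n : ℤ) :
    ev f (Finsupp.single v n : Divisor K F) = uval v f ^ n := by
  unfold ev
  exact Finsupp.prod_single_index (zpow_zero _)

variable (K) in
/-- Evaluation on divisors, as a homomorphism -/
def evHom (f : F) : Divisor K F →+ Additive Kˣ where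
  toFun D := Additive.ofMul (ev f D)
  map_zero' := by rw [ev_zero]; rfl
  map_add' D E := by rw [ev_add]; rfl

theorem ev_neg (f : F) (D : Divisor K F) : ev f (-D) = (ev f D)⁻¹ :=
  (evHom K f).map_neg D

theorem ev_sub (f : F) (D E : Divisor K F) : ev f (D - E) = ev f D / ev f E :=
  (evHom K f).map_sub D E

theorem ev_nsmul (f : F) (n : ℕ) (D : Divisor K F) : ev f (n • D) = ev f D ^ n :=
  (evHom K f).map_nsmul n D

theorem ev_zsmul (f : F) (n : ℤ) (D : Divisor K F) : ev f (n • D) = ev f D ^ n :=
  (evHom K f).map_zsmul n D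

/-- `f` is a unit along `D`. -/
def UnitOn (f : F) (D : Divisor K F) : Prop := ∀ v ∈ D.support, v.adicValuation f = 1

theorem ev_mul {f g : F} {D : Divisor K F} (hf : UnitOn f D) (hg : UnitOn g D) :
    ev (f * g) D = ev f D * ev g D := by
  unfold ev
  rw [← Finsupp.prod_mul]
  refine Finsupp.prod_congr fun v hv => ?_
  rw [uval_mul (hf v hv) (hg v hv), mul_zpow]

theorem ev_inv (f : F) (D : Divisor K F) : ev f⁻¹ D = (ev f D)⁻¹ := by
  unfold ev
  rw [← Finsupp.prod_inv]
  refine Finsupp.prod_congr fun v hv => ?_
  rw [uval_inv, inv_zpow]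

theorem UnitOn.inv {f : F} {D : Divisor K F} (hf : UnitOn f D) : UnitOn f⁻¹ D := fun v hv => by
  rw [map_inv₀, hf v hv, inv_one]

theorem UnitOn.mul {f g : F} {D : Divisor K F} (hf : UnitOn f D) (hg : UnitOn g D) :
    UnitOn (f * g) D := fun v hv => by
  rw [map_mul, hf v hv, hg v hv, one_mul]

theorem UnitOn.pow {f : F} {D : Divisor K F} (hf : UnitOn f D) (n : ℕ) :
    UnitOn (f ^ n) D := fun v hv => by
  rw [map_pow, hf v hv, one_pow]

theorem unitOn_one (D : Divisor K F) : UnitOn (1 : F) D := fun v _ => by
  rw [map_one]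

theorem unitOn_algebraMap {c : K} (hc : c ≠ 0) (D : Divisor K F) : UnitOn (algebraMap K F c) D :=
  fun v _ => val_const v hc

theorem ev_one (D : Divisor K F) : ev (1 : F) D = 1 := by
  unfold ev
  simp [Finsupp.prod]

theorem ev_pow {f : F} {D : Divisor K F} (hf : UnitOn f D) (n : ℕ) :
    ev (f ^ n) D = ev f D ^ n := by
  induction n with
  | zero => rw [pow_zero, pow_zero, ev_one]
  | succ n ih => rw [pow_succ, pow_succ, ev_mul (hf.pow n) hf, ih]

theorem ev_div {f g : F} {D : Divisor K F} (hf : UnitOn f D) (hg : UnitOn g D) :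
    ev (f / g) D = ev f D / ev g D := by
  rw [div_eq_mul_inv, ev_mul hf hg.inv, ev_inv, div_eq_mul_inv]

variable [CharZero K]

theorem degree_eq_finsuppSum (D : Divisor K F) : Divisor.degree D = D.sum fun _ n => n := by
  rw [degree_eq_sum deg_eq_one]

theorem ev_algebraMap (c : Kˣ) (D : Divisor K F) :
    ev (algebraMap K F c) D = c ^ Divisor.degree D := by
  classical
  rw [degree_eq_finsuppSum]
  unfold ev
  simp only [uval_algebraMap]
  rw [Finsupp.prod, Finsupp.sum]
  induction D.support using Finset.induction_on with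
  | empty => simp
  | insert a s ha ih => rw [Finset.prod_insert ha, Finset.sum_insert ha, zpow_add, ih]

theorem ev_algebraMap_of_degree {c : K} (hc : c ≠ 0) {D : Divisor K F}
    (hD : Divisor.degree D = 0) : ev (algebraMap K F c) D = 1 := by
  have := ev_algebraMap (F := F) (Units.mk0 c hc) D
  rw [Units.val_mk0] at this
  rw [this, hD, zpow_zero]

end

end Fermat.Agent.WP
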