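import Fermat.Agent.WP.Adj

/-!
# Nondegeneracy of the Weil pairing, from divisibility of `Pic0` of a cyclic cover
-/

set_option autoImplicit false
set_option linter.unusedSectionVars false
set_option linter.style.haveILetI false

noncomputable section

open AlgebraicCurve IsDedekindDomain WithZero IsLocalRing

namespace Fermat.Agent.WP

open Fermat.Agent.H05 Fermat.Agent.FF
open scoped IntermediateField

section

variable {K F F' : Type*} [Field K] [Field F] [Field F'] [Algebra K F] [Algebra K F']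
  [Algebra F F'] [IsScalarTower K F F'] [FiniteDimensional F F'] [IsAlgClosed K]
  [CharZero K] [FunField K F] [FunField K F']

/-- `σ` as a semilinear automorphism -/
def toSemi (σ : F' ≃ₐ[F] F') : SemilinearAut K F' :=
  SemilinearAut.ofAlgAut (σ.restrictScalars K)

theorem toSemi_smul (σ : F' ≃ₐ[F] F') (f : F') : toSemi (K := K) σ • f = σ f := rfl

theorem baseU_toSemi (σ : F' ≃ₐ[F] F') (c : Kˣ) : baseU (toSemi (K := K) σ) c = c := rfl

theorem restrict_toSemi_smul (σ : F' ≃ₐ[F] F') (w : Place K F') :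
    (toSemi (K := K) σ • w).restrict F = w.restrict F := by
  apply Place.ext
  ext f
  rw [mem_iff_val_le_one, mem_iff_val_le_one]
  have h0 : algebraMap F F' f = toSemi (K := K) σ • algebraMap F F' f := by
    rw [toSemi_smul, AlgEquiv.commutes]
  have h1 : ∀ u : Place K F', (u.restrict F).adicValuation f ≤ 1 ↔
      u.adicValuation (algebraMap F F' f) ≤ 1 := by
    intro u
    rw [← mem_iff_val_le_one, ← mem_iff_val_le_one]
    exact Place.mem_restrict_iff u
  rw [h1, h1]
  nth_rewrite 1 [h0]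
  rw [adicValuation_smul]

theorem exists_place_not_mem (S : Finset (Place K F)) : ∃ v : Place K F, v ∉ S :=
  Infinite.exists_notMem_finset S

/-- every place has a place above it -/
theorem exists_restrict_eq' (v : Place K F) : ∃ w : Place K F', w.restrict F = v := by
  have : CharZero F := charZero_of_injective_algebraMap (algebraMap K F).injective
  exact (localNormFormula_of_charZero K F F').exists_restrict_eq v

theorem nonneg_main {ℓ : ℕ} (hℓ : ℓ ≠ 0) {x : Pic0 K F} {D : Divisor K F} {h : F}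
    (hx : IsRep ℓ x D h) (t : F') (ht : t ^ ℓ = algebraMap F F' h) (σ : F' ≃ₐ[F] F') (ζ : Kˣ)
    (hσ : σ t = algebraMap K F' ζ * t)
    (hdiv : ∀ z : Pic0 K F', ∃ z' : Pic0 K F', ℓ • z' = z) :
    ∃ y : Pic0 K F, ℓ • y = 0 ∧ weilPairing ℓ x y = ζ⁻¹ := by
  classical
  have hh0 : h ≠ 0 := hx.1.1
  have hh0' : algebraMap F F' h ≠ 0 := by simpa using hh0
  have ht0 : t ≠ 0 := by
    rintro rfl
    rw [zero_pow hℓ] at ht
    exact hh0' ht.symm
  have hℓ' : (ℓ : ℤ) ≠ 0 := by exact_mod_cast hℓ
  -- orders of `t`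
  have hordt : ∀ w : Place K F', w.ord t = w.ramificationIndex F * D (w.restrict F) := by
    intro w
    have h1 : w.ord (t ^ ℓ) = w.ramificationIndex F * (w.restrict F).ord h := by
      rw [ht, Place.ord_restrict]
    rw [H18.ord_pow, hx.1.2] at h1
    have h2 : (ℓ : ℤ) * w.ord t = ℓ * (w.ramificationIndex F * D (w.restrict F)) := by
      rw [h1]; ring
    exact mul_left_cancel₀ hℓ' h2
  obtain ⟨v₀, hv₀⟩ := exists_place_not_mem D.support
  rw [Finsupp.notMem_support_iff] at hv₀
  obtain ⟨w₀, hw₀⟩ := exists_restrict_eq' (F' := F') v₀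
  set s : SemilinearAut K F' := toSemi σ with hs
  have hw₁ : (s • w₀).restrict F = v₀ := by rw [hs, restrict_toSemi_smul, hw₀]
  -- the divisor σ w₀ - w₀
  set Δ : Divisor K F' := Finsupp.single (s • w₀) 1 - Finsupp.single w₀ 1 with hΔ
  have hΔ0 : Δ ∈ Divisor.degZero (K := K) (F := F') := by
    rw [Divisor.mem_degZero, hΔ, map_sub, Divisor.degree_single, Divisor.degree_single,
      deg_eq_one, deg_eq_one, sub_self]
  obtain ⟨z, hz⟩ := hdiv (Pic0.mk ⟨Δ, hΔ0⟩)
  obtain ⟨⟨Z, hZ⟩, rfl⟩ := Pic0.mk_surjective z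
  have hprin : Pic0.mk (ℓ • (⟨Z, hZ⟩ : Divisor.degZero (K := K) (F := F')) - ⟨Δ, hΔ0⟩) = 0 := by
    have : Pic0.mk (ℓ • (⟨Z, hZ⟩ : Divisor.degZero (K := K) (F := F')) - ⟨Δ, hΔ0⟩) =
      ℓ • Pic0.mk ⟨Z, hZ⟩ - Pic0.mk ⟨Δ, hΔ0⟩ := rfl
    rw [this, hz, sub_self]
  rw [pic0_mk_eq_zero_iff] at hprin
  obtain ⟨g, hg, hgZ⟩ := hprin
  have hordg : ∀ w : Place K F', w.ord g = ℓ * Z w - Δ w := by
    intro w
    rw [← hgZ w]
    change (ℓ • Z - Δ) w = _
    rw [Finsupp.sub_apply, Finsupp.smul_apply, nsmul_eq_mul]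
  -- the push-forward
  have hpushΔ : Divisor.pushforward F Δ = 0 := by
    rw [hΔ, map_sub, Divisor.pushforward_single, Divisor.pushforward_single, hw₁, hw₀,
      inertiaDeg_eq_one, inertiaDeg_eq_one, sub_self]
  set Y : Divisor K F := Divisor.pushforward F Z with hY
  have hNg : Algebra.norm F g ≠ 0 := Algebra.norm_ne_zero_iff.mpr hg
  have hordN : ∀ v : Place K F, v.ord (Algebra.norm F g) = ℓ * Y v := by
    intro v
    rw [← sum_ord_eq v g hg, hY, pushforward_apply_fiber]
    have h1 : ∑ w ∈ v.fiber F', Δ w = 0 := by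
      rw [← pushforward_apply_fiber, hpushΔ, Finsupp.zero_apply]
    rw [Finset.sum_congr rfl (fun w _ => hordg w), Finset.sum_sub_distrib, h1, sub_zero,
      Finset.mul_sum]
  have hYrep : IsRep ℓ (Pic0.mk ⟨Y, Divisor.pushforward_mem_degZero hZ⟩) Y (Algebra.norm F g) :=
    ⟨⟨hNg, hordN⟩, Divisor.pushforward_mem_degZero hZ, rfl⟩
  refine ⟨Pic0.mk ⟨Y, Divisor.pushforward_mem_degZero hZ⟩, hYrep.nsmul_eq_zero, ?_⟩
  rw [weilPairing_eq hx hYrep]
  -- values of t above v₀
  have htu : ∀ w : Place K F', w.restrict F = v₀ → w.adicValuation t = 1 := by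
    intro w hw
    rw [val_one_iff]
    exact ⟨ht0, by rw [hordt, hw, hv₀, mul_zero]⟩
  have hhu : v₀.adicValuation h = 1 := by
    rw [val_one_iff]
    exact ⟨hh0, by rw [hx.1.2, hv₀, mul_zero]⟩
  -- local comparison
  let a : Place K F' → Kˣ := fun w => tame w t g * (uval w t) ^ Δ w
  have haw : ∀ w : Place K F', Δ w = 0 → a w = tame w t g := by
    intro w hw
    simp only [a, hw, zpow_zero, mul_one]
  have hΔw : ∀ w : Place K F', w.restrict F ≠ v₀ → Δ w = 0 := by
    intro w hw
    rw [hΔ, Finsupp.sub_apply, Finsupp.single_apply, Finsupp.single_apply, if_neg, if_neg,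
      sub_self]
    · rintro rfl
      exact hw hw₀
    · rintro rfl
      exact hw hw₁
  have hlocal : ∀ v : Place K F, lsym (ℓ : ℤ) v (D v) h (Y v) (Algebra.norm F g) =
      ∏ w ∈ v.fiber F', a w := by
    intro v
    by_cases hv : v = v₀
    · subst hv
      rw [hv₀, lsym_zero_left hhu, hY, pushforward_apply_fiber]
      have h1 : ∀ w ∈ v.fiber F', a w = uval v h ^ Z w := by
        intro w hw
        have hw' := Place.mem_fiber.mp hw
        simp only [a]
        rw [tame_of_unit_left (htu w hw'), ← zpow_add, hordg w, sub_add_cancel, zpow_mul,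
          zpow_natCast, ← uval_pow w t (htu w hw'), ht, uval_restrict, hw']
      rw [Finset.prod_congr rfl h1]
      induction v.fiber F' using Finset.cons_induction with
      | empty => simp
      | cons a s ha ih => rw [Finset.prod_cons, Finset.sum_cons, zpow_add, ih]
    · rw [hY, pushforward_apply_fiber, lsym_norm (ℓ : ℤ) v (D v) h hh0 (hx.1.2 v) (fun w => Z w) g
        hg (fun w hw => by
          rw [hordg w, hΔw w (by rw [Place.mem_fiber.mp hw]; exact hv), sub_zero])]
      refine Finset.prod_congr rfl fun w hw => ?_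
      have hw' := Place.mem_fiber.mp hw
      have hΔ0 : Δ w = 0 := hΔw w (by rw [hw']; exact hv)
      rw [haw w hΔ0]
      have h2 := lsym_principal (m := (ℓ : ℤ)) (v := w) (f := t) (g := g) (b := Z w)
        (by rw [hordg w, hΔ0, sub_zero])
      rw [hordt w, hw', zpow_natCast, ht] at h2
      exact h2
  have hΔsupp : (Function.mulSupport fun w : Place K F' => (uval w t) ^ Δ w) ⊆
      ↑({s • w₀, w₀} : Finset (Place K F')) := by
    intro w hw
    by_contra hcon
    simp only [Finset.coe_insert, Finset.coe_singleton, Set.mem_insert_iff,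
      Set.mem_singleton_iff, not_or] at hcon
    apply hw
    change (uval w t) ^ Δ w = 1
    have : Δ w = 0 := by
      rw [hΔ, Finsupp.sub_apply, Finsupp.single_apply, Finsupp.single_apply,
        if_neg (Ne.symm hcon.1), if_neg (Ne.symm hcon.2), sub_self]
    rw [this, zpow_zero]
  have hfinΔ : Function.HasFiniteMulSupport fun w : Place K F' => (uval w t) ^ Δ w :=
    (Finset.finite_toSet _).subset hΔsupp
  have hfina : (Function.mulSupport a).Finite := by
    have h1 := mulSupport_tame (K := K) t g ht0 hg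
    have h2 : Function.mulSupport a ⊆ (Function.mulSupport fun w : Place K F' => tame w t g) ∪
      (Function.mulSupport fun w : Place K F' => (uval w t) ^ Δ w) :=
      Function.mulSupport_mul _ _
    exact (Set.Finite.union h1 hfinΔ).subset h2
  unfold pair
  rw [← finprod_fiber a _ hfina (mulSupport_lsym (ℓ : ℤ) D Y h (Algebra.norm F g)) hlocal]
  have h3 : ∏ᶠ w, a w = (∏ᶠ w, tame w t g) * ∏ᶠ w : Place K F', (uval w t) ^ Δ w :=
    finprod_mul_distrib (mulSupport_tame (K := K) t g ht0 hg) hfinΔ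
  rw [h3]
  have h4 : (∏ᶠ w : Place K F', tame w t g) = 1 := weil_reciprocity t g ht0 hg
  rw [h4, one_mul]
  -- evaluate
  have huσ : uval (s • w₀) t = ζ⁻¹ * uval w₀ t := by
    have h5 : s • t = algebraMap K F' ζ * t := hσ
    have h6 := uval_smul s w₀ t
    rw [h5, hs, baseU_toSemi, ← hs, uval_mul (val_const _ ζ.ne_zero) (htu _ hw₁),
      uval_algebraMap] at h6
    rw [← h6, inv_mul_cancel_left]
  have h7 : ∏ᶠ w : Place K F', (uval w t) ^ Δ w = ev t Δ := by
    have h8 : (Function.mulSupport fun w : Place K F' => (uval w t) ^ Δ w) ⊆ ↑Δ.support := by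
      intro w hw
      rw [Finset.mem_coe, Finsupp.mem_support_iff]
      intro h
      exact hw (by
        change (uval w t) ^ Δ w = 1
        rw [h, zpow_zero])
    rw [finprod_eq_prod_of_mulSupport_subset _ h8]
    rfl
  rw [h7, hΔ, ev_sub, ev_single, ev_single, zpow_one, zpow_one, huσ, mul_div_assoc, div_self',
    mul_one]

end

end Fermat.Agent.WP
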