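import Fermat.Agent.WP.Nondeg

/-!
# Nondegeneracy of the Weil pairing: the Kummer cover, and change of level
-/

set_option autoImplicit false
set_option linter.unusedSectionVars false
set_option linter.style.haveILetI false

noncomputable section

open AlgebraicCurve IsDedekindDomain WithZero IsLocalRing

namespace Fermat.Agent.WP

open Fermat.Agent.H05 Fermat.Agent.FF
open scoped IntermediateField

section

variable {K F : Type*} [Field K] [Field F] [Algebra K F]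

theorem funField_of_finite (K F F' : Type*) [Field K] [Field F] [Field F'] [Algebra K F]
    [Algebra K F'] [Algebra F F'] [IsScalarTower K F F'] [FiniteDimensional F F']
    [hF : FunField K F] : FunField K F' := by
  obtain ⟨x, hx, hfin⟩ := hF.exists_finite
  let φ : F →ₐ[K] F' := IsScalarTower.toAlgHom K F F'
  have hmap : K⟮x⟯.map φ = K⟮φ x⟯ := by
    rw [IntermediateField.adjoin_map, Set.image_singleton]
  refine ⟨φ x, ?_, ?_⟩
  · intro h
    apply hx
    rwa [isAlgebraic_algHom_iff φ φ.toRingHom.injective] at h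
  · rw [← hmap]
    have h1 : FiniteDimensional K⟮x⟯ F' := FiniteDimensional.trans K⟮x⟯ F F'
    let e : K⟮x⟯ ≃ₐ[K] (K⟮x⟯.map φ) := K⟮x⟯.equivMap φ
    letI : Algebra K⟮x⟯ (K⟮x⟯.map φ) := e.toRingEquiv.toRingHom.toAlgebra
    haveI : IsScalarTower K⟮x⟯ (K⟮x⟯.map φ) F' := IsScalarTower.of_algebraMap_eq fun a => rfl
    exact Module.Finite.of_restrictScalars_finite K⟮x⟯ (K⟮x⟯.map φ) F'

end

section

universe u v

variable {K : Type u} {F : Type v} [Field K] [Field F] [Algebra K F] [IsAlgClosed K] [CharZero K]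
  [FunField K F]

/-- Nondegeneracy for prime level. -/
theorem exists_weilPairing_ne_one {ℓ : ℕ} (hℓ : ℓ.Prime)
    (hdiv : ∀ (F' : Type v) [Field F'] [Algebra K F'] [FunField K F'] (z : Pic0 K F'),
      ∃ z' : Pic0 K F', ℓ • z' = z)
    {x : Pic0 K F} (hx : ℓ • x = 0) (hx0 : x ≠ 0) :
    ∃ y : Pic0 K F, ℓ • y = 0 ∧ weilPairing ℓ x y ≠ 1 := by
  obtain ⟨D, h, hD⟩ := exists_isRep hx
  have hpow : ∀ b : F, b ^ ℓ ≠ h := by
    intro b hb
    apply hx0
    obtain ⟨h1, h2, rfl⟩ := hD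
    rw [pic0_mk_eq_zero_iff]
    have hb0 : b ≠ 0 := by
      rintro rfl
      rw [zero_pow hℓ.ne_zero] at hb
      exact h1.1 hb.symm
    refine ⟨b, hb0, fun v => ?_⟩
    have h3 : (ℓ : ℤ) * (D v) = ℓ * v.ord b := by
      rw [← h1.2, ← hb, H18.ord_pow]
    exact mul_left_cancel₀ (by exact_mod_cast hℓ.ne_zero) h3
  have hirr := X_pow_sub_C_irreducible_of_prime hℓ hpow
  haveI : Fact (Irreducible (Polynomial.X ^ ℓ - Polynomial.C h : Polynomial F)) := ⟨hirr⟩
  let F' := AdjoinRoot (Polynomial.X ^ ℓ - Polynomial.C h : Polynomial F)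
  have hmonic : (Polynomial.X ^ ℓ - Polynomial.C h : Polynomial F).Monic :=
    Polynomial.monic_X_pow_sub_C h hℓ.ne_zero
  haveI : Module.Finite F F' := hmonic.finite_adjoinRoot
  haveI : FunField K F' := funField_of_finite K F F'
  haveI : NeZero (ℓ : K) := ⟨by exact_mod_cast hℓ.ne_zero⟩
  haveI : NeZero ℓ := ⟨hℓ.ne_zero⟩
  obtain ⟨ζ, hζ⟩ := HasEnoughRootsOfUnity.exists_primitiveRoot K ℓ
  have hζ0 : ζ ≠ 0 := hζ.ne_zero hℓ.ne_zero
  let ζu : Kˣ := Units.mk0 ζ hζ0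
  have hζu : ζu ^ ℓ = 1 := Units.ext (by
    rw [Units.val_pow_eq_pow_val, Units.val_mk0, Units.val_one]
    exact hζ.pow_eq_one)
  have hζu1 : ζu ≠ 1 := by
    intro h1
    have h2 := congrArg (Units.val) h1
    rw [Units.val_mk0, Units.val_one] at h2
    exact hζ.ne_one hℓ.one_lt h2
  let η : rootsOfUnity ℓ F := ⟨Units.map (algebraMap K F : K →* F) ζu, by
    rw [mem_rootsOfUnity, ← map_pow, hζu, map_one]⟩
  let σ : F' ≃ₐ[F] F' := autAdjoinRootXPowSubC ℓ h η
  have hσ : σ (AdjoinRoot.root _) = algebraMap K F' ζu * AdjoinRoot.root _ := by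
    change autAdjoinRootXPowSubC ℓ h η (AdjoinRoot.root _) = _
    rw [autAdjoinRootXPowSubC_root, Algebra.smul_def]
    rfl
  have ht : (AdjoinRoot.root (Polynomial.X ^ ℓ - Polynomial.C h) : F') ^ ℓ = algebraMap F F' h := by
    exact root_X_pow_sub_C_pow ℓ h
  obtain ⟨y, hy, hyx⟩ := nonneg_main hℓ.ne_zero hD (AdjoinRoot.root _) ht σ ζu hσ (hdiv F')
  refine ⟨y, hy, ?_⟩
  rw [hyx]
  intro h1
  exact hζu1 (inv_eq_one.mp h1)

/-- Change of level. -/
theorem weilPairing_mul_level {m n : ℕ} {x y : Pic0 K F} (hx : m • x = 0)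
    (hy : (m * n) • y = 0) : weilPairing (m * n) x y = weilPairing m x (n • y) := by
  obtain ⟨D, h, hD⟩ := exists_isRep hx
  obtain ⟨E, k, hE⟩ := exists_isRep hy
  have hD' : IsRep (m * n) x D (h ^ n) := by
    obtain ⟨h1, h2, rfl⟩ := hD
    refine ⟨⟨pow_ne_zero _ h1.1, fun v => ?_⟩, h2, rfl⟩
    rw [H18.ord_pow, h1.2]
    push_cast
    ring
  have hE' : IsRep m (n • y) (n • E) k := by
    obtain ⟨h1, h2, rfl⟩ := hE
    refine ⟨⟨h1.1, fun v => ?_⟩, nsmul_mem h2 n, rfl⟩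
    rw [h1.2, Finsupp.smul_apply, nsmul_eq_mul]
    push_cast
    ring
  rw [weilPairing_eq hD' hE, weilPairing_eq hD hE']
  unfold pair
  refine finprod_congr fun v => ?_
  unfold lsym
  have h1 : ((m * n : ℕ) : ℤ) * D v * E v = (m : ℤ) * D v * (n • E) v := by
    rw [Finsupp.smul_apply, nsmul_eq_mul]
    push_cast
    ring
  have h2 : (h ^ n) ^ E v = h ^ ((n • E) v) := by
    rw [Finsupp.smul_apply, nsmul_eq_mul, zpow_mul, zpow_natCast]
  rw [h1, h2]

theorem weilPairing_nsmul_left {m : ℕ} {x y : Pic0 K F} (hx : m • x = 0) (hy : m • y = 0)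
    (n : ℕ) : weilPairing m (n • x) y = weilPairing m x y ^ n := by
  induction n with
  | zero => rw [zero_nsmul, pow_zero, weilPairing_zero_left]
  | succ n ih =>
    have h1 : m • (n • x) = 0 := by rw [smul_comm, hx, smul_zero]
    rw [succ_nsmul, weilPairing_add_left h1 hx hy, ih, pow_succ]

/-- Nondegeneracy at level `m`, given nondegeneracy at prime levels and divisibility. -/
theorem eq_zero_of_weilPairing_eq_one {m : ℕ} (hm : 0 < m)
    (hprime : ∀ ℓ : ℕ, ℓ.Prime → ℓ ∣ m → ∀ x : Pic0 K F, ℓ • x = 0 → x ≠ 0 →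
      ∃ y : Pic0 K F, ℓ • y = 0 ∧ weilPairing ℓ x y ≠ 1)
    (hdiv : ∀ n : ℕ, n ∣ m → ∀ z : Pic0 K F, m • z = 0 → ∃ z' : Pic0 K F, n • z' = z)
    {x : Pic0 K F} (hx : m • x = 0)
    (h : ∀ y : Pic0 K F, m • y = 0 → weilPairing m x y = 1) : x = 0 := by
  by_contra hx0
  have hord : addOrderOf x ∣ m := addOrderOf_dvd_of_nsmul_eq_zero hx
  have hord1 : addOrderOf x ≠ 1 := by
    rw [ne_eq, AddMonoid.addOrderOf_eq_one_iff]
    exact hx0
  obtain ⟨ℓ, hℓ, hℓd⟩ := Nat.exists_prime_and_dvd hord1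
  obtain ⟨c, hc⟩ := hℓd
  obtain ⟨m', hm'⟩ := (Dvd.intro c hc.symm : ℓ ∣ addOrderOf x).trans hord
  have hc0 : 0 < c := by
    rcases Nat.eq_zero_or_pos c with h0 | h0
    · rw [h0, mul_zero] at hc
      rw [hc, zero_dvd_iff] at hord
      omega
    · exact h0
  have hx1 : ℓ • (c • x) = 0 := by
    rw [← mul_nsmul', ← hc]
    exact addOrderOf_nsmul_eq_zero x
  have hx2 : c • x ≠ 0 := by
    intro h0
    have h1 := Nat.le_of_dvd hc0 (addOrderOf_dvd_of_nsmul_eq_zero h0)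
    rw [hc] at h1
    have h2 := hℓ.two_le
    nlinarith
  obtain ⟨y', hy', hne⟩ := hprime ℓ hℓ ((Dvd.intro c hc.symm : ℓ ∣ addOrderOf x).trans hord) _ hx1 hx2
  have hmy' : m • y' = 0 := by
    rw [hm', mul_nsmul, hy', nsmul_zero]
  obtain ⟨y, hy⟩ := hdiv m' (Dvd.intro_left ℓ hm'.symm) y' hmy'
  have hmy : (ℓ * m') • y = 0 := by
    rw [mul_nsmul', hy, hy']
  apply hne
  rw [← hy, ← weilPairing_mul_level hx1 hmy, ← hm', weilPairing_nsmul_left hx (by rw [hm', hmy]),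
    h y (by rw [hm', hmy]), one_pow]

end

end Fermat.Agent.WP
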