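import Fermat.Agent.WP.Nondeg2
import Fermat.Agent.FF.Div

/-!
# Nondegeneracy of the Weil pairing
-/

set_option autoImplicit false

noncomputable section

open AlgebraicCurve

namespace Fermat.Agent.WP

open Fermat.Agent.FF

/-- Nondegeneracy of the Weil pairing. -/
theorem weilPairing_nondeg {K F : Type*} [Field K] [Field F] [Algebra K F] [IsAlgClosed K]
    [CharZero K] [FunField K F] {m : ℕ}
    (hm : 0 < m) {x : Pic0 K F} (hx : m • x = 0)
    (h : ∀ y : Pic0 K F, m • y = 0 → weilPairing m x y = 1) : x = 0 := by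
  refine eq_zero_of_weilPairing_eq_one hm ?_ ?_ hx h
  · intro ℓ hℓ _ x hx hx0
    exact exists_weilPairing_ne_one hℓ
      (fun F' _ _ _ z => pic0_divisible ℓ hℓ.pos z) hx hx0
  · intro n hn z _
    exact pic0_divisible n (Nat.pos_of_dvd_of_pos hn hm) z

end Fermat.Agent.WP
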