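import Fermat.Agent.WP.BaseChange
import Fermat.Agent.FF.C16

/-!
# Nondegeneracy of the Weil pairing over `ℂ` and for function fields which embed in `ℂ`
-/

set_option autoImplicit false
set_option linter.unusedSectionVars false
set_option linter.style.haveILetI false

noncomputable section

open AlgebraicCurve IsDedekindDomain WithZero IsLocalRing

namespace Fermat.Agent.WP

open Fermat.Agent.H05 Fermat.Agent.FF
open scoped IntermediateField

section

/-- Nondegeneracy over `ℂ`. -/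
theorem weilPairing_nondeg_complex {F : Type*} [Field F] [Algebra ℂ F] [FunField ℂ F] {m : ℕ}
    (hm : 0 < m) {x : Pic0 ℂ F} (hx : m • x = 0)
    (h : ∀ y : Pic0 ℂ F, m • y = 0 → weilPairing m x y = 1) : x = 0 := by
  refine eq_zero_of_weilPairing_eq_one hm ?_ ?_ hx h
  · intro ℓ hℓ _ x hx hx0
    exact exists_weilPairing_ne_one hℓ
      (fun F' _ _ _ z => pic0_divisible_complex hℓ.ne_zero z) hx hx0
  · intro n hn z _
    exact pic0_divisible_complex (by
      rintro rfl
      rw [zero_dvd_iff] at hn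
      omega) z

theorem finite_torsion_complex {F : Type*} [Field F] [Algebra ℂ F] [FunField ℂ F] {n : ℕ}
    (hn : 0 < n) : Finite (Pic0.torsion ℂ F n) := by
  apply Nat.finite_of_card_ne_zero
  rw [card_torsion_complex F n hn]
  exact pow_ne_zero _ hn.ne'

end

section

variable {k F₀ F : Type*} [Field k] [Field F₀] [Field F] [Algebra k F₀]
    [Algebra ℂ F] [Algebra k ℂ] [Algebra F₀ F] [Algebra k F] [IsScalarTower k F₀ F]
    [IsScalarTower k ℂ F] [IsAlgClosed k] [FunField k F₀] [FunField ℂ F]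
    [CharZero k]

theorem mem_torsion_iff {K' F' : Type*} [Field K'] [Field F'] [Algebra K' F'] (n : ℕ)
    (x : Pic0 K' F') : x ∈ Pic0.torsion K' F' n ↔ n • x = 0 := by
  rw [Pic0.mem_torsion, natCast_zsmul]

variable (k F₀ F) in
/-- Lifting torsion points from `ℂ`. -/
theorem exists_conP_eq [hB : BPair k F₀ ℂ F] {m : ℕ} (hm : 0 < m) {ξ : Pic0 ℂ F}
    (hξ : m • ξ = 0) : ∃ η : Pic0 k F₀, m • η = 0 ∧ (conP η : Pic0 ℂ F) = ξ := by
  have := finite_torsion_complex (F := F) hm
  obtain ⟨η, hη⟩ := exists_conP_of_finite (k := k) (F₀ := F₀) ((mem_torsion_iff m ξ).mpr hξ)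
  refine ⟨η, ?_, hη⟩
  apply conP_injective (K := ℂ) (F := F)
  rw [map_nsmul, hη, hξ, map_zero]

variable (F) in
theorem weilPairing_nondeg_of_pair [hB : BPair k F₀ ℂ F] {m : ℕ}
    (hm : 0 < m) {x : Pic0 k F₀} (hx : m • x = 0)
    (h : ∀ y : Pic0 k F₀, m • y = 0 → weilPairing m x y = 1) : x = 0 := by
  apply conP_injective (K := ℂ) (F := F)
  rw [map_zero]
  have hx' : m • (conP x : Pic0 ℂ F) = 0 := by rw [← map_nsmul, hx, map_zero]
  refine weilPairing_nondeg_complex hm hx' ?_
  intro y hy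
  obtain ⟨η, hη, rfl⟩ := exists_conP_eq k F₀ F hm hy
  rw [weilPairing_conP hx hη, h η hη, map_one]

variable (F) in
/-- torsion is divisible -/
theorem torsion_divisible_of_pair [hB : BPair k F₀ ℂ F] {m n : ℕ} (hm : 0 < m) (hn : 0 < n)
    {x : Pic0 k F₀} (hx : m • x = 0) : ∃ y : Pic0 k F₀, n • y = x ∧ (m * n) • y = 0 := by
  obtain ⟨y, hy⟩ := pic0_divisible_complex (F := F) hn.ne' (conP x : Pic0 ℂ F)
  have hy' : (m * n) • y = 0 := by
    rw [mul_nsmul', hy, ← map_nsmul, hx, map_zero]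
  obtain ⟨η, hη, rfl⟩ := exists_conP_eq k F₀ F (Nat.mul_pos hm hn) hy'
  refine ⟨η, ?_, hη⟩
  apply conP_injective (K := ℂ) (F := F)
  rw [map_nsmul, hy]

end

end Fermat.Agent.WP
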