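import Fermat.Agent.WP.PidNorm
import Fermat.Agent.H05.NormFormula
import Fermat.Agent.FF.T6

/-!
# The value of a norm at a place
-/

set_option autoImplicit false
set_option linter.unusedSectionVars false

noncomputable section

open AlgebraicCurve IsDedekindDomain WithZero IsLocalRing

namespace Fermat.Agent.WP

open Fermat.Agent.H05 Fermat.Agent.FF

section

variable {K F F' : Type*} [Field K] [Field F] [Field F'] [Algebra K F] [Algebra K F']
  [Algebra F F'] [IsScalarTower K F F'] [FiniteDimensional F F'] [IsAlgClosed K]
  [CharZero K] [FunField K F] [FunField K F']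

variable (v : Place K F) [IsDedekindDomain (IC F' v)]

theorem regular_IC (P : HeightOneSpectrum (IC F' v)) (b : IC F' v) :
    (Place.ofHeightOneSpectrum (K := K) (F := F') P).adicValuation (algebraMap (IC F' v) F' b) ≤ 1 := by
  rw [← mem_iff_val_le_one]
  exact algebraMap_mem_ofHeightOneSpectrum P b

/-- evaluation at the place belonging to `P`. -/
def chiP (P : HeightOneSpectrum (IC F' v)) : IC F' v →ₐ[K] K where
  toFun b := val (Place.ofHeightOneSpectrum (K := K) (F := F') P) (algebraMap (IC F' v) F' b)
  map_one' := by rw [map_one]; exact val_one _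
  map_zero' := by rw [map_zero]; exact val_zero _
  map_mul' a b := by rw [map_mul]; exact val_mul (regular_IC v P a) (regular_IC v P b)
  map_add' a b := by rw [map_add]; exact val_add (regular_IC v P a) (regular_IC v P b)
  commutes' c := by
    rw [← IsScalarTower.algebraMap_apply K (IC F' v) F']
    exact val_algebraMap _ c

theorem chiP_apply (P : HeightOneSpectrum (IC F' v)) (b : IC F' v) :
    chiP v P b = val (Place.ofHeightOneSpectrum (K := K) (F := F') P)
      (algebraMap (IC F' v) F' b) := rfl

theorem ker_chiP (P : HeightOneSpectrum (IC F' v)) :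
    RingHom.ker (chiP v P) = P.asIdeal := by
  ext b
  rw [RingHom.mem_ker]
  change chiP v P b = 0 ↔ _
  rw [chiP_apply, val_eq_zero_iff (regular_IC v P b)]
  by_cases hb : b = 0
  · subst hb
    simp
  · rw [mem_asIdeal_iff_ord_pos (K := K) (F := F') P hb]
    have hb' : algebraMap (IC F' v) F' b ≠ 0 :=
      (map_ne_zero_iff _ (IsFractionRing.injective (IC F' v) F')).mpr hb
    rw [Place.adicValuation_eq_exp_neg_ord _ hb', ← exp_zero, exp_lt_exp]
    omega

/-- the order at `P` as a natural number -/
def nP (P : HeightOneSpectrum (IC F' v)) (b : IC F' v) : ℕ :=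
  ((Place.ofHeightOneSpectrum (K := K) (F := F') P).ord (algebraMap (IC F' v) F' b)).toNat

theorem ord_nonneg_IC (P : HeightOneSpectrum (IC F' v)) (b : IC F' v) :
    0 ≤ (Place.ofHeightOneSpectrum (K := K) (F := F') P).ord (algebraMap (IC F' v) F' b) :=
  H18.ord_nonneg_of_mem _ (algebraMap_mem_ofHeightOneSpectrum (K := K) (F := F') P b)

theorem nP_mul (P : HeightOneSpectrum (IC F' v)) (a b : IC F' v) (ha : a ≠ 0) (hb : b ≠ 0) :
    nP (K := K) v P (a * b) = nP (K := K) v P a + nP (K := K) v P b := by
  have ha' : algebraMap (IC F' v) F' a ≠ 0 :=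
    (map_ne_zero_iff _ (IsFractionRing.injective (IC F' v) F')).mpr ha
  have hb' : algebraMap (IC F' v) F' b ≠ 0 :=
    (map_ne_zero_iff _ (IsFractionRing.injective (IC F' v) F')).mpr hb
  unfold nP
  rw [map_mul, Place.ord_mul _ ha' hb', Int.toNat_add (ord_nonneg_IC v P a) (ord_nonneg_IC v P b)]

theorem exists_of_prime (p : IC F' v) (hp : Prime p) :
    ∃ P : HeightOneSpectrum (IC F' v), RingHom.ker (chiP v P) = Ideal.span {p} ∧
      nP (K := K) v P p = 1 ∧ ∀ Q, Q ≠ P → nP (K := K) v Q p = 0 := by
  have hp0 : Ideal.span {p} ≠ ⊥ := by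
    rw [Ne, Ideal.span_singleton_eq_bot]
    exact hp.ne_zero
  let P : HeightOneSpectrum (IC F' v) :=
    ⟨Ideal.span {p}, (Ideal.span_singleton_prime hp.ne_zero).mpr hp, hp0⟩
  refine ⟨P, ker_chiP v P, ?_, ?_⟩
  · unfold nP
    rw [ord_ofHeightOneSpectrum_algebraMap (K := K) (F := F') P hp.ne_zero, Int.toNat_natCast]
    have hirr : Irreducible (Associates.mk P.asIdeal) := Associates.irreducible_mk.mpr P.irreducible
    change (Associates.mk P.asIdeal).count (Associates.mk P.asIdeal).factors = 1
    exact Associates.count_self hirr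
  · intro Q hQ
    unfold nP
    have h1 := mem_asIdeal_iff_ord_pos (K := K) (F := F') Q hp.ne_zero
    by_contra hne
    apply hQ
    have h2 : p ∈ Q.asIdeal := by
      rw [h1]
      have := ord_nonneg_IC (K := K) v Q p
      omega
    ext1
    have hle : P.asIdeal ≤ Q.asIdeal := (Ideal.span_singleton_le_iff_mem _).mpr h2
    exact (P.isMaximal.eq_of_le Q.isPrime.ne_top hle).symm

theorem isPrincipalIdealRing_IC [Module.Finite v.toValuationSubring (IC F' v)] :
    IsPrincipalIdealRing (IC F' v) := by
  have hfin := finite_heightOneSpectrum (F' := F') v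
  by_cases hf : IsField (IC F' v)
  · let := hf.toField
    infer_instance
  apply IsPrincipalIdealRing.of_finite_maximals
  refine Set.Finite.subset (Set.finite_range (fun P : HeightOneSpectrum (IC F' v) => P.asIdeal)) ?_
  intro I hI
  have hI' : I.IsMaximal := hI
  have hI0 : I ≠ ⊥ := Ring.ne_bot_of_isMaximal_of_not_isField hI' hf
  exact ⟨⟨I, hI'.isPrime, hI0⟩, rfl⟩

/-- `K` is the residue field of `O_v`. -/
theorem bijective_algebraMap_residue (v : Place K F) :
    Function.Bijective (algebraMap K (v.toValuationSubring ⧸ maximalIdeal v.toValuationSubring)) := by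
  constructor
  · have : Nontrivial (v.toValuationSubring ⧸ maximalIdeal v.toValuationSubring) :=
      Ideal.Quotient.nontrivial_iff.mpr (maximalIdeal.isMaximal _).ne_top
    exact (algebraMap K (v.toValuationSubring ⧸ maximalIdeal v.toValuationSubring)).injective
  · intro y
    obtain ⟨r, rfl⟩ := Ideal.Quotient.mk_surjective y
    refine ⟨val v (r : F), ?_⟩
    have hr : v.adicValuation (r : F) ≤ 1 := (mem_iff_val_le_one v _).mp r.2
    have h1 := val_spec hr
    change Ideal.Quotient.mk _ (algebraMap K v.toValuationSubring (val v (r : F))) = _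
    rw [Ideal.Quotient.eq, mem_maximalIdeal, mem_nonunits_iff,
      ← v.adicValuation_coe_eq_one_iff]
    have h2 : (((algebraMap K v.toValuationSubring (val v (r : F)) - r :
        v.toValuationSubring)) : F) = - ((r : F) - algebraMap K F (val v (r : F))) := by
      rw [neg_sub]
      rfl
    rw [h2, Valuation.map_neg]
    exact h1.ne

/-- The residue field isomorphism. -/
def resEquiv (v : Place K F) :
    K ≃+* (v.toValuationSubring ⧸ maximalIdeal v.toValuationSubring) :=
  RingEquiv.ofBijective _ (bijective_algebraMap_residue v)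

theorem resEquiv_symm_mk (v : Place K F) (r : v.toValuationSubring) :
    (resEquiv v).symm (Ideal.Quotient.mk _ r) = val v (r : F) := by
  have hr : v.adicValuation (r : F) ≤ 1 := (mem_iff_val_le_one v _).mp r.2
  obtain ⟨c, hc⟩ := (resEquiv v).surjective (Ideal.Quotient.mk _ r)
  rw [← hc, RingEquiv.symm_apply_apply]
  have h1 : Ideal.Quotient.mk (maximalIdeal v.toValuationSubring)
      (algebraMap K v.toValuationSubring c) = Ideal.Quotient.mk _ r := hc
  rw [Ideal.Quotient.eq, mem_maximalIdeal, mem_nonunits_iff,
    ← v.adicValuation_coe_eq_one_iff] at h1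
  symm
  apply val_eq_of_lt
  have h2 : (((algebraMap K v.toValuationSubring c - r :
        v.toValuationSubring)) : F) = - ((r : F) - algebraMap K F c) := by
      rw [neg_sub]
      rfl
  rw [h2, Valuation.map_neg] at h1
  refine lt_of_le_of_ne ?_ h1
  exact (Valuation.map_sub _ _ _).trans (max_le hr (v.adicValuation_algebraMap_le_one c))

theorem val_norm_IC [Module.Finite v.toValuationSubring (IC F' v)]
    [Fintype (HeightOneSpectrum (IC F' v))]
    {π : v.toValuationSubring} (hπ : Irreducible π) (b : IC F' v) :
    val v (Algebra.norm F (algebraMap (IC F' v) F' b)) =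
      ∏ P : HeightOneSpectrum (IC F' v), chiP v P b ^
        nP (K := K) v P (algebraMap v.toValuationSubring (IC F' v) π) := by
  have hpid := isPrincipalIdealRing_IC (F' := F') v
  have hmap : (maximalIdeal v.toValuationSubring).map
      (algebraMap v.toValuationSubring (IC F' v)) =
      Ideal.span {algebraMap v.toValuationSubring (IC F' v) π} := by
    rw [hπ.maximalIdeal_eq, Ideal.map_span, Set.image_singleton]
  have hπ0 : algebraMap v.toValuationSubring (IC F' v) π ≠ 0 :=
    (map_ne_zero_iff _ (FaithfulSMul.algebraMap_injective _ _)).mpr hπ.ne_zero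
  have key := norm_quot_eq_prod (K := K) (B := IC F' v) (ι := HeightOneSpectrum (IC F' v))
    (fun P => chiP v P) (nP (K := K) v)
  have key1 := key (exists_of_prime (K := K) v)
  have key2 := key1 (nP_mul (K := K) v)
  have key3 := (key2 _ hπ0).2 b
  refine Eq.trans ?_ key3
  have htow : IsScalarTower K v.toValuationSubring (IC F' v) :=
    IsScalarTower.of_algebraMap_eq fun c => rfl
  have h1 := norm_quotient_field (R := v.toValuationSubring) (S := IC F' v)
    (bijective_algebraMap_residue v) _ hmap b
  have h2 := congrArg (resEquiv v).symm h1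
  rw [resEquiv_symm_mk] at h2
  have h4 : (resEquiv v).symm (algebraMap K
      (v.toValuationSubring ⧸ maximalIdeal v.toValuationSubring)
      (Algebra.norm K (Ideal.Quotient.mk
        (Ideal.span {algebraMap v.toValuationSubring (IC F' v) π}) b))) =
      Algebra.norm K (Ideal.Quotient.mk
        (Ideal.span {algebraMap v.toValuationSubring (IC F' v) π}) b) :=
    (resEquiv v).symm_apply_apply _
  rw [← h4, h2]
  congr 1
  have h3 : ((Algebra.intNorm v.toValuationSubring (IC F' v) b : v.toValuationSubring) : F) =
      Algebra.norm F (algebraMap (IC F' v) F' b) :=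
    Algebra.algebraMap_intNorm (A := v.toValuationSubring) (K := F) (L := F') (B := IC F' v) b
  rw [← h3, Algebra.intNorm_eq_norm]

theorem exists_IC_eq (f : F')
    (hf : ∀ w : Place K F', w.restrict F = v → w.adicValuation f ≤ 1) :
    ∃ b : IC F' v, algebraMap (IC F' v) F' b = f := by
  have := HeightOneSpectrum.mem_integers_of_valuation_le_one (R := IC F' v) F' f (by
    intro P
    have h1 := hf _ (restrict_ofHeightOneSpectrum v P)
    rw [← mem_iff_val_le_one, Place.ofHeightOneSpectrum_toValuationSubring,
      Valuation.mem_valuationSubring_iff] at h1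
    exact h1)
  exact this

end

section

variable {K F F' : Type*} [Field K] [Field F] [Field F'] [Algebra K F] [Algebra K F']
  [Algebra F F'] [IsScalarTower K F F'] [FiniteDimensional F F'] [IsAlgClosed K]
  [CharZero K] [FunField K F] [FunField K F']

theorem norm_regular_and_val (v : Place K F) (f : F')
    (hf : ∀ w : Place K F', w.restrict F = v → w.adicValuation f ≤ 1) :
    v.adicValuation (Algebra.norm F f) ≤ 1 ∧
      val v (Algebra.norm F f) = ∏ w ∈ v.fiber F', val w f ^ w.ramificationIndex F := by
  classical
  have : CharZero F := charZero_of_injective_algebraMap (algebraMap K F).injective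
  have h1 := isDedekindDomain_IC (F' := F') v
  have h2 := finite_IC (F' := F') v
  have h3 := finite_heightOneSpectrum (F' := F') v
  have := Fintype.ofFinite (HeightOneSpectrum (IC F' v))
  obtain ⟨b, rfl⟩ := exists_IC_eq v f hf
  constructor
  · have h3 : ((Algebra.intNorm v.toValuationSubring (IC F' v) b : v.toValuationSubring) : F) =
        Algebra.norm F (algebraMap (IC F' v) F' b) :=
      Algebra.algebraMap_intNorm (A := v.toValuationSubring) (K := F) (L := F') (B := IC F' v) b
    rw [← h3, ← mem_iff_val_le_one]
    exact SetLike.coe_mem _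
  · obtain ⟨π, hπ⟩ := IsDiscreteValuationRing.exists_irreducible v.toValuationSubring
    rw [val_norm_IC v hπ b]
    have himg : v.fiber F' =
        Finset.univ.image (Place.ofHeightOneSpectrum (K := K) (F := F') (R := IC F' v)) := by
      ext w
      rw [Place.mem_fiber, Finset.mem_image]
      constructor
      · intro hw
        obtain ⟨P, hP⟩ := exists_ofHeightOneSpectrum_eq (IC F' v) w ((restrict_eq_iff v w).mp hw)
        exact ⟨P, Finset.mem_univ _, hP⟩
      · rintro ⟨P, _, rfl⟩
        exact restrict_ofHeightOneSpectrum v P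
    rw [himg, Finset.prod_image (fun P _ Q _ h => ofHeightOneSpectrum_injective h)]
    refine Finset.prod_congr rfl fun P _ => ?_
    rw [chiP_apply]
    congr 1
    unfold nP
    have h4 : algebraMap (IC F' v) F' (algebraMap v.toValuationSubring (IC F' v) π) =
        algebraMap F F' (π : F) := rfl
    rw [h4, Place.ord_restrict, restrict_ofHeightOneSpectrum, v.ord_coe_irreducible hπ, mul_one,
      Int.toNat_natCast]

end

end Fermat.Agent.WP
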