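import Fermat.Agent.WP.DetExact

/-!
# Norms of quotients of a PID algebra over a field with rational residue fields
-/

set_option autoImplicit false

namespace Fermat.Agent.WP

open Ideal

section

variable {K B : Type*} [Field K] [CommRing B] [Algebra K B]

/-- multiplication by `a` as a map `B/(p) → B/(p a)`. -/
noncomputable def quotMul (p a : B) : (B ⧸ span {p}) →ₗ[K] (B ⧸ span {p * a}) :=
  (Submodule.mapQ (span {p}) (span {p * a}) (LinearMap.mulLeft B a) (by
    intro x hx
    rw [Submodule.mem_comap, LinearMap.mulLeft_apply]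
    obtain ⟨y, rfl⟩ := mem_span_singleton'.mp hx
    exact mem_span_singleton'.mpr ⟨y, by ring⟩)).restrictScalars K

theorem quotMul_mk (p a x : B) :
    quotMul (K := K) p a (Ideal.Quotient.mk _ x) = Ideal.Quotient.mk _ (a * x) := rfl

/-- the projection `B/(p a) → B/(a)`. -/
noncomputable def quotProj (p a : B) : (B ⧸ span {p * a}) →ₐ[K] (B ⧸ span {a}) :=
  Ideal.Quotient.factorₐ K (by
    rw [span_singleton_le_span_singleton]
    exact Dvd.intro_left p rfl)

theorem quotProj_mk (p a x : B) :
    quotProj (K := K) p a (Ideal.Quotient.mk _ x) = Ideal.Quotient.mk _ x := rfl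

theorem quotMul_injective [IsDomain B] (p : B) {a : B} (ha : a ≠ 0) :
    Function.Injective (quotMul (K := K) p a) := by
  rw [injective_iff_map_eq_zero]
  intro x hx
  obtain ⟨x, rfl⟩ := Ideal.Quotient.mk_surjective x
  rw [quotMul_mk, Ideal.Quotient.eq_zero_iff_mem, mem_span_singleton'] at hx
  obtain ⟨y, hy⟩ := hx
  rw [Ideal.Quotient.eq_zero_iff_mem, mem_span_singleton']
  refine ⟨y, ?_⟩
  apply mul_left_cancel₀ ha
  rw [← hy]; ring

theorem quotProj_surjective (p a : B) : Function.Surjective (quotProj (K := K) p a) := by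
  intro x
  obtain ⟨x, rfl⟩ := Ideal.Quotient.mk_surjective x
  exact ⟨Ideal.Quotient.mk _ x, rfl⟩

theorem range_quotMul (p a : B) :
    LinearMap.range (quotMul (K := K) p a) =
      LinearMap.ker (quotProj (K := K) p a).toLinearMap := by
  ext x
  obtain ⟨x, rfl⟩ := Ideal.Quotient.mk_surjective x
  rw [LinearMap.mem_ker]
  change _ ↔ quotProj (K := K) p a (Ideal.Quotient.mk _ x) = 0
  rw [quotProj_mk, Ideal.Quotient.eq_zero_iff_mem, mem_span_singleton']
  constructor
  · rintro ⟨y, hy⟩
    obtain ⟨y, rfl⟩ := Ideal.Quotient.mk_surjective y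
    rw [quotMul_mk, Ideal.Quotient.eq, mem_span_singleton'] at hy
    obtain ⟨z, hz⟩ := hy
    exact ⟨y - z * p, by linear_combination -hz⟩
  · rintro ⟨y, rfl⟩
    exact ⟨Ideal.Quotient.mk _ y, by rw [quotMul_mk, mul_comm a y]⟩

theorem finite_quot_of (K : Type*) {B : Type*} [Field K] [CommRing B] [Algebra K B] [IsDomain B] {p a : B} 
    (hp : FiniteDimensional K (B ⧸ span {p})) (ha : FiniteDimensional K (B ⧸ span {a})) :
    FiniteDimensional K (B ⧸ span {p * a}) := by
  have h1 : FiniteDimensional K (LinearMap.ker (quotProj (K := K) p a).toLinearMap) := by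
    rw [← range_quotMul]
    exact Module.Finite.range _
  have h2 : FiniteDimensional K
      ((B ⧸ span {p * a}) ⧸ LinearMap.ker (quotProj (K := K) p a).toLinearMap) := by
    exact Module.Finite.equiv ((quotProj (K := K) p a).toLinearMap.quotKerEquivOfSurjective
      (quotProj_surjective (K := K) p a)).symm
  exact Module.Finite.of_submodule_quotient
    (LinearMap.ker (quotProj (K := K) p a).toLinearMap)

theorem norm_quot_mul (K : Type*) {B : Type*} [Field K] [CommRing B] [Algebra K B] [IsDomain B] {p a : B} (ha0 : a ≠ 0)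
    (hp : FiniteDimensional K (B ⧸ span {p})) (ha : FiniteDimensional K (B ⧸ span {a})) (b : B) :
    Algebra.norm K (Ideal.Quotient.mk (span {p * a}) b) =
      Algebra.norm K (Ideal.Quotient.mk (span {p}) b) *
        Algebra.norm K (Ideal.Quotient.mk (span {a}) b) := by
  have := finite_quot_of K hp ha
  rw [Algebra.norm_apply, Algebra.norm_apply, Algebra.norm_apply]
  refine det_of_exact (quotMul (K := K) p a) (quotProj (K := K) p a).toLinearMap
    (quotMul_injective (K := K) p ha0) (quotProj_surjective (K := K) p a)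
    (range_quotMul (K := K) p a) _ _ _ ?_ ?_
  · apply LinearMap.ext
    intro x
    obtain ⟨x, rfl⟩ := Ideal.Quotient.mk_surjective x
    change quotMul (K := K) p a (Ideal.Quotient.mk _ (b * x)) = Ideal.Quotient.mk _ b * Ideal.Quotient.mk _ (a * x)
    rw [quotMul_mk, ← map_mul]
    congr 1
    ring
  · apply LinearMap.ext
    intro x
    obtain ⟨x, rfl⟩ := Ideal.Quotient.mk_surjective x
    rfl

theorem finite_quot_of_ker (p : B) (χ : B →ₐ[K] K) (h : RingHom.ker χ = span {p}) :
    FiniteDimensional K (B ⧸ span {p}) ∧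
      ∀ b, Algebra.norm K (Ideal.Quotient.mk (span {p}) b) = χ b := by
  have hsurj : Function.Surjective χ := fun c => ⟨algebraMap K B c, by simp⟩
  let e : (B ⧸ span {p}) ≃ₐ[K] K :=
    (Ideal.quotientEquivAlgOfEq K h.symm).trans (Ideal.quotientKerAlgEquivOfSurjective hsurj)
  have hfin : FiniteDimensional K (B ⧸ span {p}) := Module.Finite.equiv e.symm.toLinearEquiv
  have hrank : Module.finrank K (B ⧸ span {p}) = 1 := by
    rw [LinearEquiv.finrank_eq e.toLinearEquiv, Module.finrank_self]
  refine ⟨hfin, fun b => ?_⟩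
  have h1 : Ideal.Quotient.mk (span {p}) b = algebraMap K _ (χ b) := by
    change _ = Ideal.Quotient.mk (span {p}) (algebraMap K B (χ b))
    rw [Ideal.Quotient.eq, ← h, RingHom.mem_ker]
    simp
  rw [h1, Algebra.norm_algebraMap, hrank, pow_one]

end

section

variable {K B : Type*} [Field K] [CommRing B] [IsDomain B] [IsPrincipalIdealRing B] [Algebra K B]
  {ι : Type*} [Fintype ι]

theorem norm_quot_eq_prod (χ : ι → (B →ₐ[K] K)) (n : ι → B → ℕ)
    (hχ : ∀ p : B, Prime p → ∃ i, RingHom.ker (χ i) = span {p} ∧ n i p = 1 ∧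
      ∀ j, j ≠ i → n j p = 0)
    (hn : ∀ i x y, x ≠ 0 → y ≠ 0 → n i (x * y) = n i x + n i y) (x : B) (hx : x ≠ 0) :
    FiniteDimensional K (B ⧸ span {x}) ∧
      ∀ b, Algebra.norm K (Ideal.Quotient.mk (span {x}) b) = ∏ i, χ i b ^ n i x := by
  classical
  induction x using UniqueFactorizationMonoid.induction_on_prime with
  | h₁ => exact absurd rfl hx
  | h₂ u hu =>
    have h0 : ∀ i, n i u = 0 := by
      intro i
      obtain ⟨u, rfl⟩ := hu
      have h1 := hn i 1 1 one_ne_zero one_ne_zero
      have h2 := hn i u (↑u⁻¹ : B) u.ne_zero (u⁻¹).ne_zero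
      rw [mul_one] at h1
      rw [Units.mul_inv] at h2
      omega
    have hs : Subsingleton (B ⧸ span {u}) := by
      rw [Ideal.Quotient.subsingleton_iff, Ideal.span_singleton_eq_top]
      exact hu
    refine ⟨inferInstance, fun b => ?_⟩
    rw [Algebra.norm_apply, LinearMap.det_eq_one_of_subsingleton]
    simp [h0]
  | h₃ a p ha hp ih =>
    obtain ⟨i, hi, hi1, hi0⟩ := hχ p hp
    obtain ⟨hp1, hp2⟩ := finite_quot_of_ker p (χ i) hi
    obtain ⟨ha1, ha2⟩ := ih ha
    refine ⟨finite_quot_of K hp1 ha1, fun b => ?_⟩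
    rw [norm_quot_mul K ha hp1 ha1, hp2, ha2]
    have h3 : ∀ j, χ j b ^ n j (p * a) = χ j b ^ n j p * χ j b ^ n j a := by
      intro j
      rw [hn j p a hp.ne_zero ha, pow_add]
    simp only [h3]
    rw [Finset.prod_mul_distrib]
    congr 1
    rw [Finset.prod_eq_single i]
    · rw [hi1, pow_one]
    · intro j _ hj
      rw [hi0 j hj, pow_zero]
    · intro h
      exact absurd (Finset.mem_univ i) h

end

end Fermat.Agent.WP
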