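import Fermat.Agent.WP.Proj

/-!
# The projection formula for the tame symbol
-/

set_option autoImplicit false
set_option linter.unusedSectionVars false

noncomputable section

open AlgebraicCurve IsDedekindDomain WithZero IsLocalRing

namespace Fermat.Agent.WP

open Fermat.Agent.H05 Fermat.Agent.FF

section

variable {K F F' : Type*} [Field K] [Field F] [Field F'] [Algebra K F] [Algebra K F']
  [Algebra F F'] [IsScalarTower K F F'] [FiniteDimensional F F'] [IsAlgClosed K]
  [CharZero K] [FunField K F] [FunField K F']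

theorem norm_neg' (θ : F') :
    Algebra.norm F (-θ) = (-1) ^ Module.finrank F F' * Algebra.norm F θ := by
  have h1 : -θ = algebraMap F F' (-1) * θ := by simp
  rw [h1, map_mul, Algebra.norm_algebraMap]

/-- the projection formula for uniformizers -/
theorem tame_norm_prime (v : Place K F) (w0 : Place K F') (hw0 : w0.restrict F = v) (θ : F')
    (hθ0 : θ ≠ 0) (hθ1 : w0.ord θ = 1)
    (hθ : ∀ w : Place K F', w.restrict F = v → w ≠ w0 → w.adicValuation θ = 1)
    (π : F) (hπ0 : π ≠ 0) (hπ : v.ord π = 1) :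
    tame v (Algebra.norm F θ) π = ∏ w ∈ v.fiber F', tame w θ (algebraMap F F' π) := by
  classical
  obtain ⟨hN1, key⟩ := key_identity v w0 hw0 θ hθ0 hθ1 hθ π hπ0 hπ
  set e := w0.ramificationIndex F with he
  have hw0f : w0 ∈ v.fiber F' := Place.mem_fiber.mpr hw0
  have hN0 : Algebra.norm F θ ≠ 0 := Algebra.norm_ne_zero_iff.mpr hθ0
  have hπ' : algebraMap F F' π ≠ 0 := by simpa using hπ0
  have hordπ : ∀ w : Place K F', w.restrict F = v →
      w.ord (algebraMap F F' π) = w.ramificationIndex F := by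
    intro w hw
    rw [Place.ord_restrict, hw, hπ, mul_one]
  have hsumram : e + ∑ w ∈ (v.fiber F').erase w0, w.ramificationIndex F =
      Module.finrank F F' := by
    rw [← sum_ramificationIndex (F' := F') v, ← Finset.add_sum_erase _ _ hw0f]
  have hv1 : v.adicValuation (Algebra.norm F θ / π) = 1 := by
    rw [val_one_iff]
    refine ⟨div_ne_zero hN0 hπ0, ?_⟩
    rw [div_eq_mul_inv, v.ord_mul hN0 (inv_ne_zero hπ0), v.ord_inv, hN1, hπ]
    ring
  have hu : w0.adicValuation (θ ^ e / algebraMap F F' π) = 1 := by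
    rw [val_one_iff]
    refine ⟨div_ne_zero (pow_ne_zero _ hθ0) hπ', ?_⟩
    rw [div_eq_mul_inv, w0.ord_mul (pow_ne_zero _ hθ0) (inv_ne_zero hπ'), H18.ord_pow,
      w0.ord_inv, hθ1, hordπ w0 hw0]
    ring
  -- left hand side
  have hL : ((tame v (Algebra.norm F θ) π : Kˣ) : K) = - val v (Algebra.norm F θ / π) := by
    unfold tame lsym
    rw [hN1, hπ]
    have h1 : (-1 : F) ^ ((1 : ℤ) * 1 * 1) * Algebra.norm F θ ^ (1 : ℤ) / π ^ (1 : ℤ) =
        -(Algebra.norm F θ / π) := by
      simp only [mul_one, zpow_one]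
      ring
    rw [h1, uval_coe (by rw [Valuation.map_neg]; exact hv1), val_neg hv1.le]
  -- right hand side
  have hR0 : ((tame w0 θ (algebraMap F F' π) : Kˣ) : K) =
      (-1) ^ e * val w0 (θ ^ e / algebraMap F F' π) := by
    unfold tame lsym
    rw [hθ1, hordπ w0 hw0, ← he]
    have h1 : (-1 : F') ^ ((1 : ℤ) * 1 * (e : ℤ)) * θ ^ (e : ℤ) / algebraMap F F' π ^ (1 : ℤ) =
        algebraMap K F' ((-1) ^ e) * (θ ^ e / algebraMap F F' π) := by
      simp only [mul_one, one_mul, zpow_one, zpow_natCast, map_pow, map_neg, map_one]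
      ring
    have h2 : w0.adicValuation (algebraMap K F' ((-1) ^ e)) = 1 :=
      val_const w0 (pow_ne_zero _ (neg_ne_zero.mpr one_ne_zero))
    rw [h1, uval_coe (by rw [map_mul, h2, hu, one_mul]), val_mul h2.le hu.le, val_algebraMap]
  have hR1 : ∀ w ∈ (v.fiber F').erase w0, ((tame w θ (algebraMap F F' π) : Kˣ) : K) =
      val w θ ^ w.ramificationIndex F := by
    intro w hw
    obtain ⟨hw1, hw2⟩ := Finset.mem_erase.mp hw
    have hw3 := Place.mem_fiber.mp hw2
    rw [tame_of_unit_left (hθ w hw3 hw1), hordπ w hw3, zpow_natCast, Units.val_pow_eq_pow_val,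
      uval_coe (hθ w hw3 hw1)]
  apply Units.ext
  rw [hL, ← Finset.mul_prod_erase _ _ hw0f, Units.val_mul, hR0, Units.coe_prod,
    Finset.prod_congr rfl hR1]
  -- now use the key identity
  rw [norm_neg', mul_div_assoc] at key
  have h3 : val v ((-1) ^ Module.finrank F F' * (Algebra.norm F θ / π)) =
      (-1) ^ Module.finrank F F' * val v (Algebra.norm F θ / π) := by
    have h4 : ((-1 : F) ^ Module.finrank F F') = algebraMap K F ((-1) ^ Module.finrank F F') := by
      simp
    have h2 : v.adicValuation (algebraMap K F ((-1) ^ Module.finrank F F')) = 1 :=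
      val_const v (pow_ne_zero _ (neg_ne_zero.mpr one_ne_zero))
    rw [h4, val_mul h2.le hv1.le, val_algebraMap]
  rw [h3] at key
  have h5 : ∏ w ∈ (v.fiber F').erase w0, (- val w θ) ^ w.ramificationIndex F =
      (-1) ^ (∑ w ∈ (v.fiber F').erase w0, w.ramificationIndex F) *
        ∏ w ∈ (v.fiber F').erase w0, val w θ ^ w.ramificationIndex F := by
    rw [← Finset.prod_pow_eq_pow_sum, ← Finset.prod_mul_distrib]
    refine Finset.prod_congr rfl fun w _ => ?_
    rw [neg_pow]
  rw [h5, ← hsumram, pow_add] at key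
  have h6 : ((-1 : K) ^ (∑ w ∈ (v.fiber F').erase w0, w.ramificationIndex F)) ≠ 0 :=
    pow_ne_zero _ (neg_ne_zero.mpr one_ne_zero)
  have h7 : ((-1 : K) ^ e) * (-1) ^ e = 1 := by
    rw [← mul_pow]
    simp
  apply mul_left_cancel₀ h6
  linear_combination (-(-1 : K) ^ e) * key +
    ((-1 : K) ^ (∑ w ∈ (v.fiber F').erase w0, w.ramificationIndex F) *
      val v (Algebra.norm F θ / π)) * h7

theorem tame_norm_unit_left (v : Place K F) (f : F')
    (hf : ∀ w : Place K F', w.restrict F = v → w.adicValuation f = 1) (g : F) :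
    tame v (Algebra.norm F f) g = ∏ w ∈ v.fiber F', tame w f (algebraMap F F' g) := by
  obtain ⟨h1, h2⟩ := norm_unit_and_uval v f hf
  rw [tame_of_unit_left h1, h2, ← Finset.prod_zpow]
  refine Finset.prod_congr rfl fun w hw => ?_
  rw [tame_of_unit_left (hf w (Place.mem_fiber.mp hw)), Place.ord_restrict, Place.mem_fiber.mp hw,
    zpow_mul, zpow_natCast]

theorem tame_norm_unit_right (v : Place K F) (f : F') (hf : f ≠ 0) (g : F)
    (hg : v.adicValuation g = 1) :
    tame v (Algebra.norm F f) g = ∏ w ∈ v.fiber F', tame w f (algebraMap F F' g) := by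
  have h1 : ∀ w ∈ v.fiber F', tame w f (algebraMap F F' g) = (uval v g ^ w.ord f)⁻¹ := by
    intro w hw
    have hw' := Place.mem_fiber.mp hw
    rw [tame_of_unit_right ((adicValuation_algebraMap_eq_one_iff w g).mpr (by rw [hw']; exact hg)),
      uval_restrict, hw']
  rw [Finset.prod_congr rfl h1, tame_of_unit_right hg, ← sum_ord_eq v f hf,
    Finset.prod_inv_distrib]
  congr 1
  induction v.fiber F' using Finset.cons_induction with
  | empty => simp
  | cons a s ha ih => rw [Finset.prod_cons, Finset.sum_cons, zpow_add, ih]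

/-- The statement of the projection formula -/
def PF (v : Place K F) (f : F') (g : F) : Prop :=
  tame v (Algebra.norm F f) g = ∏ w ∈ v.fiber F', tame w f (algebraMap F F' g)

theorem PF.mul {v : Place K F} {a b : F'} {g : F} (ha : a ≠ 0) (hb : b ≠ 0) (hg : g ≠ 0)
    (h1 : PF v a g) (h2 : PF v b g) : PF v (a * b) g := by
  unfold PF at *
  have hg' : algebraMap F F' g ≠ 0 := by simpa using hg
  rw [map_mul, tame_mul_left v (Algebra.norm_ne_zero_iff.mpr ha)
    (Algebra.norm_ne_zero_iff.mpr hb) hg, h1, h2, ← Finset.prod_mul_distrib]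
  exact Finset.prod_congr rfl fun w _ => (tame_mul_left w ha hb hg').symm

theorem norm_zpow' (a : F') (n : ℤ) : Algebra.norm F (a ^ n) = Algebra.norm F a ^ n := by
  cases n with
  | ofNat n => rw [Int.ofNat_eq_natCast, zpow_natCast, zpow_natCast, map_pow]
  | negSucc n => rw [zpow_negSucc, zpow_negSucc, Algebra.norm_inv, map_pow]

theorem PF.zpow {v : Place K F} {a : F'} {g : F} (ha : a ≠ 0) (hg : g ≠ 0)
    (h1 : PF v a g) (n : ℤ) : PF v (a ^ n) g := by
  unfold PF at *
  have hg' : algebraMap F F' g ≠ 0 := by simpa using hg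
  rw [norm_zpow', tame_zpow_left v (Algebra.norm_ne_zero_iff.mpr ha) hg, h1, ← Finset.prod_zpow]
  exact Finset.prod_congr rfl fun w _ => (tame_zpow_left w ha hg' n).symm

theorem PF.mul_right {v : Place K F} {a : F'} {g g' : F} (ha : a ≠ 0) (hg : g ≠ 0)
    (hg' : g' ≠ 0) (h1 : PF v a g) (h2 : PF v a g') : PF v a (g * g') := by
  unfold PF at *
  have hg1 : algebraMap F F' g ≠ 0 := by simpa using hg
  have hg2 : algebraMap F F' g' ≠ 0 := by simpa using hg'
  rw [map_mul, tame_mul_right v (Algebra.norm_ne_zero_iff.mpr ha) hg hg', h1, h2,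
    ← Finset.prod_mul_distrib]
  exact Finset.prod_congr rfl fun w _ => (tame_mul_right w ha hg1 hg2).symm

theorem PF.zpow_right {v : Place K F} {a : F'} {g : F} (ha : a ≠ 0) (hg : g ≠ 0)
    (h1 : PF v a g) (n : ℤ) : PF v a (g ^ n) := by
  unfold PF at *
  have hg1 : algebraMap F F' g ≠ 0 := by simpa using hg
  rw [map_zpow₀, tame_zpow_right v (Algebra.norm_ne_zero_iff.mpr ha) hg, h1,
    ← Finset.prod_zpow]
  exact Finset.prod_congr rfl fun w _ => (tame_zpow_right w ha hg1 n).symm

theorem PF_prod {v : Place K F} {ι : Type*} (s : Finset ι) (a : ι → F') {g : F}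
    (ha : ∀ i ∈ s, a i ≠ 0) (hg : g ≠ 0) (h : ∀ i ∈ s, PF v (a i) g) :
    PF v (∏ i ∈ s, a i) g := by
  classical
  induction s using Finset.induction_on with
  | empty =>
    rw [Finset.prod_empty]
    unfold PF
    rw [map_one, tame_one_left]
    simp [tame_one_left]
  | insert i s hi ih =>
    rw [Finset.prod_insert hi]
    refine PF.mul (ha i (Finset.mem_insert_self _ _))
      (Finset.prod_ne_zero_iff.mpr fun j hj => ha j (Finset.mem_insert_of_mem hj)) hg
      (h i (Finset.mem_insert_self _ _))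
      (ih (fun j hj => ha j (Finset.mem_insert_of_mem hj))
        (fun j hj => h j (Finset.mem_insert_of_mem hj)))

theorem PF_uniformizer (v : Place K F) (f : F') (hf : f ≠ 0) (π : F) (hπ0 : π ≠ 0)
    (hπ : v.ord π = 1) : PF v f π := by
  classical
  -- auxiliary elements
  have hex : ∀ w : Place K F', ∃ θ : F', θ ≠ 0 ∧ ∀ u ∈ v.fiber F', u.ord θ = if u = w then 1 else 0 :=
    fun w => exists_ord_eq (v.fiber F') (fun u => if u = w then 1 else 0)
  choose θ hθ0 hθ1 using hex
  have hPF : ∀ w ∈ v.fiber F', PF v (θ w) π := by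
    intro w hw
    refine tame_norm_prime v w (Place.mem_fiber.mp hw) (θ w) (hθ0 w) ?_ ?_ π hπ0 hπ
    · rw [hθ1 w w hw, if_pos rfl]
    · intro u hu huw
      rw [val_one_iff]
      exact ⟨hθ0 w, by rw [hθ1 w u (Place.mem_fiber.mpr hu), if_neg huw]⟩
  set g : F' := ∏ w ∈ v.fiber F', θ w ^ w.ord f with hg
  have hg0 : g ≠ 0 := Finset.prod_ne_zero_iff.mpr fun w _ => zpow_ne_zero _ (hθ0 w)
  have h1 : PF v g π := PF_prod _ _ (fun w _ => zpow_ne_zero _ (hθ0 w)) hπ0
    (fun w hw => (hPF w hw).zpow (hθ0 w) hπ0 _)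
  have hordprod : ∀ (u : Place K F') (s : Finset (Place K F')),
      u.ord (∏ w ∈ s, θ w ^ w.ord f) = ∑ w ∈ s, w.ord f * u.ord (θ w) := by
    intro u s
    induction s using Finset.induction_on with
    | empty => simp
    | insert a s ha ih =>
      rw [Finset.prod_insert ha, Finset.sum_insert ha, u.ord_mul (zpow_ne_zero _ (hθ0 a))
        (Finset.prod_ne_zero_iff.mpr fun w _ => zpow_ne_zero _ (hθ0 w)), u.ord_zpow, ih]
  have h2 : PF v (f / g) π := by
    apply tame_norm_unit_left
    intro u hu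
    rw [val_one_iff]
    refine ⟨div_ne_zero hf hg0, ?_⟩
    have hu' := Place.mem_fiber.mpr hu
    rw [div_eq_mul_inv, u.ord_mul hf (inv_ne_zero hg0), u.ord_inv, hg, hordprod,
      Finset.sum_eq_single u]
    · rw [hθ1 u u hu', if_pos rfl]
      ring
    · intro w hw hwu
      rw [hθ1 w u hu', if_neg (Ne.symm hwu), mul_zero]
    · intro h
      exact absurd hu' h
  have h3 : f = g * (f / g) := by field_simp
  rw [h3]
  exact h1.mul hg0 (div_ne_zero hf hg0) hπ0 h2

/-- The projection formula for the tame symbol. -/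
theorem tame_norm (v : Place K F) (f : F') (hf : f ≠ 0) (g : F) (hg : g ≠ 0) :
    tame v (Algebra.norm F f) g = ∏ w ∈ v.fiber F', tame w f (algebraMap F F' g) := by
  classical
  obtain ⟨π, hπ⟩ := IsDiscreteValuationRing.exists_irreducible v.toValuationSubring
  have hπ1 : v.ord (π : F) = 1 := v.ord_coe_irreducible hπ
  have hπ0 : (π : F) ≠ 0 := by simpa [ne_eq, ZeroMemClass.coe_eq_zero] using hπ.ne_zero
  have h1 : PF v f ((π : F) ^ v.ord g) :=
    (PF_uniformizer v f hf (π : F) hπ0 hπ1).zpow_right hf hπ0 _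
  have h2 : PF v f (g / (π : F) ^ v.ord g) := by
    apply tame_norm_unit_right v f hf
    rw [val_one_iff]
    refine ⟨div_ne_zero hg (zpow_ne_zero _ hπ0), ?_⟩
    rw [div_eq_mul_inv, v.ord_mul hg (inv_ne_zero (zpow_ne_zero _ hπ0)), v.ord_inv, v.ord_zpow,
      hπ1]
    ring
  have h3 : g = (π : F) ^ v.ord g * (g / (π : F) ^ v.ord g) := by
    field_simp
  have h4 := h1.mul_right hf (zpow_ne_zero _ hπ0) (div_ne_zero hg (zpow_ne_zero _ hπ0)) h2
  rw [← h3] at h4
  exact h4

end

end Fermat.Agent.WP
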