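import Fermat.Agent.WP.ProjTame

/-!
# Weil reciprocity
-/

set_option autoImplicit false
set_option linter.unusedSectionVars false

noncomputable section

open AlgebraicCurve IsDedekindDomain WithZero IsLocalRing

namespace Fermat.Agent.WP

open Fermat.Agent.H05 Fermat.Agent.FF
open scoped IntermediateField

section

variable {K F : Type*} [Field K] [Field F] [Algebra K F] [IsAlgClosed K] [CharZero K]
  [FunField K F]

theorem finite_ord_ne_zero (f : F) : {v : Place K F | v.ord f ≠ 0}.Finite := by
  refine (div f : Divisor K F).support.finite_toSet.subset ?_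
  intro v hv
  rw [Finset.mem_coe, Finsupp.mem_support_iff, div_apply]
  exact hv

theorem mulSupport_tame (f g : F) (hf : f ≠ 0) (hg : g ≠ 0) :
    Function.HasFiniteMulSupport fun v : Place K F => tame v f g := by
  change (Function.mulSupport fun v : Place K F => tame v f g).Finite
  refine ((finite_ord_ne_zero (K := K) f).union (finite_ord_ne_zero (K := K) g)).subset ?_
  intro v hv
  by_contra hcon
  rw [Set.mem_union, not_or] at hcon
  have h1 : v.ord f = 0 := not_not.mp hcon.1
  have h2 : v.ord g = 0 := not_not.mp hcon.2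
  exact hv (tame_of_units (val_one_iff.mpr ⟨hf, h1⟩) (val_one_iff.mpr ⟨hg, h2⟩))

variable (K) in
/-- The product of all tame symbols. -/
def RL (f g : F) : Kˣ := ∏ᶠ v : Place K F, tame v f g

theorem RL_mul_left {f f' g : F} (hf : f ≠ 0) (hf' : f' ≠ 0) (hg : g ≠ 0) :
    RL K (f * f') g = RL K f g * RL K f' g := by
  unfold RL
  rw [← finprod_mul_distrib (mulSupport_tame f g hf hg) (mulSupport_tame f' g hf' hg)]
  exact finprod_congr fun v => tame_mul_left v hf hf' hg

theorem trans_ne_zero {x : F} (hx : Transcendental K x) : x ≠ 0 := by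
  rintro rfl
  exact hx isAlgebraic_zero

theorem RL_symm (f g : F) : RL K g f = (RL K f g)⁻¹ := by
  unfold RL
  rw [← finprod_inv_distrib]
  exact finprod_congr fun v => tame_symm v f g

theorem RL_one_left (g : F) : RL K 1 g = 1 := by
  unfold RL
  have h : ∀ v : Place K F, tame v 1 g = 1 := fun v => tame_one_left v g
  simp only [h, finprod_one]

theorem RL_inv_left {f g : F} (hf : f ≠ 0) (hg : g ≠ 0) : RL K f⁻¹ g = (RL K f g)⁻¹ := by
  have h := RL_mul_left (K := K) hf (inv_ne_zero hf) hg
  rw [mul_inv_cancel₀ hf, RL_one_left] at h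
  exact (inv_eq_of_mul_eq_one_right h.symm).symm

theorem finprod_zpow_ord (c : Kˣ) (g : F) :
    ∏ᶠ v : Place K F, c ^ v.ord g = 1 := by
  classical
  have h1 : (Function.mulSupport fun v : Place K F => c ^ v.ord g) ⊆
      ↑(div g : Divisor K F).support := by
    intro v hv
    rw [Finset.mem_coe, Finsupp.mem_support_iff, div_apply]
    intro h
    exact hv (by
      change c ^ v.ord g = 1
      rw [h, zpow_zero])
  rw [finprod_eq_prod_of_mulSupport_subset _ h1]
  have h2 := degree_div (K := K) g
  rw [degree_eq_finsuppSum, Finsupp.sum] at h2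
  have h3 : ∀ s : Finset (Place K F), ∏ v ∈ s, c ^ v.ord g = c ^ (∑ v ∈ s, v.ord g) := by
    intro s
    induction s using Finset.induction_on with
    | empty => simp
    | insert a s ha ih => rw [Finset.prod_insert ha, Finset.sum_insert ha, zpow_add, ih]
  rw [h3]
  have h4 : ∑ v ∈ (div g : Divisor K F).support, v.ord g = 0 := by
    rw [← h2]
    exact Finset.sum_congr rfl fun v _ => (div_apply g v).symm
  rw [h4, zpow_zero]

theorem RL_const_left {c : K} (hc : c ≠ 0) (g : F) :
    RL K (algebraMap K F c) g = 1 := by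
  unfold RL
  rw [← finprod_zpow_ord (K := K) (Units.mk0 c hc) g]
  refine finprod_congr fun v => ?_
  rw [tame_of_unit_left (val_const v hc)]
  congr 1
  exact uval_algebraMap v (Units.mk0 c hc)

theorem RL_self {f : F} (hf : f ≠ 0) : RL K f f = 1 := by
  unfold RL
  rw [← finprod_zpow_ord (K := K) (-1) f]
  exact finprod_congr fun v => tame_self v hf

/-- In `K(x)`, `x` has exactly one zero, of order one. -/
theorem exists_unique_zero {x : F} (hx : Transcendental K x) (htop : K⟮x⟯ = ⊤) :
    ∃ v : Place K F, v.ord x = 1 ∧ ∀ w : Place K F, w ≠ v → w.ord x ≤ 0 := by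
  classical
  obtain ⟨v, hv⟩ := exists_zero (K := K) hx
  have h1 := zeros_degree x hx (FF.posPart (div x)) (fun v => by rw [posPart_apply, div_apply])
  have h2 : Module.finrank K⟮x⟯ F = 1 := by
    rw [htop]
    exact IntermediateField.finrank_top
  rw [h2, degree_eq_finsuppSum, Finsupp.sum] at h1
  push_cast at h1
  have hvs : v ∈ (FF.posPart (div x) : Divisor K F).support := by
    rw [Finsupp.mem_support_iff, posPart_apply, div_apply]
    omega
  have hnn : ∀ w ∈ (FF.posPart (div x) : Divisor K F).support.erase v,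
      0 ≤ (FF.posPart (div x) : Divisor K F) w := by
    intro w _
    rw [posPart_apply]
    exact le_max_right _ _
  rw [← Finset.add_sum_erase _ _ hvs] at h1
  have h3 := Finset.sum_nonneg hnn
  have h4 : (FF.posPart (div x) : Divisor K F) v = v.ord x := by
    rw [posPart_apply, div_apply, max_eq_left hv.le]
  have h5 : v.ord x = 1 := by omega
  refine ⟨v, h5, fun w hw => ?_⟩
  by_contra hcon
  push Not at hcon
  have h6 : (FF.posPart (div x) : Divisor K F) w = w.ord x := by
    rw [posPart_apply, div_apply, max_eq_left hcon.le]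
  have hws : w ∈ (FF.posPart (div x) : Divisor K F).support.erase v := by
    rw [Finset.mem_erase, Finsupp.mem_support_iff, h6]
    exact ⟨hw, hcon.ne'⟩
  have h7 := Finset.single_le_sum hnn hws
  omega

theorem exists_unique_pole {x : F} (hx : Transcendental K x) (htop : K⟮x⟯ = ⊤) :
    ∃ v : Place K F, v.ord x = -1 ∧ ∀ w : Place K F, w ≠ v → 0 ≤ w.ord x := by
  have h : K⟮x⁻¹⟯ = K⟮x⟯ := by
    apply le_antisymm
    · rw [IntermediateField.adjoin_simple_le_iff]
      exact inv_mem (IntermediateField.mem_adjoin_simple_self K x)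
    · rw [IntermediateField.adjoin_simple_le_iff]
      have := inv_mem (IntermediateField.mem_adjoin_simple_self K x⁻¹)
      rwa [inv_inv] at this
  obtain ⟨v, hv1, hv2⟩ := exists_unique_zero (transcendental_inv hx) (h.trans htop)
  rw [v.ord_inv] at hv1
  refine ⟨v, by omega, fun w hw => ?_⟩
  have := hv2 w hw
  rw [w.ord_inv] at this
  omega

theorem adjoin_sub_const (x : F) (c : K) : K⟮x - algebraMap K F c⟯ = K⟮x⟯ := by
  apply le_antisymm
  · rw [IntermediateField.adjoin_simple_le_iff]
    exact sub_mem (IntermediateField.mem_adjoin_simple_self K x) (algebraMap_mem _ c)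
  · rw [IntermediateField.adjoin_simple_le_iff]
    have := add_mem (IntermediateField.mem_adjoin_simple_self K (x - algebraMap K F c))
      (algebraMap_mem K⟮x - algebraMap K F c⟯ c)
    rwa [sub_add_cancel] at this

theorem ord_pos_iff {v : Place K F} {f : F} (hf : f ≠ 0) :
    0 < v.ord f ↔ v.adicValuation f < 1 := by
  rw [val_lt_one_iff]
  constructor
  · exact Or.inr
  · rintro (h | h)
    · exact absurd h hf
    · exact h

theorem ord_neg_iff {v : Place K F} {f : F} :
    v.ord f < 0 ↔ 1 < v.adicValuation f := by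
  rw [← v.not_adicValuation_le_one_iff, not_le]

/-- Reciprocity for `x - c` and `x` in `K(x)`. -/
theorem RL_sub_const {x : F} (hx : Transcendental K x) (htop : K⟮x⟯ = ⊤) (c : K) :
    RL K (x - algebraMap K F c) x = 1 := by
  classical
  have hx0 : x ≠ 0 := trans_ne_zero hx
  rcases eq_or_ne c 0 with rfl | hc
  · rw [map_zero, sub_zero, RL_self hx0]
  have hxc : Transcendental K (x - algebraMap K F c) := transcendental_sub_const hx c
  have hxc0 : x - algebraMap K F c ≠ 0 := trans_ne_zero hxc
  obtain ⟨v0, hv0, hv0'⟩ := exists_unique_zero hx htop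
  obtain ⟨vi, hvi, hvi'⟩ := exists_unique_pole hx htop
  obtain ⟨vc, hvc, hvc'⟩ := exists_unique_zero hxc ((adjoin_sub_const x c).trans htop)
  have hcval : ∀ v : Place K F, v.adicValuation (algebraMap K F c) = 1 := fun v => val_const v hc
  -- order at the places
  have h1 : v0.adicValuation x < 1 := (ord_pos_iff hx0).mp (by omega)
  have h2 : v0.adicValuation (x - algebraMap K F c) = 1 := by
    rw [Valuation.map_sub_eq_of_lt_right _ (by rw [hcval]; exact h1), hcval]
  have h3 : uval v0 (x - algebraMap K F c) = -(Units.mk0 c hc) := by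
    apply uval_eq_of_lt
    have : x - algebraMap K F c - algebraMap K F ((-(Units.mk0 c hc) : Kˣ) : K) = x := by
      rw [Units.val_neg, Units.val_mk0, map_neg]
      ring
    rw [this]
    exact h1
  have h4 : vc.adicValuation (x - algebraMap K F c) < 1 := (ord_pos_iff hxc0).mp (by omega)
  have h5 : vc.adicValuation x = 1 := by
    have : x = (x - algebraMap K F c) + algebraMap K F c := by ring
    rw [this, Valuation.map_add_eq_of_lt_right _ (by rw [hcval]; exact h4), hcval]
  have h6 : uval vc x = Units.mk0 c hc := by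
    apply uval_eq_of_lt
    rw [Units.val_mk0]
    exact h4
  have h7 : 1 < vi.adicValuation x := ord_neg_iff.mp (by omega)
  have h8 : vi.ord (x - algebraMap K F c) = -1 := by
    have h9 : vi.adicValuation (x - algebraMap K F c) = vi.adicValuation x :=
      Valuation.map_sub_eq_of_lt_left _ (by rw [hcval]; exact h7)
    rw [vi.adicValuation_eq_exp_neg_ord hx0, vi.adicValuation_eq_exp_neg_ord hxc0, exp_inj] at h9
    omega
  have hne1 : v0 ≠ vc := by
    rintro rfl
    exact h2.not_lt h4
  have hne2 : v0 ≠ vi := by
    rintro rfl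
    exact absurd h1 (not_lt.mpr h7.le)
  have hne3 : vc ≠ vi := by
    rintro rfl
    omega
  have hsupp : (Function.mulSupport fun v : Place K F => tame v (x - algebraMap K F c) x) ⊆
      ↑({v0, vc, vi} : Finset (Place K F)) := by
    intro v hv
    by_contra hcon
    simp only [Finset.coe_insert, Finset.coe_singleton, Set.mem_insert_iff,
      Set.mem_singleton_iff, not_or] at hcon
    obtain ⟨hn0, hnc, hni⟩ := hcon
    have ha : v.ord x = 0 := le_antisymm (hv0' v hn0) (hvi' v hni)
    have hb : v.adicValuation x = 1 := val_one_iff.mpr ⟨hx0, ha⟩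
    have hd : v.ord (x - algebraMap K F c) = 0 := by
      refine le_antisymm (hvc' v hnc) ?_
      by_contra hlt
      push Not at hlt
      rw [ord_neg_iff] at hlt
      refine absurd hlt (not_lt.mpr ?_)
      exact (Valuation.map_sub _ _ _).trans (max_le hb.le (hcval v).le)
    exact hv (tame_of_units (val_one_iff.mpr ⟨hxc0, hd⟩) hb)
  unfold RL
  rw [finprod_eq_prod_of_mulSupport_subset _ hsupp, Finset.prod_insert (by
    simp [hne1, hne2]), Finset.prod_insert (by simp [hne3]), Finset.prod_singleton]
  rw [tame_of_unit_left h2, h3, hv0, tame_of_unit_right h5, h6, hvc, zpow_one, zpow_one]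
  have h10 : tame vi (x - algebraMap K F c) x = -1 := by
    unfold tame lsym
    rw [h8, hvi]
    apply uval_eq_of_lt
    have h11 : (-1 : F) ^ ((1 : ℤ) * -1 * -1) * (x - algebraMap K F c) ^ (-1 : ℤ) / x ^ (-1 : ℤ) -
        algebraMap K F ((-1 : Kˣ) : K) = - algebraMap K F c * (x - algebraMap K F c)⁻¹ := by
      simp only [zpow_neg, zpow_one, mul_neg, mul_one, neg_neg, Units.val_neg, Units.val_one,
        map_neg, map_one]
      field_simp
      ring
    rw [h11, map_mul, Valuation.map_neg, hcval, one_mul, map_inv₀]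
    apply inv_lt_one_of_one_lt₀
    rw [← ord_neg_iff]
    omega
  rw [h10]
  simp

theorem RL_rational {x : F} (hx : Transcendental K x) (htop : K⟮x⟯ = ⊤) (h : F) (hh : h ≠ 0) :
    RL K h x = 1 := by
  classical
  have hx0 : x ≠ 0 := trans_ne_zero hx
  have hpoly : ∀ p : Polynomial K, p ≠ 0 → Polynomial.aeval x p ≠ 0 ∧
      RL K (Polynomial.aeval x p) x = 1 := by
    intro p hp
    rw [Polynomial.Splits.eq_prod_roots (IsAlgClosed.splits p), map_mul, Polynomial.aeval_C]
    have hlc : p.leadingCoeff ≠ 0 := Polynomial.leadingCoeff_ne_zero.mpr hp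
    have hlc' : algebraMap K F p.leadingCoeff ≠ 0 := by simpa using hlc
    have hroots : ∀ s : Multiset K,
        Polynomial.aeval x (s.map fun a => Polynomial.X - Polynomial.C a).prod ≠ 0 ∧
        RL K (Polynomial.aeval x (s.map fun a => Polynomial.X - Polynomial.C a).prod) x = 1 := by
      intro s
      induction s using Multiset.induction_on with
      | empty =>
        simp only [Multiset.map_zero, Multiset.prod_zero, map_one]
        exact ⟨one_ne_zero, RL_one_left x⟩
      | cons a s ih =>
        rw [Multiset.map_cons, Multiset.prod_cons, map_mul, map_sub, Polynomial.aeval_X,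
          Polynomial.aeval_C]
        have h1 : x - algebraMap K F a ≠ 0 := trans_ne_zero (transcendental_sub_const hx a)
        refine ⟨mul_ne_zero h1 ih.1, ?_⟩
        rw [RL_mul_left h1 ih.1 hx0, ih.2, RL_sub_const hx htop, one_mul]
    refine ⟨mul_ne_zero hlc' (hroots _).1, ?_⟩
    rw [RL_mul_left hlc' (hroots _).1 hx0, (hroots _).2, RL_const_left hlc x, one_mul]
  have hmem : h ∈ K⟮x⟯ := by
    rw [htop]
    exact IntermediateField.mem_top
  rw [IntermediateField.mem_adjoin_simple_iff] at hmem
  obtain ⟨r, s, rfl⟩ := hmem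
  have hr : r ≠ 0 := by
    rintro rfl
    simp at hh
  have hs : s ≠ 0 := by
    rintro rfl
    simp at hh
  rw [div_eq_mul_inv, RL_mul_left (hpoly r hr).1 (inv_ne_zero (hpoly s hs).1) hx0,
    RL_inv_left (hpoly s hs).1 hx0, (hpoly r hr).2, (hpoly s hs).2, inv_one, one_mul]

end

end Fermat.Agent.WP
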