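import Fermat.Agent.WP.Ev

/-!
# Tame symbols
-/

set_option autoImplicit false
set_option linter.unusedSectionVars false

noncomputable section

open AlgebraicCurve IsDedekindDomain WithZero IsLocalRing

namespace Fermat.Agent.WP

open Fermat.Agent.H05 Fermat.Agent.FF

section

variable {K F : Type*} [Field K] [Field F] [Algebra K F] [IsAlgClosed K] [FunField K F]

theorem val_one_iff {v : Place K F} {f : F} :
    v.adicValuation f = 1 ↔ f ≠ 0 ∧ v.ord f = 0 := by
  rw [show (1 : ℤᵐ⁰) = exp 0 from rfl, val_eq_exp_iff, neg_zero]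

/-- The local symbol of `(a, f)`, `(b, g)`, where `ord f = m a` and `ord g = m b`. -/
def lsym (m : ℤ) (v : Place K F) (a : ℤ) (f : F) (b : ℤ) (g : F) : Kˣ :=
  uval v ((-1) ^ (m * a * b) * f ^ b / g ^ a)

theorem lsym_unit {m : ℤ} {v : Place K F} {a b : ℤ} {f g : F} (hf : f ≠ 0) (hg : g ≠ 0)
    (hfa : v.ord f = m * a) (hgb : v.ord g = m * b) :
    v.adicValuation ((-1) ^ (m * a * b) * f ^ b / g ^ a) = 1 := by
  rw [val_one_iff]
  have h1 : ((-1 : F) ^ (m * a * b)) ≠ 0 := zpow_ne_zero _ (neg_ne_zero.mpr one_ne_zero)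
  have h2 : v.ord ((-1 : F) ^ (m * a * b)) = 0 := by
    rw [v.ord_zpow, H18.ord_neg, v.ord_one, mul_zero]
  refine ⟨div_ne_zero (mul_ne_zero h1 (zpow_ne_zero _ hf)) (zpow_ne_zero _ hg), ?_⟩
  rw [div_eq_mul_inv, v.ord_mul (mul_ne_zero h1 (zpow_ne_zero _ hf))
    (inv_ne_zero (zpow_ne_zero _ hg)), v.ord_mul h1 (zpow_ne_zero _ hf), h2, v.ord_zpow,
    v.ord_inv, v.ord_zpow, hfa, hgb]
  ring

theorem lsym_mul_left {m : ℤ} {v : Place K F} {a a' b : ℤ} {f f' g : F} (hf : f ≠ 0)
    (hf' : f' ≠ 0) (hg : g ≠ 0)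
    (hfa : v.ord f = m * a) (hfa' : v.ord f' = m * a') (hgb : v.ord g = m * b) :
    lsym m v (a + a') (f * f') b g = lsym m v a f b g * lsym m v a' f' b g := by
  unfold lsym
  rw [← uval_mul (lsym_unit hf hg hfa hgb) (lsym_unit hf' hg hfa' hgb)]
  congr 1
  have h1 : (-1 : F) ≠ 0 := neg_ne_zero.mpr one_ne_zero
  rw [mul_zpow, show m * (a + a') * b = m * a * b + m * a' * b by ring, zpow_add₀ h1,
    zpow_add₀ hg]
  field_simp

theorem lsym_symm (m : ℤ) (v : Place K F) (a : ℤ) (f : F) (b : ℤ) (g : F) :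
    lsym m v b g a f = (lsym m v a f b g)⁻¹ := by
  unfold lsym
  rw [← uval_inv]
  congr 1
  rw [inv_div, show m * b * a = m * a * b by ring]
  have h1 : ((-1 : F) ^ (m * a * b))⁻¹ = (-1) ^ (m * a * b) := by
    rw [← inv_zpow, inv_neg, inv_one]
  rw [div_eq_mul_inv, div_eq_mul_inv, mul_inv, h1]
  ring

theorem lsym_mul_right {m : ℤ} {v : Place K F} {a b b' : ℤ} {f g g' : F} (hf : f ≠ 0)
    (hg : g ≠ 0) (hg' : g' ≠ 0)
    (hfa : v.ord f = m * a) (hgb : v.ord g = m * b) (hgb' : v.ord g' = m * b') :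
    lsym m v a f (b + b') (g * g') = lsym m v a f b g * lsym m v a f b' g' := by
  rw [lsym_symm m v (b + b') (g * g') a f, lsym_mul_left hg hg' hf hgb hgb' hfa, mul_inv,
    ← lsym_symm, ← lsym_symm]

/-- The tame symbol. -/
def tame (v : Place K F) (f g : F) : Kˣ := lsym 1 v (v.ord f) f (v.ord g) g

theorem tame_mul_left (v : Place K F) {f f' g : F} (hf : f ≠ 0) (hf' : f' ≠ 0) (hg : g ≠ 0) :
    tame v (f * f') g = tame v f g * tame v f' g := by
  unfold tame
  rw [v.ord_mul hf hf']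
  exact lsym_mul_left hf hf' hg (by ring) (by ring) (by ring)

theorem tame_symm (v : Place K F) (f g : F) : tame v g f = (tame v f g)⁻¹ :=
  lsym_symm _ _ _ _ _ _

theorem tame_mul_right (v : Place K F) {f g g' : F} (hf : f ≠ 0) (hg : g ≠ 0) (hg' : g' ≠ 0) :
    tame v f (g * g') = tame v f g * tame v f g' := by
  rw [tame_symm v (g * g') f, tame_mul_left v hg hg' hf, mul_inv, ← tame_symm, ← tame_symm]

theorem tame_of_unit_left {v : Place K F} {f : F} (hf : v.adicValuation f = 1) (g : F) :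
    tame v f g = uval v f ^ v.ord g := by
  obtain ⟨hf0, hf1⟩ := val_one_iff.mp hf
  unfold tame lsym
  rw [hf1, mul_zero, zero_mul, zpow_zero, zpow_zero, one_mul, div_one, uval_zpow v f hf]

theorem tame_of_unit_right {v : Place K F} {g : F} (hg : v.adicValuation g = 1) (f : F) :
    tame v f g = (uval v g ^ v.ord f)⁻¹ := by
  rw [tame_symm v g f, tame_of_unit_left hg]

theorem tame_of_units {v : Place K F} {f g : F} (hf : v.adicValuation f = 1)
    (hg : v.adicValuation g = 1) : tame v f g = 1 := by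
  rw [tame_of_unit_left hf, (val_one_iff.mp hg).2, zpow_zero]

theorem tame_one_left (v : Place K F) (g : F) : tame v 1 g = 1 := by
  rw [tame_of_unit_left (map_one _), uval_one, one_zpow]

theorem tame_one_right (v : Place K F) (f : F) : tame v f 1 = 1 := by
  rw [tame_symm v 1 f, tame_one_left, inv_one]

theorem tame_inv_left (v : Place K F) {f g : F} (hf : f ≠ 0) (hg : g ≠ 0) :
    tame v f⁻¹ g = (tame v f g)⁻¹ := by
  have h := tame_mul_left v hf (inv_ne_zero hf) hg
  rw [mul_inv_cancel₀ hf, tame_one_left] at h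
  exact (inv_eq_of_mul_eq_one_right h.symm).symm

theorem tame_inv_right (v : Place K F) {f g : F} (hf : f ≠ 0) (hg : g ≠ 0) :
    tame v f g⁻¹ = (tame v f g)⁻¹ := by
  rw [tame_symm v g⁻¹ f, tame_inv_left v hg hf, ← tame_symm]

theorem tame_pow_left (v : Place K F) {f g : F} (hf : f ≠ 0) (hg : g ≠ 0) (n : ℕ) :
    tame v (f ^ n) g = tame v f g ^ n := by
  induction n with
  | zero => rw [pow_zero, pow_zero, tame_one_left]
  | succ n ih => rw [pow_succ, pow_succ, tame_mul_left v (pow_ne_zero _ hf) hf hg, ih]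

theorem tame_zpow_left (v : Place K F) {f g : F} (hf : f ≠ 0) (hg : g ≠ 0) (n : ℤ) :
    tame v (f ^ n) g = tame v f g ^ n := by
  cases n with
  | ofNat n => rw [Int.ofNat_eq_natCast, zpow_natCast, zpow_natCast, tame_pow_left v hf hg]
  | negSucc n =>
    rw [zpow_negSucc, zpow_negSucc, tame_inv_left v (pow_ne_zero _ hf) hg, tame_pow_left v hf hg]

theorem tame_zpow_right (v : Place K F) {f g : F} (hf : f ≠ 0) (hg : g ≠ 0) (n : ℤ) :
    tame v f (g ^ n) = tame v f g ^ n := by
  rw [tame_symm v (g ^ n) f, tame_zpow_left v hg hf, ← inv_zpow, ← tame_symm]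

theorem tame_self (v : Place K F) {f : F} (hf : f ≠ 0) :
    tame v f f = (-1) ^ v.ord f := by
  unfold tame lsym
  rw [one_mul, mul_div_assoc, div_self (zpow_ne_zero _ hf), mul_one]
  apply uval_eq_of_lt
  have h2 : Even (v.ord f * v.ord f - v.ord f) := by
    have := Int.even_mul_pred_self (v.ord f)
    rwa [mul_sub, mul_one] at this
  have h3 : (-1 : F) ^ (v.ord f * v.ord f) = (-1) ^ v.ord f := by
    have h4 : v.ord f * v.ord f = (v.ord f * v.ord f - v.ord f) + v.ord f := by ring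
    rw [h4, zpow_add₀ (neg_ne_zero.mpr one_ne_zero), h2.neg_one_zpow, one_mul]
  rw [h3]
  have h5 : algebraMap K F (((-1 : Kˣ) ^ v.ord f : Kˣ) : K) = (-1) ^ v.ord f := by
    rw [Units.val_zpow_eq_zpow_val, map_zpow₀, Units.val_neg, Units.val_one, map_neg, map_one]
  rw [h5, sub_self, map_zero]
  exact zero_lt_one

/-- the principal local pair -/
theorem lsym_principal {m : ℤ} {v : Place K F} {b : ℤ} {f g : F}
    (hgb : v.ord g = m * b) : lsym m v (v.ord f) (f ^ m) b g = tame v f g := by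
  unfold tame lsym
  congr 1
  rw [hgb, ← zpow_mul, one_mul]
  congr 3
  ring

end

end Fermat.Agent.WP
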